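import Mathlib
import Fermat.Prelude.Def_GaloisRep_Residual
import Fermat.Prelude.Def_Deformations_MatrixRepresentation

/-!
# Weight one forms and their Galois representations: shared interfaces

`a` is a system of eigenvalues indexed by the primes not dividing `N`, `e` its character.
-/

set_option autoImplicit false

open CongruenceSubgroup
open scoped MatrixGroups

noncomputable section

namespace FermatAgent.DS

/-- The absolute Galois group of `ℚ`. -/
abbrev GQ : Type := AlgebraicClosure ℚ ≃ₐ[ℚ] AlgebraicClosure ℚ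

/-- `p` is a prime not dividing `N`. -/
def IsGood (N p : ℕ) : Prop := p.Prime ∧ ¬ p ∣ N

/-- A normalised weight one eigenform with character `ε`, as in the Hecke relations at good
primes. -/
def IsEigenOne (N : ℕ) (ε : DirichletCharacter ℂ N) (f : CuspForm (Gamma1 N) 1) : Prop :=
  ModularFormClass.qCoeff f 1 = 1 ∧
    ∀ p : ℕ, p.Prime → ¬ p ∣ N → ∀ n : ℕ,
      ModularFormClass.qCoeff f (p * n) +
          ε (p : ZMod N) * (if p ∣ n then ModularFormClass.qCoeff f (n / p) else 0) =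
        ModularFormClass.qCoeff f p * ModularFormClass.qCoeff f n

/-- The representation is irreducible or a sum of two characters in the standard basis. -/
def IsSplitOrIrreducible {k : Type} [Field k] (ρ : GQ →* GL (Fin 2) k) : Prop :=
  (Deformation.matrixRepresentation ρ).IsIrreducible ∨
    ∀ σ : GQ, ((ρ σ : GL (Fin 2) k) : Matrix (Fin 2) (Fin 2) k) 0 1 = 0 ∧
      ((ρ σ : GL (Fin 2) k) : Matrix (Fin 2) (Fin 2) k) 1 0 = 0

/-- `ρ` is a representation modulo the maximal ideal of `O` attached to the system `(a, ε)`. -/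
def IsModRep (N ℓ : ℕ) (ε : DirichletCharacter ℂ N) (a : ℕ → ℂ) (O : ValuationSubring ℂ)
    (ρ : GQ →* GL (Fin 2) (IsLocalRing.ResidueField O)) : Prop :=
  GaloisFactorsThroughFiniteLevel ρ ∧ IsSplitOrIrreducible ρ ∧
    ∀ p : ℕ, p.Prime → ¬ p ∣ N * ℓ →
      ∀ A : ValuationSubring (AlgebraicClosure ℚ), A.LiesOverPrime p →
        (∀ σ ∈ A.inertiaSubgroupIn ℚ, ρ σ = 1) ∧
        ∀ σ : GQ, A.IsFrobeniusAt σ p → ∃ (ha : a p ∈ O) (he : ε (p : ZMod N) ∈ O),
          ((ρ σ : GL (Fin 2) (IsLocalRing.ResidueField O)) :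
              Matrix (Fin 2) (Fin 2) (IsLocalRing.ResidueField O)).trace =
            IsLocalRing.residue O ⟨a p, ha⟩ ∧
          ((ρ σ : GL (Fin 2) (IsLocalRing.ResidueField O)) :
              Matrix (Fin 2) (Fin 2) (IsLocalRing.ResidueField O)).det =
            IsLocalRing.residue O ⟨ε (p : ZMod N), he⟩

/-- Representations exist modulo every valuation subring over a prime `ℓ ≥ 5` not dividing `N`. -/
def HasModReps (N : ℕ) (ε : DirichletCharacter ℂ N) (a : ℕ → ℂ) : Prop :=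
  ∀ ℓ : ℕ, ℓ.Prime → 5 ≤ ℓ → ¬ ℓ ∣ N → ∀ O : ValuationSubring ℂ,
    (ℓ : O) ∈ IsLocalRing.maximalIdeal O →
      ∃ ρ : GQ →* GL (Fin 2) (IsLocalRing.ResidueField O), IsModRep N ℓ ε a O ρ

/-- `∑ g(p) p ^ (-s)` over the primes. -/
def primeSum (g : ℕ → ℝ) (s : ℝ) : ℝ := ∑' p : Nat.Primes, g p * ((p : ℕ) : ℝ) ^ (-s)

open Classical in
/-- The real function equal to `g` at good primes and zero elsewhere. -/
def onGood (N : ℕ) (g : ℕ → ℝ) (p : ℕ) : ℝ := if IsGood N p then g p else 0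

/-- The squares of the absolute values of the eigenvalues at good primes. -/
def normSqSys (N : ℕ) (a : ℕ → ℂ) : ℕ → ℝ := onGood N fun p => ‖a p‖ ^ 2

/-- The weak Rankin bound. -/
def RankinWeak (N : ℕ) (a : ℕ → ℂ) : Prop :=
  ∃ C : ℝ, ∀ s : ℝ, 1 < s → s ≤ 2 →
    (Summable fun p : Nat.Primes => normSqSys N a p * ((p : ℕ) : ℝ) ^ (-s)) ∧
    primeSum (normSqSys N a) s ≤ C * (Real.log (1 / (s - 1)) + 1)

/-- The sharp Rankin bound, valid for a bounded system. -/
def RankinSharp (N : ℕ) (a : ℕ → ℂ) : Prop :=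
  (∃ B : ℝ, ∀ p, IsGood N p → ‖a p‖ ≤ B) →
    ∃ C : ℝ, ∀ s : ℝ, 1 < s → s ≤ 2 →
      primeSum (normSqSys N a) s ≤ Real.log (1 / (s - 1)) + C

open Classical in
/-- The indicator of the primes outside `S` with a Frobenius whose image is conjugate to `g`. -/
def frobInd {G : Type} [Group G] (φ : GQ →* G) (S : Finset ℕ) (g : G) (p : ℕ) : ℝ :=
  if p ∉ S ∧ ∃ (A : ValuationSubring (AlgebraicClosure ℚ)) (σ : GQ),
      A.LiesOverPrime p ∧ A.IsFrobeniusAt σ p ∧ IsConj g (φ σ) then 1 else 0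

/-- The eigenvalues lie in a number field, are integral, and every conjugate system comes from a
normalised eigenform. -/
def HasCoeffField (N : ℕ) (a : ℕ → ℂ) : Prop :=
  ∃ K : IntermediateField ℚ ℂ, FiniteDimensional ℚ K ∧
    (∀ p, IsGood N p → IsIntegral ℤ (a p)) ∧
    ∃ h : ∀ p, IsGood N p → a p ∈ K,
      ∀ τ : K →+* ℂ, ∃ (ε' : DirichletCharacter ℂ N) (f' : CuspForm (Gamma1 N) 1),
        IsEigenOne N ε' f' ∧
        ∀ (p : ℕ) (hp : IsGood N p), ModularFormClass.qCoeff f' p = τ ⟨a p, h p hp⟩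

/-- An irreducible finite level representation to `GL₂(ℂ)`, unramified outside `N`, in which
Frobenius at `p` has trace `a p` and determinant `ε p`. -/
def HasArtinRep (N : ℕ) (ε : DirichletCharacter ℂ N) (a : ℕ → ℂ) : Prop :=
  ∃ ρ : GQ →* GL (Fin 2) ℂ, GaloisFactorsThroughFiniteLevel ρ ∧
    (Deformation.matrixRepresentation ρ).IsIrreducible ∧
    ∀ p : ℕ, p.Prime → ¬ p ∣ N →
      ∀ A : ValuationSubring (AlgebraicClosure ℚ), A.LiesOverPrime p →
        (∀ σ ∈ A.inertiaSubgroupIn ℚ, ρ σ = 1) ∧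
        ∀ σ : GQ, A.IsFrobeniusAt σ p →
          ((ρ σ : GL (Fin 2) ℂ) : Matrix (Fin 2) (Fin 2) ℂ).trace = a p ∧
          ((ρ σ : GL (Fin 2) ℂ) : Matrix (Fin 2) (Fin 2) ℂ).det = ε (p : ZMod N)

end FermatAgent.DS
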