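import Mathlib
import Fermat.Agent.DS.Defs

/-!
# Two-dimensional groups with few traces on a large subset are small

If the trace pairing is non-degenerate on the span of a finite subgroup of `GL₂(k)`, an element is
determined by its traces against at most four elements of the group.
-/

set_option autoImplicit false

noncomputable section

open Matrix Finset

namespace FermatAgent.DS

variable {k : Type} [Field k]

lemma mul_mul_self_eq_trace_smul_sub (a g : Matrix (Fin 2) (Fin 2) k) :
    a * g * a = (a * g).trace • a - a.det • g.adjugate := by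
  ext i j
  fin_cases i <;> fin_cases j <;>
    simp [Matrix.mul_apply, Fin.sum_univ_two, Matrix.trace_fin_two, Matrix.det_fin_two,
      Matrix.adjugate_fin_two] <;> ring

lemma sq_trace_two (a : Matrix (Fin 2) (Fin 2) k) :
    (a * a).trace = a.trace ^ 2 - 2 * a.det := by
  simp [Matrix.mul_apply, Fin.sum_univ_two, Matrix.trace_fin_two, Matrix.det_fin_two]
  ring

/-- The trace pairing is non-degenerate on the span of an irreducible or split representation. -/
theorem eq_zero_of_trace_mul_eq_zero (h2 : (2 : k) ≠ 0) (ρ : GQ →* GL (Fin 2) k)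
    (h : IsSplitOrIrreducible ρ) {a : Matrix (Fin 2) (Fin 2) k}
    (ha : a ∈ Submodule.span k (Set.range fun σ => (ρ σ).val))
    (h0 : ∀ σ, (a * (ρ σ).val).trace = 0) : a = 0 := by
  have htr : a.trace = 0 := by simpa using h0 1
  have hsq : (a * a).trace = 0 := by
    refine Submodule.span_induction (p := fun x _ => (a * x).trace = 0) ?_ (by simp) ?_ ?_ ha
    · rintro x ⟨σ, rfl⟩
      exact h0 σ
    · intro x y _ _ hx hy
      rw [mul_add, Matrix.trace_add, hx, hy, add_zero]
    · intro c x _ hx
      rw [Matrix.mul_smul, Matrix.trace_smul, hx, smul_zero]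
  have hdet : a.det = 0 := by
    rw [sq_trace_two, htr] at hsq
    simpa [h2] using hsq
  rcases h with hirr | hdiag
  · by_contra hne
    have hkill : ∀ σ : GQ, a * (ρ σ).val * a = 0 := fun σ => by
      rw [mul_mul_self_eq_trace_smul_sub, h0, hdet, zero_smul, zero_smul, sub_zero]
    let W : Subrepresentation (Deformation.matrixRepresentation ρ) :=
      { toSubmodule := ⨅ σ : GQ, LinearMap.ker (Matrix.mulVecLin (a * (ρ σ).val))
        apply_mem_toSubmodule := fun g v hv => by
          simp only [Submodule.mem_iInf, LinearMap.mem_ker, Matrix.mulVecLin_apply] at hv ⊢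
          intro σ
          rw [Deformation.matrixRepresentation_apply, Matrix.mulVecLin_apply, Matrix.mulVec_mulVec,
            Matrix.mul_assoc, ← Units.val_mul, ← map_mul]
          exact hv (σ * g) }
    obtain ⟨j, hj⟩ : ∃ j, a *ᵥ Pi.single j (1 : k) ≠ 0 := by
      by_contra hall
      push Not at hall
      refine hne ?_
      ext i j
      simpa using congrFun (hall j) i
    rcases (hirr : IsSimpleOrder _).eq_bot_or_eq_top W with hW | hW
    · refine hj ?_
      have hmem : a *ᵥ Pi.single j (1 : k) ∈ W.toSubmodule := by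
        simp only [W, Submodule.mem_iInf, LinearMap.mem_ker, Matrix.mulVecLin_apply,
          Matrix.mulVec_mulVec, hkill]
        exact fun _ => Matrix.zero_mulVec _
      rw [hW] at hmem
      exact (Submodule.mem_bot k).mp hmem
    · refine hj ?_
      have hmem : Pi.single j (1 : k) ∈ W.toSubmodule := by
        rw [hW]
        trivial
      simp only [W, Submodule.mem_iInf, LinearMap.mem_ker, Matrix.mulVecLin_apply] at hmem
      simpa using hmem 1
  · have h01 : a 0 1 = 0 ∧ a 1 0 = 0 := by
      refine Submodule.span_induction (p := fun x _ => x 0 1 = 0 ∧ x 1 0 = 0) ?_ (by simp) ?_ ?_ ha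
      · rintro x ⟨σ, rfl⟩
        exact hdiag σ
      · intro x y _ _ hx hy
        simp [hx.1, hx.2, hy.1, hy.2]
      · intro c x _ hx
        simp [hx.1, hx.2]
    rw [Matrix.trace_fin_two] at htr
    rw [Matrix.det_fin_two, h01.1, h01.2, zero_mul, sub_zero, eq_neg_of_add_eq_zero_right htr,
      mul_neg, neg_eq_zero, mul_self_eq_zero] at hdet
    ext i j
    fin_cases i <;> fin_cases j <;> first
      | exact hdet
      | exact h01.1
      | exact h01.2
      | (show a 1 1 = 0; rw [eq_neg_of_add_eq_zero_right htr, hdet, neg_zero])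

/-- A finite image with traces in a set of size `M` outside a subset of relative size at most
`1/8` has at most `2 M ^ 4` elements. -/
theorem card_le_of_trace_mem (h2 : (2 : k) ≠ 0) (ρ : GQ →* GL (Fin 2) k)
    (h : IsSplitOrIrreducible ρ) [Fintype ρ.range] (T : Finset k) (hT : T.Nonempty)
    [DecidablePred fun g : ρ.range => (g.1.val).trace ∉ T]
    (hbad : 8 * (univ.filter fun g : ρ.range => (g.1.val).trace ∉ T).card ≤ Fintype.card ρ.range) :
    Fintype.card ρ.range ≤ 2 * T.card ^ 4 := by
  classical
  set V : ρ.range → Matrix (Fin 2) (Fin 2) k := fun g => g.1.val with hV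
  set B := univ.filter fun g : ρ.range => (g.1.val).trace ∉ T with hB
  obtain ⟨b, hbsub, hbspan, hbli⟩ := exists_linearIndependent k (Set.range V)
  have : Fintype b :=
    Set.Finite.fintype ((Set.finite_range V).subset hbsub)
  have hb4 : Fintype.card b ≤ 4 := by
    have := hbli.fintype_card_le_finrank
    simpa [Module.finrank_matrix] using this
  choose d hd using fun x : b => hbsub x.2
  set S := univ.filter fun g : ρ.range => ∀ x, (V (g * d x)).trace ∈ T with hS
  have hinj : ∀ g ∈ S, ∀ g' ∈ S, (∀ x, (V (g * d x)).trace = (V (g' * d x)).trace) → g = g' := by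
    intro g _ g' _ heq
    have hmem : V g - V g' ∈ Submodule.span k (Set.range fun σ => (ρ σ).val) := by
      refine sub_mem ?_ ?_
      · obtain ⟨σ, hσ⟩ := g.2
        exact Submodule.subset_span ⟨σ, by rw [hV]; simp only [← hσ]⟩
      · obtain ⟨σ, hσ⟩ := g'.2
        exact Submodule.subset_span ⟨σ, by rw [hV]; simp only [← hσ]⟩
    have hz := eq_zero_of_trace_mul_eq_zero h2 ρ h hmem fun σ => by
      have hσ : (ρ σ).val ∈ Submodule.span k b := by
        rw [hbspan]
        exact Submodule.subset_span ⟨⟨ρ σ, σ, rfl⟩, rfl⟩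
      refine Submodule.span_induction (p := fun x _ => ((V g - V g') * x).trace = 0) ?_ (by simp)
        ?_ ?_ hσ
      · intro x hx
        have := heq ⟨x, hx⟩
        simp only [hV, Subgroup.coe_mul, Units.val_mul] at this
        have hdx := hd ⟨x, hx⟩
        simp only [hV] at hdx
        rw [hdx] at this
        rw [sub_mul, Matrix.trace_sub, hV, this, sub_self]
      · intro x y _ _ hx hy
        rw [mul_add, Matrix.trace_add, hx, hy, add_zero]
      · intro c x _ hx
        rw [Matrix.mul_smul, Matrix.trace_smul, hx, smul_zero]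
    exact Subtype.ext (Units.ext (sub_eq_zero.mp hz))
  have hScard : S.card ≤ T.card ^ 4 := by
    have hmap : S.card ≤ (Fintype.piFinset fun _ : b => T).card := by
      refine Finset.card_le_card_of_injOn (fun g x => (V (g * d x)).trace) (fun g hg => ?_)
        fun g hg g' hg' he => hinj g hg g' hg' (congrFun he)
      rw [Finset.mem_coe, Fintype.mem_piFinset]
      exact (Finset.mem_filter.mp hg).2
    rw [Fintype.card_piFinset, Finset.prod_const, Finset.card_univ] at hmap
    exact hmap.trans (Nat.pow_le_pow_right hT.card_pos hb4)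
  have hcompl : Sᶜ.card ≤ 4 * B.card := by
    have hsub : Sᶜ ⊆ (univ : Finset b).biUnion fun x => B.image fun g => g * (d x)⁻¹ := by
      intro g hg
      simp only [hS, Finset.compl_filter, Finset.mem_filter, Finset.mem_univ, true_and,
        not_forall] at hg
      obtain ⟨x, hx⟩ := hg
      rw [Finset.mem_biUnion]
      refine ⟨x, Finset.mem_univ x, Finset.mem_image.mpr ⟨g * d x, ?_, mul_inv_cancel_right g _⟩⟩
      exact Finset.mem_filter.mpr ⟨Finset.mem_univ _, hx⟩
    refine (Finset.card_le_card hsub).trans (Finset.card_biUnion_le.trans ?_)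
    refine (Finset.sum_le_card_nsmul _ _ B.card fun x _ => Finset.card_image_le).trans ?_
    rw [smul_eq_mul, Finset.card_univ]
    exact Nat.mul_le_mul_right _ hb4
  have := Finset.card_add_card_compl S
  omega

/-- A reducible complex representation has trace the sum of two characters. -/
theorem exists_characters_of_not_irreducible (ρ : GQ →* GL (Fin 2) k)
    (h : ¬ (Deformation.matrixRepresentation ρ).IsIrreducible) :
    ∃ χ : GQ →* kˣ, (∀ σ : GQ, ρ σ = 1 → χ σ = 1) ∧ ∀ σ : GQ, (ρ σ).val.trace =
      (χ σ : k) + (ρ σ).val.det * ((χ σ)⁻¹ : kˣ) := by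
  have hnt : Nontrivial (Subrepresentation (Deformation.matrixRepresentation ρ)) := by
    refine ⟨⊥, ⊤, fun he => ?_⟩
    have h1 : (Pi.single 0 1 : Fin 2 → k) ∈ (⊥ : Submodule k (Fin 2 → k)) := by
      rw [show (⊥ : Submodule k (Fin 2 → k)) = ⊤ from congrArg Subrepresentation.toSubmodule he]
      trivial
    simp at h1
  obtain ⟨W, hWb, hWt⟩ : ∃ W : Subrepresentation (Deformation.matrixRepresentation ρ),
      W ≠ ⊥ ∧ W ≠ ⊤ := by
    by_contra hall
    push Not at hall
    exact h ⟨fun W => or_iff_not_imp_left.mpr (hall W)⟩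
  obtain ⟨v, hv, hv0⟩ := Submodule.exists_mem_ne_zero_of_ne_bot
    fun he => hWb (Subrepresentation.toSubmodule_injective he)
  have hone : W.toSubmodule = k ∙ v := by
    refine (Submodule.eq_of_le_of_finrank_le ((Submodule.span_singleton_le_iff_mem _ _).mpr hv)
      ?_).symm
    rw [finrank_span_singleton hv0]
    have hlt := Submodule.finrank_lt (s := W.toSubmodule)
      fun he => hWt (Subrepresentation.toSubmodule_injective he)
    rw [Module.finrank_fin_fun] at hlt
    omega
  have heig : ∀ σ : GQ, ∃ c : k, (ρ σ).val *ᵥ v = c • v := fun σ => by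
    have h1 := W.apply_mem_toSubmodule σ hv
    rw [hone, Submodule.mem_span_singleton] at h1
    obtain ⟨c, hc⟩ := h1
    exact ⟨c, by rw [hc]; simp [Deformation.matrixRepresentation_apply]⟩
  choose c hc using heig
  have hinj : ∀ {x y : k}, x • v = y • v → x = y := fun h => smul_left_injective k hv0 h
  let χ₀ : GQ →* k :=
    { toFun := c
      map_one' := hinj (by rw [← hc, map_one, Units.val_one, Matrix.one_mulVec, one_smul])
      map_mul' := fun σ τ => hinj (by
        rw [← hc, map_mul, Units.val_mul, ← Matrix.mulVec_mulVec, hc, Matrix.mulVec_smul, hc,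
          smul_smul, mul_comm]) }
  refine ⟨χ₀.toHomUnits, fun σ hσ => Units.ext (hinj (y := 1) ?_), fun σ => ?_⟩
  · show c σ • v = (1 : k) • v
    rw [← hc, hσ, Units.val_one, Matrix.one_mulVec, one_smul]
  set M := (ρ σ).val with hM
  have hc0 : c σ ≠ 0 := (χ₀.toHomUnits σ).ne_zero
  have hquad : c σ * c σ - M.trace * c σ + M.det = 0 := by
    refine hinj (y := 0) ?_
    have hCH : (M * M - M.trace • M + M.det • (1 : Matrix (Fin 2) (Fin 2) k)) = 0 := by
      ext i j
      fin_cases i <;> fin_cases j <;>
        simp [Matrix.mul_apply, Fin.sum_univ_two, Matrix.trace_fin_two, Matrix.det_fin_two] <;> ring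
    have := congrArg (fun X : Matrix (Fin 2) (Fin 2) k => X *ᵥ v) hCH
    simp only [Matrix.add_mulVec, Matrix.sub_mulVec, ← Matrix.mulVec_mulVec, Matrix.smul_mulVec,
      hM, hc, Matrix.mulVec_smul, smul_smul, Matrix.one_mulVec, Matrix.zero_mulVec] at this
    rw [zero_smul, add_smul, sub_smul, ← hM] at *
    linear_combination (norm := module) this
  rw [Units.val_inv_eq_inv_val]
  show M.trace = c σ + M.det * (c σ)⁻¹
  field_simp
  linear_combination -hquad

end FermatAgent.DS
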