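import Mathlib.NumberTheory.ModularForms.Bounds
import Mathlib.NumberTheory.ModularForms.Cusps
import Mathlib.Analysis.Fourier.AddCircle
import Mathlib.Analysis.Complex.ExponentialBounds
import Mathlib.Analysis.PSeries
import Mathlib.NumberTheory.DirichletCharacter.Bounds
import Fermat.Prelude.Def_FLTPrelim_Modularity

/-!
# The upper bound of Rankin for forms of weight one

If `a` satisfies the Hecke recursion with unitary character at the primes prime to `N` and
`∑_{n < X} |a n| ^ 2 = O(X)`, then `∑_p |a p| ^ 2 p ^ (-s) ≤ log (1 / (s - 1)) + O(1)`.  For a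
cusp form of weight one the hypothesis is Parseval's identity and the boundedness of
`y ^ (1/2) |f|`. No continuation of the convolution series is used: the local inequality is
`exp (|a p| ^ 2 x) * (1 - x ^ 2) ≤ ∑ k, |a (p ^ k)| ^ 2 x ^ k`.
-/

set_option autoImplicit false

noncomputable section

open Finset Filter Topology UpperHalfPlane
open scoped Real MatrixGroups
open CongruenceSubgroup

namespace FermatAgent.DS

/-! ### The local inequality -/

section LocalIneq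

variable {b : ℕ → ℂ} {e : ℂ}

/-- `∑_j |b (m - 2 j)| ^ 2`. -/
def sqTail (b : ℕ → ℂ) : ℕ → ℝ
  | 0 => ‖b 0‖ ^ 2
  | 1 => ‖b 1‖ ^ 2
  | m + 2 => ‖b (m + 2)‖ ^ 2 + sqTail b m

lemma sqTail_nonneg : ∀ m, 0 ≤ sqTail b m
  | 0 => sq_nonneg _
  | 1 => sq_nonneg _
  | m + 2 => add_nonneg (sq_nonneg _) (sqTail_nonneg m)

lemma sq_le_two (he : ‖e‖ = 1) (hrec : ∀ k, b 1 * b (k + 1) = b (k + 2) + e * b k) (k : ℕ) :
    ‖b 1‖ ^ 2 * ‖b (k + 1)‖ ^ 2 ≤ 2 * ‖b (k + 2)‖ ^ 2 + 2 * ‖b k‖ ^ 2 := by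
  rw [← mul_pow, ← norm_mul, hrec]
  have h := norm_add_le (b (k + 2)) (e * b k)
  rw [norm_mul, he, one_mul] at h
  nlinarith [pow_le_pow_left₀ (norm_nonneg _) h 2, sq_nonneg (‖b (k + 2)‖ - ‖b k‖)]

lemma mul_sqTail_le (he : ‖e‖ = 1) (h0 : b 0 = 1)
    (hrec : ∀ k, b 1 * b (k + 1) = b (k + 2) + e * b k) :
    ∀ m, ‖b 1‖ ^ 2 * sqTail b (m + 1) ≤ 2 * ‖b (m + 2)‖ ^ 2 + 4 * sqTail b m
  | 0 => by
    have h := sq_le_two he hrec 0
    simp only [sqTail, h0, norm_one, one_pow, zero_add] at h ⊢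
    linarith
  | 1 => by
    have h := sq_le_two he hrec 1
    simp only [sqTail, h0, norm_one, one_pow] at h ⊢
    norm_num at h ⊢
    nlinarith [sq_nonneg ‖b 1‖]
  | m + 2 => by
    have h := sq_le_two he hrec (m + 2)
    have ih := mul_sqTail_le he h0 hrec m
    simp only [sqTail] at h ⊢
    linarith

lemma mul_sqTail_le_succ (he : ‖e‖ = 1) (h0 : b 0 = 1)
    (hrec : ∀ k, b 1 * b (k + 1) = b (k + 2) + e * b k) :
    ∀ m : ℕ, ‖b 1‖ ^ 2 * sqTail b m ≤ ((m : ℝ) + 1) * sqTail b (m + 1)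
  | 0 => by simp [sqTail, h0]
  | 1 => by
    have h := sq_le_two he hrec 0
    simp only [sqTail, h0, norm_one, one_pow, zero_add, Nat.cast_one] at h ⊢
    linarith
  | 2 => by
    have h := sq_le_two he hrec 1
    simp only [sqTail, h0, norm_one, one_pow, Nat.cast_ofNat] at h ⊢
    norm_num at h ⊢
    nlinarith [sq_nonneg ‖b 1‖, sq_nonneg ‖b 3‖]
  | m + 3 => by
    have h := mul_sqTail_le he h0 hrec (m + 2)
    have h1 : ‖b (m + 4)‖ ^ 2 + sqTail b (m + 2) = sqTail b (m + 4) := rfl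
    refine h.trans ?_
    push_cast
    rw [show m + 3 + 1 = m + 4 from rfl, ← h1]
    nlinarith [sq_nonneg ‖b (m + 4)‖, sqTail_nonneg (b := b) (m + 2),
      (Nat.cast_nonneg m : (0 : ℝ) ≤ m)]

lemma pow_div_factorial_le (he : ‖e‖ = 1) (h0 : b 0 = 1)
    (hrec : ∀ k, b 1 * b (k + 1) = b (k + 2) + e * b k) (m : ℕ) :
    (‖b 1‖ ^ 2) ^ m / (m.factorial : ℝ) ≤ sqTail b m := by
  induction m with
  | zero => simp [sqTail, h0]
  | succ m ih =>
    have hm : (0 : ℝ) < (m : ℝ) + 1 := by positivity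
    rw [div_le_iff₀ (by positivity)] at ih ⊢
    rw [pow_succ, Nat.factorial_succ]
    push_cast
    calc (‖b 1‖ ^ 2) ^ m * ‖b 1‖ ^ 2 ≤ sqTail b m * m.factorial * ‖b 1‖ ^ 2 :=
          mul_le_mul_of_nonneg_right ih (sq_nonneg _)
      _ = ‖b 1‖ ^ 2 * sqTail b m * m.factorial := by ring
      _ ≤ ((m : ℝ) + 1) * sqTail b (m + 1) * m.factorial :=
          mul_le_mul_of_nonneg_right (mul_sqTail_le_succ he h0 hrec m) (by positivity)
      _ = _ := by ring

lemma sum_sqTail_eq (x : ℝ) (M : ℕ) :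
    ∑ m ∈ range (M + 2), sqTail b m * x ^ m =
      ∑ m ∈ range (M + 2), ‖b m‖ ^ 2 * x ^ m + x ^ 2 * ∑ m ∈ range M, sqTail b m * x ^ m := by
  induction M with
  | zero => simp [Finset.sum_range_succ, sqTail]
  | succ M ih =>
    rw [Finset.sum_range_succ, ih, Finset.sum_range_succ _ (M + 2), Finset.sum_range_succ _ M]
    rw [sqTail]
    ring

/-- **The local inequality.** -/
theorem local_le (he : ‖e‖ = 1) (h0 : b 0 = 1)
    (hrec : ∀ k, b 1 * b (k + 1) = b (k + 2) + e * b k) {x : ℝ} (hx0 : 0 ≤ x) (hx : x ≤ 1)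
    (M : ℕ) :
    (1 - x ^ 2) * ∑ m ∈ range M, (‖b 1‖ ^ 2 * x) ^ m / (m.factorial : ℝ) ≤
      ∑ m ∈ range (M + 2), ‖b m‖ ^ 2 * x ^ m := by
  have hx2 : 0 ≤ 1 - x ^ 2 := by nlinarith
  refine (mul_le_mul_of_nonneg_left (Finset.sum_le_sum fun m _ => ?_) hx2).trans
    (b := (1 - x ^ 2) * ∑ m ∈ range M, sqTail b m * x ^ m) ?_
  · rw [mul_pow, mul_div_right_comm]
    exact mul_le_mul_of_nonneg_right (pow_div_factorial_le he h0 hrec m) (pow_nonneg hx0 m)
  · have h := sum_sqTail_eq (b := b) x M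
    have hle : ∑ m ∈ range M, sqTail b m * x ^ m ≤ ∑ m ∈ range (M + 2), sqTail b m * x ^ m :=
      Finset.sum_le_sum_of_subset_of_nonneg (Finset.range_subset_range.2 (by omega))
        fun m _ _ => mul_nonneg (sqTail_nonneg m) (pow_nonneg hx0 m)
    linarith

end LocalIneq

/-! ### Sums over numbers -/

/-- The numbers with prime factors among the list and exponents below `M`. -/
def smoothBox (M : ℕ) : List ℕ → Finset ℕ
  | [] => {1}
  | p :: l => ((range M) ×ˢ smoothBox M l).image fun q => p ^ q.1 * q.2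

lemma smoothBox_spec (M : ℕ) : ∀ l : List ℕ, (∀ p ∈ l, p.Prime) →
    ∀ n ∈ smoothBox M l, n ≠ 0 ∧ ∀ q, q.Prime → q ∣ n → q ∈ l
  | [], _, n, hn => by
    rw [smoothBox, Finset.mem_singleton] at hn
    subst hn
    exact ⟨one_ne_zero, fun q hq h => absurd (Nat.dvd_one.1 h) hq.ne_one⟩
  | p :: l, hl, n, hn => by
    simp only [smoothBox, Finset.mem_image, Finset.mem_product] at hn
    obtain ⟨⟨k, m⟩, ⟨-, hm⟩, rfl⟩ := hn
    obtain ⟨hm0, hmq⟩ := smoothBox_spec M l (fun q hq => hl q (List.mem_cons_of_mem _ hq)) m hm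
    have hp : p.Prime := hl p List.mem_cons_self
    refine ⟨mul_ne_zero (pow_ne_zero _ hp.ne_zero) hm0, fun q hq h => ?_⟩
    rcases (Nat.Prime.dvd_mul hq).1 h with h | h
    · rw [(Nat.prime_dvd_prime_iff_eq hq hp).1 (hq.dvd_of_dvd_pow h)]
      exact List.mem_cons_self
    · exact List.mem_cons_of_mem _ (hmq q hq h)

lemma prod_sum_eq_smoothBox (M : ℕ) (g : ℕ → ℝ) (g1 : g 1 = 1) :
    ∀ l : List ℕ, l.Nodup → (∀ p ∈ l, p.Prime) →
      (∀ p ∈ l, ∀ k n, ¬ p ∣ n → n ≠ 0 → g (p ^ k * n) = g (p ^ k) * g n) →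
      (l.map fun p => ∑ k ∈ range M, g (p ^ k)).prod = ∑ n ∈ smoothBox M l, g n
  | [], _, _, _ => by simp [smoothBox, g1]
  | p :: l, hnd, hl, hg => by
    obtain ⟨hpl, hnd⟩ := List.nodup_cons.1 hnd
    have hl' : ∀ q ∈ l, q.Prime := fun q hq => hl q (List.mem_cons_of_mem _ hq)
    have hp : p.Prime := hl p List.mem_cons_self
    have hndvd : ∀ n ∈ smoothBox M l, ¬ p ∣ n := fun n hn h =>
      hpl ((smoothBox_spec M l hl' n hn).2 p hp h)
    rw [List.map_cons, List.prod_cons,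
      prod_sum_eq_smoothBox M g g1 l hnd hl' fun q hq => hg q (List.mem_cons_of_mem _ hq),
      Finset.sum_mul_sum, ← Finset.sum_product', smoothBox, Finset.sum_image]
    · refine Finset.sum_congr rfl fun x hx => ?_
      obtain ⟨-, hn⟩ := Finset.mem_product.1 hx
      exact (hg p List.mem_cons_self x.1 x.2 (hndvd _ hn) (smoothBox_spec M l hl' _ hn).1).symm
    · rintro ⟨k, m⟩ hx ⟨k', m'⟩ hy h
      simp only [Finset.coe_product, Set.mem_prod, Finset.mem_coe] at hx hy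
      simp only at h
      have hk : k = k' := by
        have := congrArg (fun n => n.factorization p) h
        simp only [Nat.factorization_mul (pow_ne_zero _ hp.ne_zero)
          (smoothBox_spec M l hl' _ hx.2).1,
          Nat.factorization_mul (pow_ne_zero _ hp.ne_zero) (smoothBox_spec M l hl' _ hy.2).1,
          Finsupp.add_apply, Nat.Prime.factorization_pow hp, Finsupp.single_eq_same,
          Nat.factorization_eq_zero_of_not_dvd (hndvd _ hx.2),
          Nat.factorization_eq_zero_of_not_dvd (hndvd _ hy.2), add_zero] at this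
        exact this
      subst hk
      exact Prod.ext rfl (Nat.eq_of_mul_eq_mul_left (pow_pos hp.pos k) h)

lemma one_div_one_sub_rpow_le {t : ℝ} (ht : 0 < t) (ht1 : t ≤ 1) :
    1 / (1 - (2 : ℝ) ^ (-t)) ≤ 4 / t ∧ (2 : ℝ) ^ (-t) < 1 := by
  have h2 : 1 + t / 2 ≤ (2 : ℝ) ^ t := by
    rw [Real.rpow_def_of_pos two_pos]
    refine le_trans ?_ (Real.add_one_le_exp _)
    nlinarith [Real.log_two_gt_d9]
  have hr : (2 : ℝ) ^ (-t) ≤ (1 + t / 2)⁻¹ := by
    rw [Real.rpow_neg two_pos.le]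
    exact inv_anti₀ (by positivity) h2
  have h3 : t / 4 ≤ 1 - (1 + t / 2)⁻¹ := by
    rw [le_sub_iff_add_le, ← le_sub_iff_add_le', inv_le_iff_one_le_mul₀ (by positivity)]
    nlinarith
  exact ⟨(one_div_le_one_div_of_le (by positivity) (h3.trans (by linarith))).trans_eq
    (by field_simp), by linarith⟩

/-- Dirichlet series of sequences with bounded means. -/
theorem sum_rpow_le {c : ℕ → ℝ} (hc : ∀ n, 0 ≤ c n) {C : ℝ}
    (hC : ∀ X : ℕ, ∑ n ∈ range X, c n ≤ C * X) {s : ℝ} (hs : 1 < s) (hs2 : s ≤ 2)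
    (S : Finset ℕ) (hS : 0 ∉ S) : ∑ n ∈ S, c n * (n : ℝ) ^ (-s) ≤ 8 * C / (s - 1) := by
  have hC0 : 0 ≤ C := by simpa using (Finset.sum_nonneg fun n _ => hc n).trans (hC 1)
  obtain ⟨hr4, hr1⟩ := one_div_one_sub_rpow_le (sub_pos.2 hs) (by linarith : s - 1 ≤ 1)
  set r : ℝ := (2 : ℝ) ^ (-(s - 1)) with hr
  have hr0 : 0 ≤ r := (Real.rpow_pos_of_pos two_pos _).le
  have key : ∀ K : ℕ, ∑ n ∈ Ico 1 (2 ^ K), c n * (n : ℝ) ^ (-s) ≤
      2 * C * ∑ k ∈ range K, r ^ k := by
    intro K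
    induction K with
    | zero => simp
    | succ K ih =>
      rw [← Finset.sum_Ico_consecutive _ (Nat.one_le_two_pow (n := K))
        (Nat.pow_le_pow_right two_pos K.le_succ), Finset.sum_range_succ, mul_add]
      refine add_le_add ih ?_
      have hk : ∀ n ∈ Ico (2 ^ K) (2 ^ (K + 1)),
          c n * (n : ℝ) ^ (-s) ≤ c n * ((2 : ℝ) ^ K) ^ (-s) := fun n hn => by
        refine mul_le_mul_of_nonneg_left (Real.rpow_le_rpow_of_nonpos (by positivity) ?_
          (by linarith)) (hc n)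
        exact_mod_cast (Finset.mem_Ico.1 hn).1
      refine (Finset.sum_le_sum hk).trans ?_
      rw [← Finset.sum_mul]
      refine (mul_le_mul_of_nonneg_right ((Finset.sum_le_sum_of_subset_of_nonneg
        (fun n hn => Finset.mem_range.2 (Finset.mem_Ico.1 hn).2) fun n _ _ => hc n).trans
          (hC (2 ^ (K + 1)))) (Real.rpow_nonneg (by positivity) _)).trans (le_of_eq ?_)
      rw [hr, ← Real.rpow_mul_natCast two_pos.le, ← Real.rpow_natCast 2 K,
        ← Real.rpow_mul two_pos.le, show (-(s - 1)) * (K : ℝ) = (K : ℝ) + (K : ℝ) * (-s) by ring,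
        Real.rpow_add two_pos, Real.rpow_natCast]
      push_cast
      ring
  have hsub : S ⊆ Ico 1 (2 ^ (S.sup id + 1)) := fun n hn => Finset.mem_Ico.2
    ⟨Nat.one_le_iff_ne_zero.2 fun h => hS (h ▸ hn),
      (Nat.lt_succ_of_le (Finset.le_sup (f := id) hn)).trans Nat.lt_two_pow_self⟩
  refine (Finset.sum_le_sum_of_subset_of_nonneg hsub fun n _ _ => mul_nonneg (hc n)
    (Real.rpow_nonneg n.cast_nonneg _)).trans ((key _).trans ?_)
  refine (mul_le_mul_of_nonneg_left ?_ (by linarith)).trans_eq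
    (show 2 * C * (4 / (s - 1)) = 8 * C / (s - 1) by ring)
  refine le_trans ?_ hr4
  rw [one_div, ← tsum_geometric_of_lt_one hr0 hr1]
  exact Summable.sum_le_tsum _ (fun k _ => pow_nonneg hr0 k) (summable_geometric_of_lt_one hr0 hr1)

/-! ### The bound -/

section Hecke

variable {a ε : ℕ → ℂ} {N : ℕ}

lemma hecke_mul (h1 : a 1 = 1) {p : ℕ} (hp : p.Prime)
    (hrec : ∀ n, a (p * n) + ε p * (if p ∣ n then a (n / p) else 0) = a p * a n) :
    (∀ k, a (p ^ 1) * a (p ^ (k + 1)) = a (p ^ (k + 2)) + ε p * a (p ^ k)) ∧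
    ∀ k n, ¬ p ∣ n → a (p ^ k * n) = a (p ^ k) * a n := by
  have hstep : ∀ k n, a (p ^ (k + 2) * n) = a p * a (p ^ (k + 1) * n) - ε p * a (p ^ k * n) := by
    intro k n
    have h := hrec (p ^ (k + 1) * n)
    rw [if_pos ⟨p ^ k * n, by ring⟩, show p ^ (k + 1) * n = p * (p ^ k * n) by ring,
      Nat.mul_div_cancel_left _ hp.pos, show p * (p * (p ^ k * n)) = p ^ (k + 2) * n by ring,
      show p * (p ^ k * n) = p ^ (k + 1) * n by ring] at h
    exact eq_sub_of_add_eq h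
  refine ⟨fun k => ?_, fun k n hn => ?_⟩
  · have h := hstep k 1
    simp only [mul_one] at h
    rw [h, pow_one]
    ring
  induction k using Nat.twoStepInduction with
  | zero => simp [h1]
  | one =>
    have h := hrec n
    rw [if_neg hn, mul_zero, add_zero] at h
    rw [pow_one, h]
  | more k ih1 ih2 =>
    have h := hstep k 1
    simp only [mul_one] at h
    rw [hstep, ih1, ih2, h]
    ring

theorem sum_primes_le_of_hecke [NeZero N] (h1 : a 1 = 1)
    (hε : ∀ p : ℕ, p.Prime → ¬ p ∣ N → ‖ε p‖ = 1)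
    (hrec : ∀ p : ℕ, p.Prime → ¬ p ∣ N → ∀ n,
      a (p * n) + ε p * (if p ∣ n then a (n / p) else 0) = a p * a n)
    {C : ℝ} (hC : ∀ X : ℕ, ∑ n ∈ range X, ‖a n‖ ^ 2 ≤ C * X) :
    ∃ C' : ℝ, ∀ s : ℝ, 1 < s → s ≤ 2 → ∀ P : Finset ℕ, (∀ p ∈ P, p.Prime) →
      ∑ p ∈ P, ‖a p‖ ^ 2 * (p : ℝ) ^ (-s) ≤ Real.log (1 / (s - 1)) + C' := by
  set D := max (8 * C) 1 with hD
  refine ⟨(∑ p ∈ N.divisors, ‖a p‖ ^ 2) + Real.log D + 2 * ∑' n : ℕ, 1 / (n : ℝ) ^ 2,
    fun s hs hs2 P hP => ?_⟩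
  have hs0 : (0 : ℝ) < s - 1 := sub_pos.2 hs
  set G := P.filter fun p => ¬ p ∣ N with hG
  have hGp : ∀ p ∈ G, p.Prime := fun p hp => hP p (Finset.mem_filter.1 hp).1
  have hGN : ∀ p ∈ G, ¬ p ∣ N := fun p hp => (Finset.mem_filter.1 hp).2
  set x : ℕ → ℝ := fun p => (p : ℝ) ^ (-s) with hx
  have hx0 : ∀ p, 0 ≤ x p := fun p => Real.rpow_nonneg p.cast_nonneg _
  have hxle : ∀ p : ℕ, p.Prime → x p ≤ 1 / (p : ℝ) := fun p hp => by
    rw [hx, one_div, ← Real.rpow_neg_one]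
    exact Real.rpow_le_rpow_of_exponent_le (by exact_mod_cast hp.one_le) (by linarith)
  have hxhalf : ∀ p : ℕ, p.Prime → x p ≤ 1 / 2 := fun p hp => (hxle p hp).trans
    (one_div_le_one_div_of_le two_pos (by exact_mod_cast hp.two_le))
  set g : ℕ → ℝ := fun n => ‖a n‖ ^ 2 * (n : ℝ) ^ (-s) with hg
  have hgpow : ∀ p k : ℕ, g (p ^ k) = ‖a (p ^ k)‖ ^ 2 * x p ^ k := fun p k => by
    simp only [hg, hx]
    rw [Nat.cast_pow, ← Real.rpow_natCast_mul p.cast_nonneg, mul_comm (k : ℝ),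
      Real.rpow_mul_natCast p.cast_nonneg]
  have hprod : ∀ M : ℕ,
      ∏ p ∈ G, (1 - x p ^ 2) * ∑ m ∈ range M, (‖a p‖ ^ 2 * x p) ^ m / (m.factorial : ℝ) ≤
        D / (s - 1) := by
    intro M
    refine (Finset.prod_le_prod (fun p hp => mul_nonneg ?_ (Finset.sum_nonneg fun m _ => ?_))
      fun p hp => ?_).trans (b := ∏ p ∈ G, ∑ k ∈ range (M + 2), g (p ^ k)) ?_
    · nlinarith [hx0 p, hxhalf p (hGp p hp)]
    · have := hx0 p; positivity
    · have h := local_le (b := fun k => a (p ^ k)) (hε p (hGp p hp) (hGN p hp)) (by simp [h1])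
        (hecke_mul h1 (hGp p hp) (hrec p (hGp p hp) (hGN p hp))).1 (hx0 p)
        ((hxhalf p (hGp p hp)).trans (by norm_num)) M
      simp only [pow_one] at h
      exact h.trans_eq (Finset.sum_congr rfl fun k _ => (hgpow p k).symm)
    · rw [← Finset.prod_map_toList, prod_sum_eq_smoothBox (M + 2) g (by simp [hg, h1]) G.toList
        G.nodup_toList (fun p hp => hGp p (Finset.mem_toList.1 hp)) fun p hp k n hpn hn => ?_]
      · refine (sum_rpow_le (c := fun n => ‖a n‖ ^ 2) (fun n => sq_nonneg _) hC hs hs2 _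
          fun h =>
            (smoothBox_spec _ _ (fun p hp => hGp p (Finset.mem_toList.1 hp)) 0 h).1 rfl).trans ?_
        exact div_le_div_of_nonneg_right (le_max_left _ _) hs0.le
      · have hp' := Finset.mem_toList.1 hp
        simp only [hg]
        rw [(hecke_mul h1 (hGp p hp') (hrec p (hGp p hp') (hGN p hp'))).2 k n hpn, norm_mul,
          mul_pow, Nat.cast_mul, Real.mul_rpow (Nat.cast_nonneg _) n.cast_nonneg]
        ring
  have hlim : Tendsto (fun M : ℕ => ∏ p ∈ G, (1 - x p ^ 2) *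
      ∑ m ∈ range M, (‖a p‖ ^ 2 * x p) ^ m / (m.factorial : ℝ)) atTop
      (𝓝 (∏ p ∈ G, (1 - x p ^ 2) * Real.exp (‖a p‖ ^ 2 * x p))) :=
    tendsto_finsetProd _ fun p _ => Tendsto.const_mul _ (by
      rw [Real.exp_eq_exp_ℝ]
      exact (NormedSpace.expSeries_div_hasSum_exp (‖a p‖ ^ 2 * x p)).tendsto_sum_nat)
  have hpos : ∀ p ∈ G, 0 < 1 - x p ^ 2 := fun p hp => by
    nlinarith [hx0 p, hxhalf p (hGp p hp)]
  have hmain := Real.log_le_log (Finset.prod_pos fun p hp => mul_pos (hpos p hp) (Real.exp_pos _))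
    (le_of_tendsto' hlim hprod)
  rw [Real.log_prod (fun p hp => (mul_pos (hpos p hp) (Real.exp_pos _)).ne'),
    div_eq_mul_one_div, Real.log_mul (by positivity) (by positivity)] at hmain
  have hlog : ∀ p ∈ G, ‖a p‖ ^ 2 * x p - 2 * (1 / (p : ℝ) ^ 2) ≤
      Real.log ((1 - x p ^ 2) * Real.exp (‖a p‖ ^ 2 * x p)) := fun p hp => by
    rw [Real.log_mul (hpos p hp).ne' (Real.exp_ne_zero _), Real.log_exp]
    have h2 := Real.one_sub_inv_le_log_of_pos (hpos p hp)
    have h3 : x p ^ 2 ≤ 1 / (p : ℝ) ^ 2 := by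
      rw [← one_div_pow]; exact pow_le_pow_left₀ (hx0 p) (hxle p (hGp p hp)) 2
    have h4 : (1 - x p ^ 2)⁻¹ ≤ 1 + 2 * x p ^ 2 := by
      rw [inv_le_iff_one_le_mul₀ (hpos p hp)]
      have hh : x p ^ 2 ≤ 1 / 2 := by nlinarith [hx0 p, hxhalf p (hGp p hp)]
      nlinarith [sq_nonneg (x p)]
    linarith
  have hsq : ∑ p ∈ G, 1 / (p : ℝ) ^ 2 ≤ ∑' n : ℕ, 1 / (n : ℝ) ^ 2 :=
    (Real.summable_one_div_nat_pow.2 one_lt_two).sum_le_tsum _ fun n _ => by positivity
  have hgood : ∑ p ∈ G, ‖a p‖ ^ 2 * x p ≤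
      Real.log (1 / (s - 1)) + (Real.log D + 2 * ∑' n : ℕ, 1 / (n : ℝ) ^ 2) := by
    have := Finset.sum_le_sum hlog
    rw [Finset.sum_sub_distrib, ← Finset.mul_sum] at this
    linarith
  have hbad : ∑ p ∈ P.filter (fun p => p ∣ N), ‖a p‖ ^ 2 * x p ≤
      ∑ p ∈ N.divisors, ‖a p‖ ^ 2 := by
    refine (Finset.sum_le_sum fun p hp => mul_le_of_le_one_right (sq_nonneg _)
      ((hxhalf p (hP p (Finset.mem_filter.1 hp).1)).trans (by norm_num))).trans
      (Finset.sum_le_sum_of_subset_of_nonneg (fun p hp => Nat.mem_divisors.2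
        ⟨(Finset.mem_filter.1 hp).2, NeZero.ne N⟩) fun p _ _ => sq_nonneg _)
  rw [← Finset.sum_filter_add_sum_filter_not P fun p => p ∣ N]
  linarith

end Hecke

/-! ### Forms of weight one -/

variable {N : ℕ} [NeZero N]

/-- The mean square of the coefficients of a cusp form of weight one is bounded. -/
theorem exists_sum_sq_qCoeff_le (f : CuspForm (Gamma1 N) 1) :
    ∃ C : ℝ, ∀ X : ℕ, ∑ n ∈ range X, ‖ModularFormClass.qCoeff f n‖ ^ 2 ≤ C * X := by
  obtain ⟨C, hC⟩ := CuspFormClass.exists_bound f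
  refine ⟨Real.exp (4 * π) * C ^ 2, fun X => ?_⟩
  rcases Nat.eq_zero_or_pos X with rfl | hX
  · simp
  set y : ℝ := 1 / X with hy
  have hy0 : 0 < y := by positivity
  let g : ℝ → ℂ := fun u => f ⟨u + y * Complex.I, by simpa using hy0⟩
  have hgc : Continuous g :=
    (CuspFormClass.holo f).continuous.comp (Continuous.upperHalfPlaneMk (by fun_prop) _)
  have hgb : ∀ u, ‖g u‖ ^ 2 ≤ C ^ 2 * X := fun u => by
    have h := hC ⟨u + y * Complex.I, by simpa using hy0⟩
    refine (pow_le_pow_left₀ (norm_nonneg _) h 2).trans_eq ?_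
    rw [show UpperHalfPlane.im ⟨u + y * Complex.I, _⟩ = y by simp [UpperHalfPlane.im],
      div_pow, ← Real.rpow_mul_natCast hy0.le]
    norm_num [hy]
  have hcoef : ∀ n : ℕ, ‖fourierCoeffOn (zero_lt_one' ℝ) g n‖ =
      ‖ModularFormClass.qCoeff f n‖ * Real.exp (-2 * π * y * n) := by
    intro n
    have hn := ModularFormClass.qExpansion_coeff_eq_intervalIntegral (h := 1) f one_pos
      (by simp) n hy0
    rw [ModularFormClass.qCoeff, hn, fourierCoeffOn_eq_integral]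
    simp only [sub_zero, div_one, Complex.ofReal_one, one_smul, one_mul]
    have h1 : ∀ u : ℝ, 1 / Function.Periodic.qParam (1 : ℝ) (u + y * Complex.I) ^ n *
        f ⟨u + y * Complex.I, by simpa using hy0⟩ =
        (1 / Function.Periodic.qParam (1 : ℝ) (y * Complex.I) ^ n) *
          (fourier (-(n : ℤ)) (u : AddCircle (1 : ℝ)) • g u) := fun u => by
      simp only [smul_eq_mul, g, fourier_coe_apply, Function.Periodic.qParam, one_div,
        ← Complex.exp_nat_mul, ← Complex.exp_neg]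
      rw [← mul_assoc, ← Complex.exp_add]
      congr 2
      push_cast
      ring
    rw [intervalIntegral.integral_congr fun u _ => h1 u, intervalIntegral.integral_const_mul,
      norm_mul, norm_div, norm_one, norm_pow, Function.Periodic.norm_qParam]
    rw [one_div, mul_comm _ (Real.exp _), ← mul_assoc, ← Real.exp_nat_mul, ← Real.exp_neg,
      ← Real.exp_add]
    conv_lhs => rw [← one_mul ‖_‖]
    congr 1
    · rw [← Real.exp_zero]
      congr 1
      simp
      ring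
    · simp only [fourier_coe_apply, sub_zero]
  have hL2 : MeasureTheory.MemLp g 2
      (MeasureTheory.volume.restrict (Set.Ioc (0 : ℝ) 1)) :=
    MeasureTheory.MemLp.of_bound hgc.aestronglyMeasurable (Real.sqrt (C ^ 2 * X))
      (MeasureTheory.ae_of_all _ fun u => by
        rw [← abs_norm]; exact Real.abs_le_sqrt (hgb u))
  have hpar := hasSum_sq_fourierCoeffOn (zero_lt_one' ℝ) hL2
  rw [sub_zero, inv_one, one_smul] at hpar
  have hint : ∫ u in (0 : ℝ)..1, ‖g u‖ ^ 2 ≤ C ^ 2 * X := by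
    refine (intervalIntegral.integral_mono_on zero_le_one
      ((hgc.norm.pow 2).intervalIntegrable 0 1) intervalIntegrable_const fun u _ => hgb u).trans ?_
    simp
  have hfin := (sum_le_hasSum ((range X).map Nat.castEmbedding) (fun i _ => sq_nonneg _) hpar).trans
    hint
  rw [Finset.sum_map] at hfin
  refine le_trans ?_ ((mul_le_mul_of_nonneg_left hfin (Real.exp_pos (4 * π)).le).trans_eq
    (mul_assoc _ _ _).symm)
  rw [Finset.mul_sum]
  refine Finset.sum_le_sum fun n hn => ?_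
  rw [show (Nat.castEmbedding n : ℤ) = n from rfl, hcoef, mul_pow, ← mul_assoc,
    mul_comm (Real.exp _), mul_assoc]
  refine le_mul_of_one_le_right (sq_nonneg _) ?_
  rw [← Real.exp_nat_mul, ← Real.exp_add]
  refine Real.one_le_exp ?_
  have hyn : y * n ≤ 1 := by
    rw [hy, div_mul_eq_mul_div, one_mul, div_le_one (by positivity)]
    exact_mod_cast (Finset.mem_range.1 hn).le
  push_cast
  nlinarith [Real.pi_pos]

/-- **Rankin's bound for an eigenform of weight one**: `∑ |a_p| ² p ^ (-s)` over the primes is at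
most `log (1 / (s - 1)) + C` as `s → 1+`. -/
theorem exists_sum_primes_le (ε : DirichletCharacter ℂ N) (f : CuspForm (Gamma1 N) 1)
    (hf₁ : ModularFormClass.qCoeff f 1 = 1)
    (hT : ∀ p : ℕ, p.Prime → ¬ p ∣ N → ∀ n : ℕ,
        ModularFormClass.qCoeff f (p * n) +
            ε (p : ZMod N) * (if p ∣ n then ModularFormClass.qCoeff f (n / p) else 0) =
          ModularFormClass.qCoeff f p * ModularFormClass.qCoeff f n) :
    ∃ C : ℝ, ∀ s : ℝ, 1 < s → s ≤ 2 → ∀ P : Finset ℕ, (∀ p ∈ P, p.Prime) →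
      ∑ p ∈ P, ‖ModularFormClass.qCoeff f p‖ ^ 2 * (p : ℝ) ^ (-s) ≤
        Real.log (1 / (s - 1)) + C := by
  obtain ⟨C, hC⟩ := exists_sum_sq_qCoeff_le f
  refine sum_primes_le_of_hecke (a := fun n => ModularFormClass.qCoeff f n)
    (ε := fun p => ε (p : ZMod N)) (N := N) hf₁ (fun p hp hpN => ?_) hT hC
  obtain ⟨u, hu⟩ := (ZMod.isUnit_iff_coprime p N).2 (hp.coprime_iff_not_dvd.2 hpN)
  rw [← hu]
  exact DirichletCharacter.unit_norm_eq_one ε u

end FermatAgent.DS

end
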