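import Fermat.Agent.DS.Defs
import Fermat.Agent.DS.Rankin

/-!
# The bounds of Rankin as sums over all primes
-/

set_option autoImplicit false

noncomputable section

open CongruenceSubgroup
open scoped MatrixGroups

namespace FermatAgent.DS

/-- A bound for all finite sums over primes bounds the sum over the primes. -/
lemma summable_primeSum {g : ℕ → ℝ} (hg : ∀ p, 0 ≤ g p) {s B : ℝ}
    (h : ∀ P : Finset ℕ, (∀ p ∈ P, p.Prime) → ∑ p ∈ P, g p * (p : ℝ) ^ (-s) ≤ B) :
    (Summable fun p : Nat.Primes => g p * ((p : ℕ) : ℝ) ^ (-s)) ∧ primeSum g s ≤ B := by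
  classical
  have hnn : ∀ p : Nat.Primes, 0 ≤ g p * ((p : ℕ) : ℝ) ^ (-s) := fun p =>
    mul_nonneg (hg p) (Real.rpow_nonneg (Nat.cast_nonneg _) _)
  have hu : ∀ u : Finset Nat.Primes, ∑ p ∈ u, g p * ((p : ℕ) : ℝ) ^ (-s) ≤ B := fun u => by
    rw [← Finset.sum_image (g := fun p : Nat.Primes => (p : ℕ))
      (f := fun p : ℕ => g p * (p : ℝ) ^ (-s)) fun p _ q _ h => Subtype.ext h]
    exact h _ fun p hp => by
      obtain ⟨q, -, rfl⟩ := Finset.mem_image.1 hp
      exact q.2
  exact ⟨summable_of_sum_le hnn hu, Real.tsum_le_of_sum_le hnn hu⟩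

variable {N : ℕ} [NeZero N] {e : DirichletCharacter ℂ N} {f : CuspForm (Gamma1 N) 1}

/-- **The Rankin bounds** for a weight one eigenform: the sum of `|a p|² p ^ (-s)` over the primes
not dividing `N` is at most `log (1 / (s - 1)) + O(1)` as `s` tends to `1`. -/
theorem rankin (h : IsEigenOne N e f) :
    RankinWeak N (ModularFormClass.qCoeff f) ∧ RankinSharp N (ModularFormClass.qCoeff f) := by
  classical
  obtain ⟨C, hC⟩ := exists_sum_primes_le e f h.1 h.2
  have key : ∀ s : ℝ, 1 < s → s ≤ 2 →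
      (Summable fun p : Nat.Primes =>
        normSqSys N (ModularFormClass.qCoeff f) p * ((p : ℕ) : ℝ) ^ (-s)) ∧
      primeSum (normSqSys N (ModularFormClass.qCoeff f)) s ≤ Real.log (1 / (s - 1)) + C := by
    intro s hs hs2
    refine summable_primeSum (fun p => ?_) fun P hP => ?_
    · unfold normSqSys onGood
      split_ifs
      · exact sq_nonneg _
      · exact le_rfl
    · refine le_trans (Finset.sum_le_sum fun p _ => mul_le_mul_of_nonneg_right ?_
        (Real.rpow_nonneg p.cast_nonneg _)) (hC s hs hs2 P hP)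
      unfold normSqSys onGood
      split_ifs
      · exact le_rfl
      · exact sq_nonneg _
  refine ⟨⟨max C 1, fun s hs hs2 => ⟨(key s hs hs2).1, (key s hs hs2).2.trans ?_⟩⟩,
    fun _ => ⟨C, fun s hs hs2 => (key s hs hs2).2⟩⟩
  have hlog : 0 ≤ Real.log (1 / (s - 1)) :=
    Real.log_nonneg (by rw [le_div_iff₀ (by linarith)]; linarith)
  nlinarith [le_max_left C 1, le_max_right C 1]

end FermatAgent.DS

end
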