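import Mathlib
import Fermat.Agent.DS.GroupBound
import Fermat.Agent.DS.Cheb.Main
import Fermat.Agent.DS.RankinSum
import Fermat.Agent.GaloisBasic.Density

/-!
# The images of the residual representations of a weight one system are bounded

Averages over a finite Galois image are bounded through Chebotarev's theorem by prime sums, and
the weak Rankin bounds of all conjugate systems leave few possible traces outside a small set.
-/

set_option autoImplicit false

noncomputable section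

open IsLocalRing Finset Filter Topology

namespace FermatAgent.DS

open FermatAgent.GaloisBasic (liesOverPrime_smul conj_isFrobeniusAt)

/-! ### Places of `ℂ` -/

/-- A valuation subring of `ℂ` in which `ℓ` is not a unit. -/
lemma exists_place {ℓ : ℕ} (hℓ : ℓ.Prime) :
    ∃ O : ValuationSubring ℂ, (ℓ : O) ∈ maximalIdeal O := by
  set A : Subring ℂ := (Int.castRingHom ℂ).range
  have hne : Ideal.span {((ℓ : ℕ) : A)} ≠ ⊤ := by
    intro h
    obtain ⟨⟨_, m, rfl⟩, hc⟩ := Ideal.mem_span_singleton'.1 ((Ideal.eq_top_iff_one _).1 h)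
    have h1 : (m : ℂ) * (ℓ : ℂ) = 1 := by
      have h' : (m : ℂ) * ((ℓ : A) : ℂ) = 1 := congrArg Subtype.val hc
      simpa using h'
    have h2 : m * (ℓ : ℤ) = 1 := by exact_mod_cast h1
    have h3 : (ℓ : ℤ) ∣ 1 := ⟨m, by rw [mul_comm, h2]⟩
    exact hℓ.one_lt.ne' (by exact_mod_cast Int.eq_one_of_dvd_one (Int.natCast_nonneg ℓ) h3)
  obtain ⟨B, -, hB⟩ := Ideal.image_subset_nonunits_valuationSubring (Ideal.span {((ℓ : ℕ) : A)}) hne
  refine ⟨B, ?_⟩
  have h := hB ⟨((ℓ : ℕ) : A), Ideal.subset_span rfl, rfl⟩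
  obtain ⟨hmem, hmax⟩ := ValuationSubring.mem_nonunits_iff_exists_mem_maximalIdeal.1 h
  rwa [show (⟨A.subtype ((ℓ : ℕ) : A), hmem⟩ : B) = (ℓ : B) from Subtype.ext (by simp)] at hmax

variable {O : ValuationSubring ℂ}

/-- A positive integer below the residue characteristic `ℓ` stays nonzero in the residue field. -/
lemma natCast_residue_ne_zero {ℓ n : ℕ} (hℓ : ℓ.Prime) (hO : (ℓ : O) ∈ maximalIdeal O)
    (hn : n ≠ 0) (hlt : n < ℓ) : (n : ResidueField O) ≠ 0 := by
  intro h
  have : CharP (ResidueField O) ℓ := by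
    refine (CharP.charP_iff_prime_eq_zero hℓ).mpr ?_
    rw [← map_natCast (residue O), residue_eq_zero_iff]
    exact hO
  exact hn (Nat.eq_zero_of_dvd_of_lt ((CharP.cast_eq_zero_iff (ResidueField O) ℓ n).mp h) hlt)

/-- A non-zero algebraic integer is a unit at all places over large primes. -/
lemma exists_bound_residue_ne_zero {x : ℂ} (hx : IsIntegral ℤ x) (hx0 : x ≠ 0) :
    ∃ B : ℕ, ∀ (O : ValuationSubring ℂ) (ℓ : ℕ), ℓ.Prime → B < ℓ →
      (ℓ : O) ∈ maximalIdeal O → ∀ h : x ∈ O, residue O ⟨x, h⟩ ≠ 0 := by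
  set g := minpoly ℤ x with hg
  have hc : g.coeff 0 ≠ 0 := by
    intro hc
    obtain ⟨q, hq⟩ := Polynomial.X_dvd_iff.mpr hc
    have h0 := minpoly.aeval ℤ x
    rw [← hg, hq, map_mul, Polynomial.aeval_X, mul_eq_zero, or_iff_right hx0] at h0
    have hmonic : q.Monic := Polynomial.monic_X.of_mul_monic_left (hq ▸ minpoly.monic hx)
    have := Polynomial.natDegree_le_of_dvd (minpoly.isIntegrallyClosed_dvd hx h0) hmonic.ne_zero
    rw [← hg, hq, Polynomial.natDegree_X_mul hmonic.ne_zero] at this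
    omega
  refine ⟨(g.coeff 0).natAbs, fun O ℓ hℓ hlt hO h hres => ?_⟩
  have hev : Polynomial.aeval (⟨x, h⟩ : O) g = 0 := by
    apply O.subtype_injective
    rw [map_zero, ← minpoly.aeval ℤ x, hg, Polynomial.aeval_def, Polynomial.hom_eval₂,
      Polynomial.aeval_def]
    congr 1
  have hev2 : ((g.coeff 0 : ℤ) : ResidueField O) = 0 := by
    have h1 := congrArg (residue O) hev
    rw [map_zero, Polynomial.aeval_def, Polynomial.hom_eval₂, hres, Polynomial.eval₂_at_zero] at h1
    rwa [eq_intCast] at h1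
  refine natCast_residue_ne_zero hℓ hO (Int.natAbs_ne_zero.mpr hc) hlt ?_
  rcases Int.natAbs_eq (g.coeff 0) with he | he <;> rw [he] at hev2
  · rwa [Int.cast_natCast] at hev2
  · rwa [Int.cast_neg, Int.cast_natCast, neg_eq_zero] at hev2

/-! ### Finite images and Frobenius classes -/

/-- A homomorphism on the Galois group factoring through a finite level has finite image. -/
lemma finite_range_of_finiteLevel {H : Type} [Group H] (ρ : GQ →* H)
    (h : GaloisFactorsThroughFiniteLevel ρ) : Finite ρ.range := by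
  obtain ⟨L₀, hL₀, hker⟩ := h
  let L := IntermediateField.normalClosure ℚ L₀ (AlgebraicClosure ℚ)
  have : Normal ℚ L := normalClosure.normal ℚ L₀ _
  have : FiniteDimensional ℚ L := normalClosure.is_finiteDimensional ℚ L₀ _
  choose lift hlift using AlgEquiv.restrictNormalHom_surjective (F := ℚ) (K₁ := L)
    (AlgebraicClosure ℚ)
  refine Finite.of_surjective (fun g : L ≃ₐ[ℚ] L => (⟨ρ (lift g), _, rfl⟩ : ρ.range)) ?_
  rintro ⟨_, σ, rfl⟩
  refine ⟨AlgEquiv.restrictNormalHom L σ, Subtype.ext ?_⟩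
  set τ := lift (AlgEquiv.restrictNormalHom L σ)
  have h1 : τ⁻¹ * σ ∈ L.fixingSubgroup := by
    refine (GaloisBasic.restrictNormalHom_eq_one_iff L _).mp ?_
    rw [map_mul, map_inv, hlift, inv_mul_cancel]
  have h2 := hker _ fun x hx => (IntermediateField.mem_fixingSubgroup_iff L _).mp h1 x
    (L₀.le_normalClosure hx)
  rw [map_mul, map_inv, inv_mul_eq_one] at h2
  exact h2

/-- At an unramified prime all Frobenius elements have conjugate images. -/
lemma isConj_frobenius {H : Type} [Group H] (ρ : GQ →* H) {p : ℕ} (hp : p.Prime)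
    (hunr : ∀ A : ValuationSubring (AlgebraicClosure ℚ), A.LiesOverPrime p →
      ∀ σ ∈ A.inertiaSubgroupIn ℚ, ρ σ = 1)
    {A A' : ValuationSubring (AlgebraicClosure ℚ)} (hA : A.LiesOverPrime p)
    (hA' : A'.LiesOverPrime p) {σ σ' : GQ} (hσ : A.IsFrobeniusAt σ p)
    (hσ' : A'.IsFrobeniusAt σ' p) : IsConj (ρ σ) (ρ σ') := by
  obtain ⟨τ, rfl⟩ := GaloisBasic.exists_smul_eq hp hA hA'
  have h1 := conj_isFrobeniusAt hp hA hσ τ
  have h2 := hunr _ hA' _ (GaloisBasic.mul_inv_mem_inertiaSubgroupIn hp hA' hσ' h1)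
  rw [map_mul, map_inv, mul_inv_eq_one] at h2
  rw [h2, map_mul, map_mul, map_inv]
  exact isConj_iff.mpr ⟨ρ τ, rfl⟩

/-! ### Averages bounded by prime sums -/

lemma tendsto_log_one_div_sub_one :
    Tendsto (fun s : ℝ => Real.log (1 / (s - 1))) (𝓝[>] 1) atTop := by
  refine Real.tendsto_log_atTop.comp ?_
  simp only [one_div]
  refine tendsto_inv_nhdsGT_zero.comp (tendsto_nhdsWithin_iff.mpr ⟨?_, ?_⟩)
  · have h : Tendsto (fun s : ℝ => s - 1) (𝓝 1) (𝓝 (1 - 1)) := tendsto_id.sub_const 1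
    rw [sub_self] at h
    exact h.mono_left nhdsWithin_le_nhds
  · filter_upwards [self_mem_nhdsWithin] with s hs
    exact sub_pos.mpr (show (1 : ℝ) < s from hs)

/-- A prime sum dominates the average of any class function below it. -/
theorem le_primeSum_of_classFun {G : Type} [Group G] [Fintype G] (φ : GQ →* G)
    (hfin : GaloisFactorsThroughFiniteLevel φ) (hsurj : Function.Surjective φ) (S : Finset ℕ)
    (hunr : ∀ p : ℕ, p.Prime → p ∉ S → ∀ A : ValuationSubring (AlgebraicClosure ℚ),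
      A.LiesOverPrime p → ∀ σ ∈ A.inertiaSubgroupIn ℚ, φ σ = 1)
    (f : G → ℝ) (hf0 : ∀ g, 0 ≤ f g) (hfc : ∀ g g', IsConj g g' → f g = f g')
    (h : ℕ → ℝ) (hh0 : ∀ p, 0 ≤ h p)
    (hsum : ∀ s : ℝ, 1 < s → s ≤ 2 → Summable fun p : Nat.Primes => h p * ((p : ℕ) : ℝ) ^ (-s))
    (hle : ∀ p : ℕ, p.Prime → p ∉ S → ∀ (A : ValuationSubring (AlgebraicClosure ℚ)) (σ : GQ),
      A.LiesOverPrime p → A.IsFrobeniusAt σ p → f (φ σ) ≤ h p) (η : ℝ) (hη : 0 < η) :
    ∃ C : ℝ, ∀ s : ℝ, 1 < s → s ≤ 2 →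
      ((∑ g, f g) / Fintype.card G - η) * Real.log (1 / (s - 1)) - C ≤ primeSum h s := by
  classical
  set cl : G → ℕ := fun g => Nat.card {x : G // IsConj g x} with hcl
  have hclpos : ∀ g, 0 < cl g := fun g => by
    have : Nonempty {x : G // IsConj g x} := ⟨⟨g, IsConj.refl g⟩⟩
    exact Nat.card_pos
  set w : G → ℝ := fun g => f g / cl g with hw
  have hw0 : ∀ g, 0 ≤ w g := fun g => div_nonneg (hf0 g) (Nat.cast_nonneg _)
  -- pointwise comparison
  have hpoint : ∀ p : Nat.Primes, ∑ g, w g * frobInd φ S g p ≤ h p := by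
    intro p
    by_cases hex : (p : ℕ) ∉ S ∧ ∃ (A : ValuationSubring (AlgebraicClosure ℚ)) (σ : GQ),
        A.LiesOverPrime p ∧ A.IsFrobeniusAt σ p
    · obtain ⟨hpS, A, σ, hA, hσ⟩ := hex
      have hind : ∀ g, frobInd φ S g p = if IsConj g (φ σ) then 1 else 0 := by
        intro g
        unfold frobInd
        refine if_congr ⟨?_, fun hg => ⟨hpS, A, σ, hA, hσ, hg⟩⟩ rfl rfl
        rintro ⟨-, A', σ', hA', hσ', hg⟩
        exact hg.trans (isConj_frobenius φ p.2 (hunr p p.2 hpS) hA' hA hσ' hσ)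
      simp only [hind, mul_ite, mul_one, mul_zero, ← Finset.sum_filter]
      refine le_trans (le_of_eq ?_) (hle p p.2 hpS A σ hA hσ)
      have hwc : ∀ g ∈ univ.filter (fun g => IsConj g (φ σ)), w g = w (φ σ) := by
        intro g hg
        have hg' := (Finset.mem_filter.mp hg).2
        have : cl g = cl (φ σ) := Nat.card_congr (Equiv.subtypeEquivRight fun x =>
          ⟨fun hx => hg'.symm.trans hx, fun hx => hg'.trans hx⟩)
        simp only [hw, this, hfc g _ hg']
      rw [Finset.sum_congr rfl hwc, Finset.sum_const, nsmul_eq_mul]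
      have hcard : ((univ.filter fun g => IsConj g (φ σ)).card : ℝ) = cl (φ σ) := by
        simp only [hcl, Nat.card_eq_fintype_card, Fintype.card_subtype, isConj_comm]
      rw [hcard, hw]
      exact mul_div_cancel₀ _ (by exact_mod_cast (hclpos _).ne')
    · refine le_trans (le_of_eq (Finset.sum_eq_zero fun g _ => ?_)) (hh0 p)
      rw [frobInd, if_neg, mul_zero]
      rintro ⟨hpS, A, σ, hA, hσ, -⟩
      exact hex ⟨hpS, A, σ, hA, hσ⟩
  set n : ℝ := (Fintype.card G : ℝ) with hn
  set W := ∑ g, w g with hW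
  have hW0 : 0 ≤ W := Finset.sum_nonneg fun g _ => hw0 g
  set η' := η / (W + 1) with hη'
  choose K hK using fun g => chebotarevLower φ hfin hsurj S g η' (by positivity)
  refine ⟨∑ g, w g * K g, fun s hs hs2 => ?_⟩
  have hp1 : Summable fun p : Nat.Primes => ((p : ℕ) : ℝ) ^ (-s) :=
    Nat.Primes.summable_rpow.mpr (by linarith)
  have hind : ∀ g, Summable fun p : Nat.Primes => frobInd φ S g p * ((p : ℕ) : ℝ) ^ (-s) :=
    fun g => Summable.of_nonneg_of_le
      (fun p => mul_nonneg (by unfold frobInd; split <;> norm_num)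
        (Real.rpow_nonneg (by positivity) _))
      (fun p => mul_le_of_le_one_left (Real.rpow_nonneg (by positivity) _)
        (by unfold frobInd; split <;> norm_num)) hp1
  have hA : ∑ g, w g * primeSum (frobInd φ S g) s ≤ primeSum h s := by
    unfold primeSum
    simp only [← tsum_mul_left]
    rw [← Summable.tsum_finsetSum fun g _ => (hind g).mul_left (w g)]
    refine Summable.tsum_le_tsum (fun p => ?_) (summable_sum fun g _ => (hind g).mul_left (w g))
      (hsum s hs hs2)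
    simp only [← mul_assoc]
    rw [← Finset.sum_mul]
    exact mul_le_mul_of_nonneg_right (hpoint p) (Real.rpow_nonneg (by positivity) _)
  have hB' : ∑ g, w g * (((cl g : ℝ) / n - η') * Real.log (1 / (s - 1)) - K g) ≤
      ∑ g, w g * primeSum (frobInd φ S g) s := by
    refine Finset.sum_le_sum fun g _ => mul_le_mul_of_nonneg_left ?_ (hw0 g)
    have := hK g s hs hs2
    rwa [Nat.card_eq_fintype_card (α := G)] at this
  have hval : ∑ g, w g * (((cl g : ℝ) / n - η') * Real.log (1 / (s - 1)) - K g) =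
      ((∑ g, f g) / n - η' * W) * Real.log (1 / (s - 1)) - ∑ g, w g * K g := by
    rw [hW, Finset.sum_div, Finset.mul_sum, ← Finset.sum_sub_distrib, Finset.sum_mul,
      ← Finset.sum_sub_distrib]
    refine Finset.sum_congr rfl fun g _ => ?_
    have : (cl g : ℝ) ≠ 0 := by exact_mod_cast (hclpos g).ne'
    simp only [hw]
    field_simp
  have hlog : 0 ≤ Real.log (1 / (s - 1)) :=
    Real.log_nonneg (by rw [le_div_iff₀ (by linarith)]; linarith)
  have hη1 : η' * W ≤ η := by
    rw [hη', div_mul_eq_mul_div, div_le_iff₀ (by positivity)]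
    nlinarith
  nlinarith [hA, hB', hval, mul_le_mul_of_nonneg_right hη1 hlog]

/-- An upper bound on a prime sum bounds the average of any class function below it. -/
theorem sum_le_of_primeSum {G : Type} [Group G] [Fintype G] (φ : GQ →* G)
    (hfin : GaloisFactorsThroughFiniteLevel φ) (hsurj : Function.Surjective φ) (S : Finset ℕ)
    (hunr : ∀ p : ℕ, p.Prime → p ∉ S → ∀ A : ValuationSubring (AlgebraicClosure ℚ),
      A.LiesOverPrime p → ∀ σ ∈ A.inertiaSubgroupIn ℚ, φ σ = 1)
    (f : G → ℝ) (hf0 : ∀ g, 0 ≤ f g) (hfc : ∀ g g', IsConj g g' → f g = f g')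
    (h : ℕ → ℝ) (hh0 : ∀ p, 0 ≤ h p) (c C : ℝ)
    (hbound : ∀ s : ℝ, 1 < s → s ≤ 2 →
      (Summable fun p : Nat.Primes => h p * ((p : ℕ) : ℝ) ^ (-s)) ∧
      primeSum h s ≤ c * Real.log (1 / (s - 1)) + C)
    (hle : ∀ p : ℕ, p.Prime → p ∉ S → ∀ (A : ValuationSubring (AlgebraicClosure ℚ)) (σ : GQ),
      A.LiesOverPrime p → A.IsFrobeniusAt σ p → f (φ σ) ≤ h p) :
    ∑ g, f g ≤ c * Fintype.card G := by
  by_contra hcon
  push Not at hcon
  have hn : (0 : ℝ) < Fintype.card G := by exact_mod_cast Fintype.card_pos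
  have hd : 0 < (∑ g, f g) / Fintype.card G - c := by rwa [sub_pos, lt_div_iff₀ hn]
  obtain ⟨K, hK⟩ := le_primeSum_of_classFun φ hfin hsurj S hunr f hf0 hfc h hh0
    (fun s hs hs2 => (hbound s hs hs2).1) hle _ (half_pos hd)
  obtain ⟨s, hs1, hs2, hs3⟩ := ((eventually_mem_nhdsWithin).and
    ((eventually_le_nhds (show (1 : ℝ) < 2 by norm_num)).filter_mono nhdsWithin_le_nhds |>.and
      ((tendsto_log_one_div_sub_one.const_mul_atTop (half_pos hd)).eventually_gt_atTop
        (K + C)))).exists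
  nlinarith [hK s hs1 hs2, (hbound s hs1 hs2).2]

/-! ### The bound on the images -/

/-- The images of the residual representations have bounded order. -/
theorem exists_card_bound {N : ℕ} [NeZero N] {ε : DirichletCharacter ℂ N} {a : ℕ → ℂ}
    (hK : HasCoeffField N a) (hN : N ≠ 0) :
    ∃ A : ℕ, ∀ ℓ : ℕ, ℓ.Prime → 5 ≤ ℓ → ∀ O : ValuationSubring ℂ, (ℓ : O) ∈ maximalIdeal O →
      ∀ ρ : GQ →* GL (Fin 2) (ResidueField O), IsModRep N ℓ ε a O ρ → Nat.card ρ.range ≤ A := by
  classical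
  obtain ⟨K, hKfin, hint, hmem, hconj⟩ := hK
  have : FiniteDimensional ℚ K := hKfin
  have : NumberField K := {}
  choose ε' f' heig hq using hconj
  choose Cτ hCτ using fun τ => (rankin (heig τ)).1
  set Ctot := ∑ τ : K →+* ℂ, max (Cτ τ) 0 with hCtot
  have hCtot0 : 0 ≤ Ctot := Finset.sum_nonneg fun τ _ => le_max_right _ _
  set T : ℝ := 8 * Ctot + 1 with hT
  have hT0 : 0 < T := by positivity
  have hYfin := NumberField.Embeddings.finite_of_norm_le K ℂ (Real.sqrt T)
  set Y : Finset ℂ := insert 0 (hYfin.toFinset.image ((↑) : K → ℂ)) with hY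
  refine ⟨2 * Y.card ^ 4, fun ℓ hℓ h5 O hO ρ hρ => ?_⟩
  obtain ⟨hlev, hsplit, hfrob⟩ := hρ
  have := finite_range_of_finiteLevel ρ hlev
  have := Fintype.ofFinite ρ.range
  set Tk : Finset (ResidueField O) := Y.attach.image fun y : {y // y ∈ Y} =>
    if h : y.1 ∈ O then residue O ⟨y.1, h⟩ else 0 with hTk
  have hTkne : Tk.Nonempty :=
    ⟨_, Finset.mem_image.mpr ⟨(⟨(0 : ℂ), Finset.mem_insert_self _ _⟩ : {y // y ∈ Y}),
      Finset.mem_attach _ _, rfl⟩⟩
  have hTkcard : Tk.card ≤ Y.card := (Finset.card_image_le).trans_eq (Finset.card_attach)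
  set S : Finset ℕ := (N * ℓ).divisors with hS
  have hgood : ∀ p : ℕ, p.Prime → p ∉ S → ¬ p ∣ N * ℓ := fun p _ hpS hdvd =>
    hpS (Nat.mem_divisors.mpr ⟨hdvd, mul_ne_zero hN hℓ.ne_zero⟩)
  let f : ρ.range → ℝ := fun g => if (g.1.val).trace ∈ Tk then 0 else 1
  let h : ℕ → ℝ := fun p => T⁻¹ * ∑ τ : K →+* ℂ, normSqSys N (ModularFormClass.qCoeff (f' τ)) p
  have hnn : ∀ (b : ℕ → ℂ) p, 0 ≤ normSqSys N b p := fun b p => by
    unfold normSqSys onGood
    split <;> positivity
  have hbound : ∀ s : ℝ, 1 < s → s ≤ 2 →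
      (Summable fun p : Nat.Primes => h p * ((p : ℕ) : ℝ) ^ (-s)) ∧
      primeSum h s ≤ T⁻¹ * Ctot * Real.log (1 / (s - 1)) + T⁻¹ * Ctot := by
    intro s hs hs2
    have hlog : 0 ≤ Real.log (1 / (s - 1)) := Real.log_nonneg (by
      rw [le_div_iff₀ (by linarith)]; linarith)
    have hterm : ∀ p : Nat.Primes, h p * ((p : ℕ) : ℝ) ^ (-s) = ∑ τ : K →+* ℂ,
        T⁻¹ * (normSqSys N (ModularFormClass.qCoeff (f' τ)) p * ((p : ℕ) : ℝ) ^ (-s)) := fun p => by
      simp only [h, Finset.mul_sum, Finset.sum_mul, mul_assoc]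
    have hsum := summable_sum (s := (univ : Finset (K →+* ℂ))) fun τ _ =>
      ((hCτ τ s hs hs2).1).mul_left T⁻¹
    refine ⟨hsum.congr fun p => (hterm p).symm, ?_⟩
    unfold primeSum
    simp only [hterm]
    rw [Summable.tsum_finsetSum fun τ _ => ((hCτ τ s hs hs2).1).mul_left T⁻¹, hCtot, mul_assoc,
      Finset.sum_mul, ← mul_add, ← Finset.sum_add_distrib, Finset.mul_sum]
    refine Finset.sum_le_sum fun τ _ => ?_
    rw [tsum_mul_left]
    refine mul_le_mul_of_nonneg_left (le_trans (hCτ τ s hs hs2).2 ?_) (by positivity)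
    rw [← mul_add_one]
    exact mul_le_mul_of_nonneg_right (le_max_left _ _) (by linarith)
  have hle : ∀ p : ℕ, p.Prime → p ∉ S → ∀ (A : ValuationSubring (AlgebraicClosure ℚ)) (σ : GQ),
      A.LiesOverPrime p → A.IsFrobeniusAt σ p → f (ρ.rangeRestrict σ) ≤ h p := by
    intro p hp hpS A σ hA hσ
    have hnd := hgood p hp hpS
    have hgp : IsGood N p := ⟨hp, fun hd => hnd (dvd_mul_of_dvd_left hd ℓ)⟩
    simp only [f]
    split_ifs with hmemT
    · exact mul_nonneg (by positivity) (Finset.sum_nonneg fun τ _ => hnn _ p)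
    obtain ⟨ha, he, htr, -⟩ := (hfrob p hp hnd A hA).2 σ hσ
    set x : K := ⟨a p, hmem p hgp⟩ with hx
    have hxint : IsIntegral ℤ x :=
      (isIntegral_algHom_iff (IsScalarTower.toAlgHom ℤ K ℂ) (algebraMap K ℂ).injective).mp
        (hint p hgp)
    by_cases hbig : ∃ τ : K →+* ℂ, Real.sqrt T < ‖τ x‖
    · obtain ⟨τ, hτ⟩ := hbig
      have h1 : T ≤ normSqSys N (ModularFormClass.qCoeff (f' τ)) p := by
        rw [normSqSys, onGood, if_pos hgp, hq τ p hgp, ← Real.sq_sqrt hT0.le]
        exact pow_le_pow_left₀ (Real.sqrt_nonneg T) hτ.le 2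
      have h2 := h1.trans (Finset.single_le_sum (f := fun τ =>
        normSqSys N (ModularFormClass.qCoeff (f' τ)) p) (fun τ _ => hnn _ p) (Finset.mem_univ τ))
      simp only [h]
      rw [le_inv_mul_iff₀ hT0, mul_one]
      exact h2
    · push Not at hbig
      refine absurd ?_ hmemT
      rw [show ((ρ.rangeRestrict σ).1).val = (ρ σ).val from rfl, htr]
      refine Finset.mem_image.mpr ⟨⟨a p, Finset.mem_insert_of_mem (Finset.mem_image.mpr
        ⟨x, hYfin.mem_toFinset.mpr ⟨hxint, hbig⟩, rfl⟩)⟩, Finset.mem_attach _ _, ?_⟩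
      simp only [dif_pos ha]
  have havg := sum_le_of_primeSum ρ.rangeRestrict (by
      obtain ⟨L, hL, hker⟩ := hlev
      exact ⟨L, hL, fun σ hσ => Subtype.ext (hker σ hσ)⟩) ρ.rangeRestrict_surjective S
    (fun p hp hpS A hA σ hσ => Subtype.ext ((hfrob p hp (hgood p hp hpS) A hA).1 σ hσ)) f
    (fun g => by simp only [f]; split <;> norm_num)
    (fun g g' hg => by
      obtain ⟨u, hu⟩ := isConj_iff.mp hg
      have : (g'.1.val).trace = (g.1.val).trace := by
        rw [← hu]
        simp only [Subgroup.coe_mul, InvMemClass.coe_inv, Units.val_mul]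
        rw [Matrix.trace_mul_cycle, ← Units.val_mul, inv_mul_cancel, Units.val_one, Matrix.one_mul]
      simp only [f, this])
    h (fun p => mul_nonneg (by positivity) (Finset.sum_nonneg fun τ _ => hnn _ p))
    (T⁻¹ * Ctot) (T⁻¹ * Ctot) hbound hle
  have hbad : 8 * (univ.filter fun g : ρ.range => (g.1.val).trace ∉ Tk).card ≤
      Fintype.card ρ.range := by
    have hsum : (∑ g, f g) = ((univ.filter fun g : ρ.range => (g.1.val).trace ∉ Tk).card : ℝ) := by
      simp only [f, Finset.sum_ite, Finset.sum_const_zero, zero_add, Finset.sum_const, nsmul_one]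
    rw [hsum] at havg
    have h8 : 8 * (T⁻¹ * Ctot) ≤ 1 := by
      rw [← mul_assoc, mul_comm (8 : ℝ), mul_assoc, inv_mul_le_iff₀ hT0]
      linarith
    have hn0 : (0 : ℝ) ≤ Fintype.card ρ.range := Nat.cast_nonneg _
    have : (8 : ℝ) * ((univ.filter fun g : ρ.range => (g.1.val).trace ∉ Tk).card : ℝ) ≤
        Fintype.card ρ.range := by nlinarith
    exact_mod_cast this
  have h2 : (2 : ResidueField O) ≠ 0 := by
    exact_mod_cast natCast_residue_ne_zero hℓ hO two_ne_zero (by omega)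
  have := card_le_of_trace_mem h2 ρ hsplit Tk hTkne hbad
  rw [Nat.card_eq_fintype_card]
  exact this.trans (Nat.mul_le_mul_left _ (Nat.pow_le_pow_left hTkcard 4))

end FermatAgent.DS
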