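import Fermat.Agent.DS.Field.Bound
import Fermat.Agent.DS.Field.Conj
import Fermat.Agent.MF.GaloisC

/-!
# The field of coefficients of a weight one eigenform

The eigenvalues at good primes are algebraic integers of a number field, and their conjugates are
eigenvalues of normalised eigenforms of the same level.
-/

set_option autoImplicit false

noncomputable section

open CongruenceSubgroup
open scoped MatrixGroups

namespace FermatAgent.DS

/-- An embedding of a number field extends to an automorphism of `ℂ`. -/
theorem exists_extend_aut {K : IntermediateField ℚ ℂ} [FiniteDimensional ℚ K] (τ : K →+* ℂ) :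
    ∃ σ : ℂ ≃+* ℂ, ∀ x : K, σ (x : ℂ) = τ x := by
  set F := algebraicClosure ℚ ℂ
  have hKF : K ≤ F := fun x hx => mem_algebraicClosure_iff.2
    ((Algebra.IsAlgebraic.isAlgebraic (⟨x, hx⟩ : K)).algHom K.val)
  let τ₁ : K →ₐ[ℚ] ℂ := τ.toRatAlgHom
  let φ : K →ₐ[ℚ] F := τ₁.codRestrict F.toSubalgebra fun x => mem_algebraicClosure_iff.2
    ((Algebra.IsAlgebraic.isAlgebraic x).algHom τ₁)
  let _ : Algebra K F := (IntermediateField.inclusion hKF).toRingHom.toAlgebra
  have _ : IsScalarTower ℚ K F := IsScalarTower.of_algebraMap_eq fun q =>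
    ((IntermediateField.inclusion hKF).commutes q).symm
  have : IsAlgClosure ℚ F := algebraicClosure.isAlgClosure ℚ ℂ
  have : Normal ℚ F := IsAlgClosure.normal ℚ F
  set g : F ≃ₐ[ℚ] F := AlgEquiv.ofBijective (φ.liftNormal F) (AlgHom.normal_bijective ℚ F F _)
  obtain ⟨s, hs⟩ := exists_isTranscendenceBasis F ℂ
  obtain ⟨σ, hσ⟩ := MF.exists_ringEquiv_extend hs (MvPolynomial.mapEquiv s g.toRingEquiv)
  refine ⟨σ, fun x => ?_⟩
  have h := hσ (MvPolynomial.C (algebraMap K F x))
  have e : g (algebraMap K F x) = φ x := φ.liftNormal_commutes F x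
  simp [e] at h
  exact h

variable {N : ℕ} [NeZero N] {ε : DirichletCharacter ℂ N} {f : CuspForm (Gamma1 N) 1}

/-- **The field of coefficients**: the eigenvalues of a weight one eigenform at good primes are
integers of a number field, and their conjugate systems come from eigenforms. -/
theorem hasCoeffField (h : IsEigenOne N ε f) : HasCoeffField N (ModularFormClass.qCoeff f) := by
  refine ⟨coeffField f, finite_coeffField h, fun p hp => isIntegral_coeff h hp,
    fun p hp => mem_coeffField hp, fun τ => ?_⟩
  have := finite_coeffField h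
  obtain ⟨σ, hσ⟩ := exists_extend_aut τ
  have hf : serOne f ≠ 0 := fun h0 => by
    have e := congrArg (PowerSeries.coeff 1) h0
    rw [coeff_serOne, h.1, map_zero] at e
    exact one_ne_zero e
  obtain ⟨f', hf'⟩ := exists_conjugate f hf σ
  refine ⟨ε.ringHomComp (σ : ℂ →+* ℂ), f', ⟨by rw [hf', h.1, map_one], fun p hp hpN n => ?_⟩,
    fun p hp => by rw [hf']; exact hσ ⟨_, mem_coeffField hp⟩⟩
  have e := congrArg σ (h.2 p hp hpN n)
  simp only [map_add, map_mul, apply_ite σ, map_zero] at e
  simpa [hf'] using e

end FermatAgent.DS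

end
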