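import Mathlib

/-!
# Lifting representations of finite groups of order invertible in the residue field

`O` is a valuation subring of an algebraically closed field, so monic polynomials split over `O`
and idempotents lift along the residue map in any matrix algebra over `O`.
-/

set_option autoImplicit false

noncomputable section

open Polynomial IsLocalRing Matrix

namespace FermatAgent.DS

variable {K : Type} [Field K] [IsAlgClosed K] (O : ValuationSubring K)

/-- A monic polynomial over a valuation subring of an algebraically closed field splits there. -/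
lemma exists_roots_monic {f : O[X]} (hf : f.Monic) :
    ∃ m : Multiset O, f = (m.map fun z => X - C z).prod := by
  classical
  set F := f.map O.subtype with hF
  have hFm : F.Monic := hf.map _
  have hsplit : F.Splits := IsAlgClosed.splits F
  have hroot : ∀ z ∈ F.roots, z ∈ O := by
    intro z hz
    have hzero : Polynomial.eval₂ (algebraMap O K) z f = 0 := by
      have := (Polynomial.mem_roots hFm.ne_zero).mp hz
      rw [Polynomial.IsRoot.def, hF, Polynomial.eval_map] at this
      exact this
    obtain ⟨y, hy⟩ := IsIntegrallyClosed.isIntegral_iff.mp (⟨f, hf, hzero⟩ : IsIntegral O z)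
    rw [← hy]
    exact y.2
  refine ⟨F.roots.attach.map fun z => (⟨z.1, hroot z.1 z.2⟩ : O),
    Polynomial.map_injective O.subtype O.subtype_injective ?_⟩
  rw [← hF, Polynomial.map_multiset_prod, Multiset.map_map, Multiset.map_map]
  refine (hsplit.eq_prod_roots_of_monic hFm).trans ?_
  conv_lhs => rw [← Multiset.attach_map_val F.roots, Multiset.map_map]
  refine congrArg Multiset.prod (Multiset.map_congr rfl fun z _ => ?_)
  simp

/-- Two families of linear factors with pairwise unit differences are coprime. -/
lemma isCoprime_prod_linear {R : Type*} [CommRing R] (m₀ m₁ : Multiset R)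
    (h : ∀ a ∈ m₀, ∀ b ∈ m₁, IsUnit (a - b)) :
    IsCoprime (m₀.map fun z => X - C z).prod (m₁.map fun z => X - C z).prod := by
  induction m₀ using Multiset.induction with
  | empty => simpa using isCoprime_one_left
  | cons a s ih =>
    rw [Multiset.map_cons, Multiset.prod_cons]
    refine IsCoprime.mul_left ?_ (ih fun x hx => h x (Multiset.mem_cons_of_mem hx))
    have ha := h a (Multiset.mem_cons_self a s)
    clear h ih
    induction m₁ using Multiset.induction with
    | empty => simpa using isCoprime_one_right
    | cons b t iht =>
      rw [Multiset.map_cons, Multiset.prod_cons]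
      exact IsCoprime.mul_right
        (isCoprime_X_sub_C_of_isUnit_sub (ha b (Multiset.mem_cons_self b t)))
        (iht fun x hx => ha x (Multiset.mem_cons_of_mem hx))

/-- The residue map on square matrices. -/
abbrev redMat (ι : Type) [Fintype ι] [DecidableEq ι] :
    Matrix ι ι O →+* Matrix ι ι (ResidueField O) := (residue O).mapMatrix

variable {O}

/-- The value at an idempotent of a polynomial is interpolated from its values at `0` and `1`. -/
lemma aeval_idempotent {k A : Type} [CommRing k] [Ring A] [Algebra k A] {e : A} (he : e * e = e)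
    (p : k[X]) :
    aeval e p = algebraMap k A (p.eval 0) * (1 - e) + algebraMap k A (p.eval 1) * e := by
  induction p using Polynomial.induction_on' with
  | add p q hp hq =>
    simp only [map_add, eval_add, hp, hq, add_mul]
    abel
  | monomial n c =>
    rw [aeval_monomial, eval_monomial, eval_monomial, one_pow, mul_one]
    rcases n with _ | n
    · simp [mul_sub]
    · have : e ^ (n + 1) = e := by
        induction n with
        | zero => rw [pow_one]
        | succ m ih => rw [pow_succ, ih, he]
      rw [this, zero_pow (Nat.succ_ne_zero n), mul_zero, map_zero, zero_mul, zero_add]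

/-- Idempotents lift, as polynomials in any given lift. -/
theorem exists_idempotent_lift {ι : Type} [Fintype ι] [DecidableEq ι] (a : Matrix ι ι O)
    (ha : redMat O ι a * redMat O ι a = redMat O ι a) :
    ∃ p : O[X], aeval a p * aeval a p = aeval a p ∧ redMat O ι (aeval a p) = redMat O ι a := by
  classical
  obtain ⟨m, hm⟩ := exists_roots_monic O (Matrix.charpoly_monic a)
  set f₀ := ((m.filter fun z => residue O z = 0).map fun z => X - C z).prod with hf₀
  set f₁ := ((m.filter fun z => ¬ residue O z = 0).map fun z => X - C z).prod with hf₁
  have hf : a.charpoly = f₀ * f₁ := by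
    rw [hm, hf₀, hf₁, ← Multiset.prod_add, ← Multiset.map_add, Multiset.filter_add_not]
  obtain ⟨u, v, huv⟩ : IsCoprime f₀ f₁ := by
    refine isCoprime_prod_linear _ _ fun x hx y hy => ?_
    rw [Multiset.mem_filter] at hx hy
    refine (IsLocalRing.residue_ne_zero_iff_isUnit _).mp ?_
    rw [map_sub, hx.2, zero_sub, neg_ne_zero]
    exact hy.2
  refine ⟨u * f₀, ?_, ?_⟩
  · have h1 : aeval a (u * f₀) + aeval a (v * f₁) = 1 := by rw [← map_add, huv, map_one]
    have h0 : aeval a (u * f₀) * aeval a (v * f₁) = 0 := by
      rw [← map_mul, show u * f₀ * (v * f₁) = u * v * (f₀ * f₁) by ring, ← hf, map_mul,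
        Matrix.aeval_self_charpoly, mul_zero]
    calc aeval a (u * f₀) * aeval a (u * f₀)
        = aeval a (u * f₀) * (aeval a (u * f₀) + aeval a (v * f₁)) := by
          rw [mul_add, h0, add_zero]
      _ = aeval a (u * f₀) := by rw [h1, mul_one]
  · set e := redMat O ι a with he
    have hmap : ∀ q : O[X], redMat O ι (aeval a q) = aeval e (q.map (residue O)) := by
      intro q
      refine Polynomial.induction_on' q (fun p q hp hq => by simp only [map_add, Polynomial.map_add,
        hp, hq]) fun n c => ?_
      rw [aeval_monomial, Polynomial.map_monomial, aeval_monomial, map_mul, map_pow, ← he]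
      congr 1
      ext i j
      simp [RingHom.mapMatrix_apply, Matrix.algebraMap_matrix_apply, apply_ite (residue O)]
    have hcp : aeval e ((a.charpoly).map (residue O)) = 0 := by
      rw [← hmap, Matrix.aeval_self_charpoly, map_zero]
    rw [hmap, aeval_idempotent ha]
    rw [aeval_idempotent ha] at hcp
    set g := (u * f₀).map (residue O) with hg
    set F := (a.charpoly).map (residue O) with hFdef
    have hsum : ∀ x : ResidueField O,
        g.eval x + ((v * f₁).map (residue O)).eval x = 1 := by
      intro x
      rw [hg, ← eval_add, ← Polynomial.map_add, huv, Polynomial.map_one, eval_one]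
    have hroot0 : ∀ (x : ResidueField O), F.eval x = 0 →
        ∃ z ∈ m, residue O z = x := by
      intro x hx
      rw [hFdef, hm, Polynomial.map_multiset_prod, Multiset.map_map, eval_multiset_prod,
        Multiset.map_map, Multiset.prod_eq_zero_iff, Multiset.mem_map] at hx
      obtain ⟨z, hz, hzx⟩ := hx
      refine ⟨z, hz, ?_⟩
      simp only [Function.comp_apply, Polynomial.map_sub, map_X, map_C, eval_sub, eval_X, eval_C,
        sub_eq_zero] at hzx
      exact hzx.symm
    -- the value at `0`
    have h0 : algebraMap _ (Matrix ι ι (ResidueField O)) (g.eval 0) * (1 - e) = 0 := by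
      by_cases hF : F.eval 0 = 0
      · obtain ⟨z, hz, hz0⟩ := hroot0 0 hF
        have hf0 : (f₀.map (residue O)).eval 0 = 0 := by
          rw [hf₀, Polynomial.map_multiset_prod, Multiset.map_map, eval_multiset_prod,
            Multiset.map_map, Multiset.prod_eq_zero_iff, Multiset.mem_map]
          exact ⟨z, Multiset.mem_filter.mpr ⟨hz, hz0⟩, by simp [hz0]⟩
        rw [hg, Polynomial.map_mul, eval_mul, hf0, mul_zero, map_zero, zero_mul]
      · have := congrArg (· * (1 - e)) hcp
        simp only [zero_mul, add_mul, mul_assoc, mul_sub, sub_mul, mul_one, ha, sub_self] at this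
        have h1e : (1 - e : Matrix ι ι (ResidueField O)) = 0 := by
          rw [← Algebra.smul_def, ← Algebra.smul_def, ← sub_eq_zero] at this
          have h' : F.eval 0 • (1 - e) = 0 := by
            rw [smul_sub]
            simpa [Algebra.smul_def] using this
          exact (smul_eq_zero.mp h').resolve_left hF
        rw [h1e, mul_zero]
    -- the value at `1`
    have h1 : algebraMap _ (Matrix ι ι (ResidueField O)) (g.eval 1) * e = e := by
      by_cases hF : F.eval 1 = 0
      · obtain ⟨z, hz, hz1⟩ := hroot0 1 hF
        have hf1 : (f₁.map (residue O)).eval 1 = 0 := by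
          rw [hf₁, Polynomial.map_multiset_prod, Multiset.map_map, eval_multiset_prod,
            Multiset.map_map, Multiset.prod_eq_zero_iff, Multiset.mem_map]
          refine ⟨z, Multiset.mem_filter.mpr ⟨hz, by rw [hz1]; exact one_ne_zero⟩, by simp [hz1]⟩
        have := hsum 1
        rw [Polynomial.map_mul, eval_mul, hf1, mul_zero, add_zero] at this
        rw [this, map_one, one_mul]
      · have := congrArg (· * e) hcp
        simp only [zero_mul, add_mul, mul_assoc, mul_sub, sub_mul, mul_one, ha, sub_self,
          zero_add] at this
        have he0 : e = 0 := by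
          rw [← Algebra.smul_def] at this
          exact (smul_eq_zero.mp this).resolve_left hF
        rw [he0, mul_zero]
    rw [h0, h1, zero_add]

omit [IsAlgClosed K] in
/-- The values of polynomials at `a` commute with everything commuting with `a`. -/
theorem commute_aeval {ι : Type} [Fintype ι] [DecidableEq ι] {T a : Matrix ι ι O}
    (h : Commute T a) (p : O[X]) : Commute T (aeval a p) := by
  refine Polynomial.induction_on' p (fun u v hu hv => by rw [map_add]; exact hu.add_right hv)
    fun k b => ?_
  rw [aeval_monomial]
  exact (Algebra.commute_algebraMap_right b T).mul_right (h.pow_right k)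

omit [IsAlgClosed K] in
/-- An idempotent fixing `P` and `Q` is the projection through them once it has the same
reduction. -/
theorem eq_idempotent_of_map_eq {ι κ : Type} [Fintype ι] [DecidableEq ι] [Fintype κ]
    [DecidableEq κ] {e : Matrix ι ι O} {P : Matrix ι κ O} {Q : Matrix κ ι O} {J : Matrix κ κ O}
    (he : e * e = e) (heP : e * P = P) (hQe : Q * e = Q) (hJ : J * (Q * P) = 1)
    (hred : e.map (residue O) = (P * (J * Q)).map (residue O)) : P * (J * Q) = e := by
  set E := P * (J * Q) with hEdef
  have hEE : E * E = E := by
    rw [hEdef, Matrix.mul_assoc, Matrix.mul_assoc, ← Matrix.mul_assoc Q P,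
      ← Matrix.mul_assoc J (Q * P), hJ, Matrix.one_mul]
  have hel : e * E = E := by rw [hEdef, ← Matrix.mul_assoc, heP]
  have her : E * e = E := by rw [hEdef, Matrix.mul_assoc, Matrix.mul_assoc, hQe]
  have hD : (e - E) * (e - E) = e - E := by
    rw [mul_sub, sub_mul, sub_mul, he, hel, her, hEE]
    abel
  have hDred : (1 - (e - E)).map (residue O) = 1 := by
    rw [Matrix.map_sub _ (map_sub _), Matrix.map_sub _ (map_sub _), hred, sub_self, sub_zero,
      Matrix.map_one _ (map_zero _) (map_one _)]
  have hu : IsUnit (1 - (e - E)).det := by
    refine (IsLocalRing.residue_ne_zero_iff_isUnit _).mp ?_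
    rw [RingHom.map_det, RingHom.mapMatrix_apply, hDred, Matrix.det_one]
    exact one_ne_zero
  have hzero : (1 - (e - E)) * (e - E) = 0 := by rw [sub_mul, one_mul, hD, sub_self]
  exact (sub_eq_zero.mp ((((Matrix.isUnit_iff_isUnit_det _).mpr hu).mul_right_eq_zero).mp
    hzero)).symm

variable {n : Type} [Fintype n] [DecidableEq n] {G : Type} [Group G] [Finite G]

/-- A representation over the residue field of a finite group of order prime to the residue
characteristic lifts to the valuation subring. -/
theorem exists_lift_rep (hG : (Nat.card G : ResidueField O) ≠ 0)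
    (r : G →* Matrix n n (ResidueField O)) :
    ∃ R : G →* Matrix n n O, ∀ g, (R g).map (residue O) = r g := by
  classical
  have := Fintype.ofFinite G
  set c : ResidueField O := (Nat.card G : ResidueField O)⁻¹ with hc
  choose s hs using IsLocalRing.residue_surjective (R := O)
  -- translations
  let σ : G → G × n → G × n := fun g x => (x.1 * g, x.2)
  let T : G → Matrix (G × n) (G × n) O := fun g => (1 : Matrix _ _ O).submatrix (σ g) id
  have hT : ∀ g (M : Matrix (G × n) (G × n) O), T g * M = M.submatrix (σ g) id := by
    intro g M
    ext x y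
    simp [T, Matrix.mul_apply, Matrix.one_apply, Matrix.submatrix_apply]
  have hTmul : ∀ g h, T g * T h = T (g * h) := by
    intro g h
    rw [hT]
    ext x y
    simp [T, σ, mul_assoc, Matrix.submatrix_apply, Matrix.one_apply]
  -- the maps to and from the regular representation
  let I : Matrix (G × n) n O := Matrix.of fun x j => s (r x.1 x.2 j)
  let P₀ : Matrix n (G × n) O := Matrix.of fun i y => s (c * r y.1⁻¹ i y.2)
  let a : Matrix (G × n) (G × n) O := Matrix.of fun x y => s (c * r (x.1 * y.1⁻¹) x.2 y.2)
  have hI : ∀ g, (T g).map (residue O) * I.map (residue O) = I.map (residue O) * r g := by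
    intro g
    ext x j
    rw [Matrix.mul_apply, Matrix.mul_apply, Finset.sum_eq_single (σ g x)]
    · simp [T, I, σ, hs, map_mul, Matrix.mul_apply, Matrix.one_apply]
    · intro y _ hy
      simp [T, Ne.symm hy]
    · simp
  have hPI : P₀.map (residue O) * I.map (residue O) = 1 := by
    ext i j
    rw [Matrix.mul_apply, Fintype.sum_prod_type]
    simp only [Matrix.map_apply, P₀, I, Matrix.of_apply, hs]
    have : ∀ x : G, ∑ y, c * r x⁻¹ i y * r x y j = c * (1 : Matrix n n (ResidueField O)) i j := by
      intro x
      rw [← map_one r, ← inv_mul_cancel x, map_mul, Matrix.mul_apply, Finset.mul_sum]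
      exact Finset.sum_congr rfl fun y _ => by ring
    simp only [this, Finset.sum_const, Finset.card_univ, nsmul_eq_mul]
    rw [← Nat.card_eq_fintype_card, ← mul_assoc, hc, mul_inv_cancel₀ hG, one_mul]
  have hared : a.map (residue O) = I.map (residue O) * P₀.map (residue O) := by
    ext x y
    simp only [Matrix.mul_apply, Matrix.map_apply, a, I, P₀, Matrix.of_apply, hs, map_mul,
      Finset.mul_sum]
    exact Finset.sum_congr rfl fun z _ => by ring
  have hidem : redMat O _ a * redMat O _ a = redMat O _ a := by
    rw [RingHom.mapMatrix_apply, hared, Matrix.mul_assoc (I.map _),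
      ← Matrix.mul_assoc (P₀.map _), hPI, Matrix.one_mul]
  have hcomm : ∀ g, Commute (T g) a := by
    intro g
    ext x y
    rw [hT, Matrix.mul_apply, Finset.sum_eq_single ((y.1 * g⁻¹, y.2) : G × n)]
    · simp [T, a, σ, mul_assoc, Matrix.one_apply]
    · rintro ⟨z, i⟩ _ hz
      have : σ g (z, i) ≠ y := by
        rintro rfl
        exact hz (by simp [σ])
      simp [T, this]
    · simp
  obtain ⟨p, hp, hpred⟩ := exists_idempotent_lift a hidem
  set e := aeval a p with he
  rw [RingHom.mapMatrix_apply, RingHom.mapMatrix_apply, hared] at hpred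
  have hTe : ∀ g, T g * e = e * T g := fun g => (commute_aeval (hcomm g) p).eq
  obtain ⟨P, hPdef⟩ : ∃ P : Matrix (G × n) n O, P = e * I := ⟨_, rfl⟩
  obtain ⟨Q, hQdef⟩ : ∃ Q : Matrix n (G × n) O, Q = P₀ * e := ⟨_, rfl⟩
  have hP : P.map (residue O) = I.map (residue O) := by
    rw [hPdef, Matrix.map_mul, hpred, Matrix.mul_assoc, hPI, Matrix.mul_one]
  have hQ : Q.map (residue O) = P₀.map (residue O) := by
    rw [hQdef, Matrix.map_mul, hpred, ← Matrix.mul_assoc, hPI, Matrix.one_mul]
  have hQP : IsUnit (Q * P).det := by
    refine (IsLocalRing.residue_ne_zero_iff_isUnit _).mp ?_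
    rw [RingHom.map_det, RingHom.mapMatrix_apply, Matrix.map_mul, hP, hQ, hPI, Matrix.det_one]
    exact one_ne_zero
  set J := (Q * P)⁻¹ with hJ
  have hJl : J * (Q * P) = 1 := Matrix.nonsing_inv_mul _ hQP
  have hJred : J.map (residue O) = 1 := by
    have := congrArg (fun M => M.map (residue O)) hJl
    simp only [Matrix.map_mul, hP, hQ, hPI, Matrix.mul_one] at this
    rw [this, Matrix.map_one _ (map_zero _) (map_one _)]
  have heP : e * P = P := by rw [hPdef, ← Matrix.mul_assoc, hp]
  have hQe : Q * e = Q := by rw [hQdef, Matrix.mul_assoc, hp]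
  -- `e` is the projection through `P` and `Q`
  have hE : P * (J * Q) = e := eq_idempotent_of_map_eq hp heP hQe hJl <| by
    rw [hpred, Matrix.map_mul, Matrix.map_mul, hP, hQ, hJred, Matrix.one_mul]
  let R : G →* Matrix n n O :=
    { toFun := fun g => J * Q * T g * P
      map_one' := by
        have : T 1 = 1 := by
          ext x y
          simp [T, σ, Matrix.one_apply]
        rw [this, Matrix.mul_one, Matrix.mul_assoc, hJl]
      map_mul' := fun g h => by
        symm
        calc J * Q * T g * P * (J * Q * T h * P)
            = J * Q * (T g * (P * (J * Q)) * (T h * P)) := by simp only [Matrix.mul_assoc]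
          _ = J * Q * (T g * T h * (e * P)) := by
            rw [hE, Matrix.mul_assoc (T g) e, ← Matrix.mul_assoc e, ← hTe]
            simp only [Matrix.mul_assoc]
          _ = J * Q * T (g * h) * P := by rw [hTmul, heP]; simp only [Matrix.mul_assoc] }
  refine ⟨R, fun g => ?_⟩
  show (J * Q * T g * P).map (residue O) = r g
  rw [Matrix.map_mul, Matrix.map_mul, Matrix.map_mul, hJred, hP, hQ, Matrix.one_mul,
    Matrix.mul_assoc, hI, ← Matrix.mul_assoc, hPI, Matrix.one_mul]

end FermatAgent.DS
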