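import Fermat.Agent.DS.Level

/-!
# A residual eigensystem of a weight two form occurs in the parabolic homomorphisms

If the expansions of the translates of a form are congruent to multiples of one series on which
the operators act by scalars, those scalars give a character of the `p`-adic Hecke module.
-/

set_option autoImplicit false
set_option maxSynthPendingDepth 4

noncomputable section

open UpperHalfPlane hiding I
open CongruenceSubgroup ModularCurve ModularCurve.Period Matrix.SpecialLinearGroup MvPolynomial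
open scoped MatrixGroups ModularForm OnePoint
open FermatAgent.Period (parabolicCoords parElt parRank)

namespace FermatAgent.DS

open FermatAgent.HM FermatAgent.LT.Mod3

variable {M : ℕ} [NeZero M]

/-- The index set of the operators. -/
abbrev OpIdx (M : ℕ) : Type := GoodPrime M ⊕ Gamma0 M

variable (p : ℕ) [Fact p.Prime]

/-- The operators. -/
def opR (R : Type) [CommRing R] :
    OpIdx M → Module.End R (parabolicHoms R (pmGamma M) R) :=
  Sum.elim (fun q => transParLin (heckeE p q)) fun ε => conjParLin ε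

/-- Evaluation on the integral parabolic homomorphisms. -/
def evZ : FreeAlgebra ℤ (OpIdx M) →ₐ[ℤ] Module.End ℤ (parabolicHoms ℤ (pmGamma M) ℤ) :=
  FreeAlgebra.lift ℤ (opR p ℤ)

/-- Evaluation with larger coefficients. -/
def evR (R : Type) [CommRing R] [IsAddTorsionFree R] :
    FreeAlgebra ℤ (OpIdx M) →+* Module.End R (parabolicHoms R (pmGamma M) R) :=
  (extPar (pmGamma M) ℤ R).comp (evZ p).toRingHom

lemma evR_apply (R : Type) [CommRing R] [IsAddTorsionFree R] (P : FreeAlgebra ℤ (OpIdx M))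
    (φ : parabolicHoms ℤ (pmGamma M) ℤ) :
    evR p R P (pushParO φ) = pushParO (evZ p P φ) := extPar_pushParO _ φ

lemma evR_ι (R : Type) [CommRing R] [IsAddTorsionFree R] (x : OpIdx M) :
    evR p R (FreeAlgebra.ι ℤ x) = opR p R x := by
  show extPar (pmGamma M) ℤ R (evZ p (FreeAlgebra.ι ℤ x)) = _
  rw [evZ, FreeAlgebra.lift_ι_apply]
  cases x with
  | inl q => exact extPar_eq_of _ _ (transParLin_pushParO _)
  | inr ε => exact extPar_eq_of _ _ (conjParLin_pushParO ε)

lemma pushParO_injective {R : Type} [CommRing R] [CharZero R] {Γ : Subgroup SL(2, ℤ)} :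
    Function.Injective (pushParO (R := ℤ) (O := R) (Γ := Γ)) := fun _ _ h =>
  Subtype.ext (AddMonoidHom.ext fun x => Int.cast_injective (α := R)
    (DFunLike.congr_fun (congrArg Subtype.val h) x))

/-- The corresponding element of the Hecke polynomial algebra. -/
def polyImg : FreeAlgebra ℤ (OpIdx M) →ₐ[ℤ]
    MvPolynomial (GoodPrime M) (MonoidAlgebra ℤ_[p] (SignQuot M)) :=
  FreeAlgebra.lift ℤ (Sum.elim MvPolynomial.X fun ε =>
    C (MonoidAlgebra.single (gammaClass (signQ M) (dvd_refl M) ε)⁻¹ 1))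

/-- A parabolic homomorphism as an element of the Hecke module. -/
def toSub (φ : parabolicHoms ℤ_[p] (pmGamma M) ℤ_[p]) :
    parSub ℤ_[p] (signQ M) (dvd_refl M) (primeIdx M) (signQ_surjective M) :=
  ⟨(shapiroHecke ℤ_[p] (signQ M) (dvd_refl M) (primeIdx M) (signQ_surjective M)).symm φ.1, by
    rw [mem_parSub, AddEquiv.apply_symm_apply]; exact φ.2⟩

lemma shapiro_toSub (φ : parabolicHoms ℤ_[p] (pmGamma M) ℤ_[p]) :
    shapiroHecke ℤ_[p] (signQ M) (dvd_refl M) (primeIdx M) (signQ_surjective M) (toSub p φ).1 =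
      φ.1 := AddEquiv.apply_symm_apply _ _

theorem shapiro_polyImg_smul (P : FreeAlgebra ℤ (OpIdx M))
    (φ : parabolicHoms ℤ_[p] (pmGamma M) ℤ_[p]) :
    shapiroHecke ℤ_[p] (signQ M) (dvd_refl M) (primeIdx M) (signQ_surjective M)
      (polyImg p P • toSub p φ).1 = (evR p ℤ_[p] P φ).1 := by
  induction P using FreeAlgebra.induction generalizing φ with
  | grade0 z =>
    rw [show algebraMap ℤ (FreeAlgebra ℤ (OpIdx M)) z = (z : FreeAlgebra ℤ (OpIdx M)) from
        eq_intCast (algebraMap ℤ _) z, map_intCast, map_intCast,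
      show ((z : MvPolynomial (GoodPrime M) (MonoidAlgebra ℤ_[p] (SignQuot M))) • toSub p φ) =
        z • toSub p φ from Int.cast_smul_eq_zsmul
          (MvPolynomial (GoodPrime M) (MonoidAlgebra ℤ_[p] (SignQuot M))) z (toSub p φ),
      Submodule.coe_smul_of_tower, map_zsmul,
      shapiro_toSub, show ((z : Module.End ℤ_[p] (parabolicHoms ℤ_[p] (pmGamma M) ℤ_[p])) φ) =
        z • φ from by rw [Module.End.intCast_apply]]
    rfl
  | grade1 x =>
    rw [evR_ι, polyImg, FreeAlgebra.lift_ι_apply, Submodule.coe_smul]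
    cases x with
    | inl q =>
      have h := (exists_transfer_mem ℤ_[p] (signQ M) (dvd_refl M) (primeIdx M)
        (signQ_surjective M) q).choose_spec.choose_spec.2 (toSub p φ)
      rw [Module.algebraMap_end_apply, Submodule.coe_smul] at h
      refine h.trans (congrArg (fun ψ => (transParLin (heckeE p q) ψ).1) ?_)
      exact Subtype.ext (shapiro_toSub p φ)
    | inr ε =>
      rw [Sum.elim_inr, C_smul_eq, shapiroHecke_group (ε := ε) (signQ_surjective M)
        (inv_inv _).symm, shapiro_toSub]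
      rfl
  | mul a b ha hb =>
    rw [map_mul, mul_smul, map_mul, Module.End.mul_apply, ← ha]
    congr 3
    exact Subtype.ext ((AddEquiv.eq_symm_apply _).mpr (hb φ))
  | add a b ha hb =>
    rw [map_add, add_smul, Submodule.coe_add, map_add, ha, hb, map_add, LinearMap.add_apply,
      Submodule.coe_add]

/-- The operators commute. -/
theorem evR_comm (R : Type) [CommRing R] [IsAddTorsionFree R] (a b : FreeAlgebra ℤ (OpIdx M)) :
    evR p R (a * b) = evR p R (b * a) := by
  refine congrArg (extPar (pmGamma M) ℤ R) (LinearMap.ext fun φ => ?_)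
  refine pushParO_injective (R := ℤ_[p]) ?_
  show pushParO (evZ p (a * b) φ) = pushParO (evZ p (b * a) φ)
  rw [← evR_apply p ℤ_[p], ← evR_apply p ℤ_[p]]
  refine Subtype.ext ?_
  rw [← shapiro_polyImg_smul, ← shapiro_polyImg_smul, map_mul, map_mul, mul_comm]

omit [NeZero M] in
lemma conjParLin_mul {R : Type} [CommRing R] (a b : Gamma0 M) :
    (conjParLin a * conjParLin b : Module.End R (parabolicHoms R (pmGamma M) R)) =
      conjParLin (a * b) :=
  LinearMap.ext fun φ => Subtype.ext (AddMonoidHom.ext fun x => congrArg φ.1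
    (congrArg Additive.ofMul (Subtype.ext (by
      simp [conjGammaH, toGammaH, mul_inv_rev, mul_assoc]))))

/-- Translation by `Γ₀(M)` preserves invariance under `±Γ₁(M)`. -/
lemma isInvForm_slashForm {G : CuspForm (gammaGL M) 2} (hG : IsInvForm (pmGamma M) G)
    (s : Gamma0 M) : IsInvForm (pmGamma M) (slashForm (s : SL(2, ℤ)) G) := fun γ => by
  rw [coe_slashForm, ← SlashAction.slash_mul,
    show (s : SL(2, ℤ)) * γ = (conjGammaH s⁻¹ γ : pmGamma M).1 * (s : SL(2, ℤ)) by
      simp [conjGammaH, toGammaH, mul_assoc], SlashAction.slash_mul, hG]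

/-- The periods of a translate are the conjugates of the periods. -/
lemma invPeriod_slashForm_eq {G : CuspForm (gammaGL M) 2} (hG : IsInvForm (pmGamma M) G)
    (s : Gamma0 M) :
    invPeriod (isInvForm_slashForm hG s) = conjParLin s⁻¹ (invPeriod hG) :=
  Subtype.ext (AddMonoidHom.ext fun x => by
    obtain ⟨γ, rfl⟩ := Additive.ofMul.surjective x
    exact invPeriod_slashForm hG _ (isInvForm_slashForm hG s) γ (conjGammaH s⁻¹ γ)
      (by simp [conjGammaH, toGammaH, mul_assoc]))

theorem eq_of_invPeriod_eq {G G' : CuspForm (gammaGL M) 2} (hG : IsInvForm (pmGamma M) G)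
    (hG' : IsInvForm (pmGamma M) G') (h : invPeriod hG = invPeriod hG') : G = G' := by
  refine sub_eq_zero.mp (formPeriod_separates _ fun γ => ?_)
  rw [map_sub, sub_eq_zero, ← formPeriod_eq γ G UpperHalfPlane.I,
    ← formPeriod_eq γ G' UpperHalfPlane.I, ← invPeriod_apply hG ⟨γ, gamma_le_pmGamma γ.2⟩,
    ← invPeriod_apply hG' ⟨γ, gamma_le_pmGamma γ.2⟩, h]

section Residual

/-- The residue field of a valuation subring of `ℂ`. -/
abbrev ResF (O : ValuationSubring ℂ) : Type := IsLocalRing.ResidueField O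

variable (O : ValuationSubring ℂ)


/-- The expansion of `G` is congruent to `c φ`. -/
def IsRed (φ : ℕ → (ResF O)) (G : CuspForm (gammaGL M) 2) (c : (ResF O)) : Prop :=
  ∀ n, ∃ h : formCoeff n G ∈ O, IsLocalRing.residue O ⟨_, h⟩ = c * φ n

variable (φ : ℕ → (ResF O)) (χ : (ZMod M)ˣ →* (ResF O)) (aq : GoodPrime M → (ResF O))

/-- The periods of a family of translates congruent to multiples of `φ`. -/
def IsEigPer (ψ : parabolicHoms ℂ (pmGamma M) ℂ) (c : (ResF O)) : Prop :=
  ∀ g : Gamma0 M, ∃ (G : CuspForm (gammaGL M) 2) (hG : IsInvForm (pmGamma M) G),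
    invPeriod hG = conjParLin g⁻¹ ψ ∧ IsRed O φ G (χ (lrUnit g) * c)

/-- The scalars. -/
def evK : FreeAlgebra ℤ (OpIdx M) →ₐ[ℤ] (ResF O) :=
  FreeAlgebra.lift ℤ (Sum.elim aq fun ε => χ (lrUnit ε)⁻¹)

variable {O φ χ aq}

lemma IsRed.add {G G' : CuspForm (gammaGL M) 2} {c c' : (ResF O)} (h : IsRed O φ G c)
    (h' : IsRed O φ G' c') : IsRed O φ (G + G') (c + c') := fun n => by
  obtain ⟨a, ha⟩ := h n
  obtain ⟨b, hb⟩ := h' n
  have hm : formCoeff n (G + G') ∈ O := by rw [map_add]; exact O.add_mem _ _ a b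
  refine ⟨hm, ?_⟩
  rw [show (⟨_, hm⟩ : O) = ⟨_, a⟩ + ⟨_, b⟩ from Subtype.ext (map_add _ _ _), map_add, ha, hb,
    add_mul]

omit [NeZero M] in
lemma IsInvForm.add {Γ : Subgroup SL(2, ℤ)} {G G' : CuspForm (gammaGL M) 2}
    (h : IsInvForm Γ G) (h' : IsInvForm Γ G') : IsInvForm Γ (G + G') := fun γ => by
  rw [FunLike.coe_add, SlashAction.add_slash, h γ, h' γ]

lemma invPeriod_add {G G' : CuspForm (gammaGL M) 2} (h : IsInvForm (pmGamma M) G)
    (h' : IsInvForm (pmGamma M) G') : invPeriod (h.add h') = invPeriod h + invPeriod h' :=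
  Subtype.ext (AddMonoidHom.ext fun x => by
    obtain ⟨γ, rfl⟩ := Additive.ofMul.surjective x
    obtain ⟨c, hc⟩ := Period.exists_sub_eq_const (formPrim_spec (G + G'))
      (F₂ := fun z => formPrim G z + formPrim G' z)
      (fun τ => (formPrim_spec G τ).add (formPrim_spec G' τ))
    rw [Submodule.coe_add, AddMonoidHom.add_apply, invPeriod_apply _ γ UpperHalfPlane.I,
      invPeriod_apply h γ UpperHalfPlane.I, invPeriod_apply h' γ UpperHalfPlane.I]
    linear_combination hc ((γ : SL(2, ℤ)) • UpperHalfPlane.I) - hc UpperHalfPlane.I)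

lemma IsEigPer.add {ψ ψ' : parabolicHoms ℂ (pmGamma M) ℂ} {c c' : (ResF O)}
    (h : IsEigPer O φ χ ψ c) (h' : IsEigPer O φ χ ψ' c') :
    IsEigPer O φ χ (ψ + ψ') (c + c') := fun g => by
  obtain ⟨G, hG, hp, hr⟩ := h g
  obtain ⟨G', hG', hp', hr'⟩ := h' g
  exact ⟨G + G', hG.add hG',
    by rw [invPeriod_add hG hG', hp, hp', map_add], mul_add _ c c' ▸ hr.add hr'⟩

lemma IsEigPer.zsmul {ψ : parabolicHoms ℂ (pmGamma M) ℂ} {c : (ResF O)} (h : IsEigPer O φ χ ψ c)
    (z : ℤ) : IsEigPer O φ χ (z • ψ) ((z : (ResF O)) * c) := fun g => by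
  obtain ⟨G, hG, hp, hr⟩ := h g
  have hz : IsInvForm (pmGamma M) ((z : ℂ) • G) := fun γ => by
    rw [FunLike.coe_smul, ModularForm.SL_smul_slash, hG γ]
  refine ⟨(z : ℂ) • G, hz, ?_, fun n => ?_⟩
  · rw [map_zsmul, ← hp]
    refine Subtype.ext (AddMonoidHom.ext fun x => ?_)
    obtain ⟨γ, rfl⟩ := Additive.ofMul.surjective x
    obtain ⟨c', hc⟩ := Period.exists_sub_eq_const (formPrim_spec ((z : ℂ) • G))
      (F₂ := fun τ => (z : ℂ) * formPrim G τ) (fun τ => (formPrim_spec G τ).const_mul (z : ℂ))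
    rw [Submodule.coe_smul_of_tower, AddMonoidHom.smul_apply, zsmul_eq_mul,
      invPeriod_apply _ γ UpperHalfPlane.I, invPeriod_apply hG γ UpperHalfPlane.I]
    linear_combination hc ((γ : SL(2, ℤ)) • UpperHalfPlane.I) - hc UpperHalfPlane.I
  · obtain ⟨a, ha⟩ := hr n
    have e : formCoeff n ((z : ℂ) • G) = (((z : O) * ⟨_, a⟩ : O) : ℂ) := by simp
    refine ⟨e ▸ SetLike.coe_mem _, ?_⟩
    rw [show (⟨_, e ▸ SetLike.coe_mem _⟩ : O) = (z : O) * ⟨_, a⟩ from Subtype.ext e, map_mul,
      map_intCast, ha]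
    ring

variable (heig : ∀ (q : GoodPrime M) (n : ℕ), φ ((q.1 : ℕ) * n) +
  ((q.1 : ℕ) : (ResF O)) * χ (primeUnit q) * (if (q.1 : ℕ) ∣ n then φ (n / (q.1 : ℕ)) else 0) =
    aq q * φ n)

include heig in
theorem IsEigPer.evC (P : FreeAlgebra ℤ (OpIdx M)) {ψ : parabolicHoms ℂ (pmGamma M) ℂ}
    {c : (ResF O)}
    (h : IsEigPer O φ χ ψ c) :
    IsEigPer O φ χ (evR p ℂ P ψ) (evK O χ aq P * c) := by
  induction P using FreeAlgebra.induction generalizing ψ c with
  | grade0 z =>
    rw [show algebraMap ℤ (FreeAlgebra ℤ (OpIdx M)) z = (z : FreeAlgebra ℤ (OpIdx M)) from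
      eq_intCast (algebraMap ℤ _) z, map_intCast, map_intCast, Module.End.intCast_apply]
    exact h.zsmul z
  | add a b ha hb =>
    rw [map_add, map_add, LinearMap.add_apply, add_mul]
    exact (ha h).add (hb h)
  | mul a b ha hb =>
    rw [map_mul, map_mul, Module.End.mul_apply, mul_assoc]
    exact ha (hb h)
  | grade1 x =>
    rw [evR_ι, evK, FreeAlgebra.lift_ι_apply]
    cases x with
    | inr ε =>
      intro g
      obtain ⟨G, hG, hp, hr⟩ := h (ε⁻¹ * g)
      refine ⟨G, hG, ?_, ?_⟩
      · rw [hp]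
        show _ = (conjParLin g⁻¹ * conjParLin ε : Module.End ℂ (parabolicHoms ℂ (pmGamma M) ℂ)) ψ
        rw [conjParLin_mul, mul_inv_rev, inv_inv]
      · rw [Sum.elim_inr, ← map_inv]
        rw [map_mul, map_mul, mul_assoc, mul_left_comm] at hr
        exact hr
    | inl q =>
      intro g
      obtain ⟨G, hG, hp, hr⟩ := h g
      set E := heckeE p q
      refine ⟨sumForm E gamma_le_pmGamma hG, isInvForm_sumForm E gamma_le_pmGamma hG, ?_, ?_⟩
      · have hc := evR_comm p ℂ (FreeAlgebra.ι ℤ (Sum.inr g⁻¹ : OpIdx M))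
          (FreeAlgebra.ι ℤ (Sum.inl q))
        rw [map_mul, map_mul, evR_ι, evR_ι] at hc
        show _ = (conjParLin g⁻¹ * transParLin E : Module.End ℂ (parabolicHoms ℂ (pmGamma M) ℂ)) ψ
        rw [show (conjParLin g⁻¹ * transParLin E : Module.End ℂ _) =
          transParLin E * conjParLin g⁻¹ from hc, Module.End.mul_apply, ← hp]
        exact Subtype.ext (invPeriod_sumForm E (shiftedCorr_heckeE p q).det_pos gamma_le_pmGamma hG)
      · obtain ⟨s, hsu, hco⟩ := formCoeff_sumForm p q hG
        obtain ⟨G', hG', hp', hr'⟩ := h (g * s)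
        have e : slashForm (s : SL(2, ℤ)) G = G' := eq_of_invPeriod_eq
          (isInvForm_slashForm hG s) hG' (by
            rw [invPeriod_slashForm_eq hG, hp, hp', ← Module.End.mul_apply, conjParLin_mul,
              mul_inv_rev])
        intro n
        obtain ⟨a, ha⟩ := hr ((q.1 : ℕ) * n)
        obtain ⟨b, hb⟩ := hr' (n / (q.1 : ℕ))
        set β : O := if (q.1 : ℕ) ∣ n then ⟨_, b⟩ else 0 with hβ
        set tot : O := ⟨_, a⟩ + ((q.1 : ℕ) : O) * β
        have hval : formCoeff n (sumForm E gamma_le_pmGamma hG) = (tot : ℂ) := by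
          rw [hco n, e]
          simp only [tot, hβ]
          split_ifs <;> simp
        refine ⟨hval ▸ tot.2, ?_⟩
        rw [show (⟨_, hval ▸ tot.2⟩ : O) = tot from Subtype.ext hval, map_add, map_mul,
          map_natCast, ha, Sum.elim_inl]
        have hβ' : IsLocalRing.residue O β = χ (lrUnit g) * c * χ (primeUnit q) *
            (if (q.1 : ℕ) ∣ n then φ (n / (q.1 : ℕ)) else 0) := by
          rw [hβ]
          split_ifs
          · rw [hb, map_mul, map_mul, hsu]; ring
          · simp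
        rw [hβ']
        linear_combination (χ (lrUnit g) * c) * heig q n

variable (hχ : χ (-1) = 1)

/-- The character on units up to sign. -/
def chiQ (hχ : χ (-1) = 1) : SignQuot M →* (ResF O) :=
  QuotientGroup.lift _ χ (by rw [Subgroup.zpowers_le, MonoidHom.mem_ker]; exact hχ)

variable [CharP (ResF O) p]

/-- The scalars on the Hecke polynomial algebra. -/
def polyK (hχ : χ (-1) = 1) (aq : GoodPrime M → (ResF O)) :
    MvPolynomial (GoodPrime M) (MonoidAlgebra ℤ_[p] (SignQuot M)) →+* (ResF O) :=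
  eval₂Hom (MonoidAlgebra.liftNCRingHom ((ZMod.castHom (dvd_refl p) (ResF O)).comp PadicInt.toZMod)
    (chiQ hχ) fun _ _ => Commute.all _ _) aq

omit [NeZero M] in
/-- On a constant times a class of units the scalars are the residue times the character. -/
lemma polyK_C_single (u : (ZMod M)ˣ) (a : ℤ_[p]) :
    polyK p hχ aq (C (MonoidAlgebra.single (signQ M u) a)) =
      ZMod.castHom (dvd_refl p) (ResF O) (PadicInt.toZMod a) * χ u := by
  simp [polyK, MonoidAlgebra.liftNCRingHom, chiQ, signQ]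

omit [NeZero M] in
lemma polyK_polyImg (P : FreeAlgebra ℤ (OpIdx M)) :
    polyK p hχ aq (polyImg p P) = evK O χ aq P := by
  induction P using FreeAlgebra.induction with
  | grade0 z =>
    rw [show algebraMap ℤ (FreeAlgebra ℤ (OpIdx M)) z = (z : FreeAlgebra ℤ (OpIdx M)) from
      eq_intCast (algebraMap ℤ _) z, map_intCast, map_intCast, map_intCast]
  | grade1 x =>
    rw [polyImg, evK, FreeAlgebra.lift_ι_apply, FreeAlgebra.lift_ι_apply]
    cases x with
    | inl q => simp [polyK]
    | inr ε =>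
      rw [Sum.elim_inr, Sum.elim_inr, gammaClass_signQ, ← map_inv, polyK_C_single, map_one,
        map_one, one_mul]
  | mul a b ha hb => rw [map_mul, map_mul, map_mul, ha, hb]
  | add a b ha hb => rw [map_add, map_add, map_add, ha, hb]

/-- Every polynomial is congruent to the image of an integral one. -/
lemma exists_polyImg_add (P : MvPolynomial (GoodPrime M) (MonoidAlgebra ℤ_[p] (SignQuot M))) :
    ∃ (P' : FreeAlgebra ℤ (OpIdx M)) (Q : MvPolynomial (GoodPrime M) _),
      P = polyImg p P' + (p : MvPolynomial (GoodPrime M) _) * Q := by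
  induction P using MvPolynomial.induction_on with
  | C a =>
    induction a using MonoidAlgebra.induction_linear with
    | zero => exact ⟨0, 0, by simp⟩
    | add a b ha hb =>
      obtain ⟨P, Q, h⟩ := ha
      obtain ⟨P', Q', h'⟩ := hb
      exact ⟨P + P', Q + Q', by rw [map_add, h, h', map_add]; ring⟩
    | single u a =>
      obtain ⟨v, rfl⟩ := signQ_surjective M u
      obtain ⟨ε, hε⟩ := exists_lrUnit v⁻¹
      obtain ⟨n, hn⟩ : ∃ n : ℕ, (p : ℤ_[p]) ∣ a - n := by
        refine ⟨(PadicInt.toZMod a).val, ?_⟩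
        rw [← Ideal.mem_span_singleton, ← PadicInt.maximalIdeal_eq_span_p, ← PadicInt.ker_toZMod,
          RingHom.mem_ker, map_sub, map_natCast, ZMod.natCast_zmod_val, sub_self]
      obtain ⟨b, hb⟩ := hn
      refine ⟨(n : FreeAlgebra ℤ (OpIdx M)) * FreeAlgebra.ι ℤ (Sum.inr ε),
        C (MonoidAlgebra.single (signQ M v) b), ?_⟩
      rw [map_mul, map_natCast, polyImg, FreeAlgebra.lift_ι_apply, Sum.elim_inr, gammaClass_signQ,
        hε, map_inv, inv_inv, show (a : ℤ_[p]) = n + p * b by rw [← hb]; ring,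
        ← map_natCast (C : _ →+* MvPolynomial (GoodPrime M) (MonoidAlgebra ℤ_[p] (SignQuot M))) n,
        ← map_natCast (C : _ →+* MvPolynomial (GoodPrime M) (MonoidAlgebra ℤ_[p] (SignQuot M))) p,
        ← map_mul, ← map_mul, ← map_add]
      simp [MonoidAlgebra.natCast_def, MonoidAlgebra.single_mul_single, MonoidAlgebra.single_add]
  | add f g hf hg =>
    obtain ⟨P, Q, h⟩ := hf
    obtain ⟨P', Q', h'⟩ := hg
    exact ⟨P + P', Q + Q', by rw [h, h', map_add]; ring⟩
  | mul_X f q hf =>
    obtain ⟨P, Q, h⟩ := hf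
    refine ⟨P * FreeAlgebra.ι ℤ (Sum.inl q), Q * X q, ?_⟩
    rw [h, map_mul, show polyImg p (FreeAlgebra.ι ℤ (Sum.inl q)) = X q by
      simp [polyImg, FreeAlgebra.lift_ι_apply]]
    ring

include heig in
/-- **The eigensystem occurs**: a Hecke polynomial killing the parabolic module is killed by the
residual eigensystem. -/
theorem polyK_eq_zero_of_annihilates {ψ₀ : parabolicHoms ℂ (pmGamma M) ℂ}
    (h₀ : IsEigPer O φ χ ψ₀ 1) (hφ : ∃ n, φ n ≠ 0)
    (P : MvPolynomial (GoodPrime M) (MonoidAlgebra ℤ_[p] (SignQuot M)))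
    (hP : ∀ z : parSub ℤ_[p] (signQ M) (dvd_refl M) (primeIdx M) (signQ_surjective M),
      P • z = 0) : polyK p hχ aq P = 0 := by
  have hp : p.Prime := Fact.out
  -- integral polynomials killing everything
  have hzero : ∀ s : FreeAlgebra ℤ (OpIdx M), evZ p s = 0 → evK O χ aq s = 0 := fun s hs => by
    have h := IsEigPer.evC p heig s h₀ 1
    have e : evR p ℂ s = 0 := by
      show extPar _ ℤ ℂ (evZ p s) = 0
      rw [hs, map_zero]
    obtain ⟨G, hG, hper, hred⟩ := h
    rw [e, LinearMap.zero_apply, map_zero] at hper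
    have hG0 := invPeriod_eq_zero gamma_le_pmGamma hG hper
    obtain ⟨n, hn⟩ := hφ
    obtain ⟨a, ha⟩ := hred n
    subst hG0
    rw [show (⟨_, a⟩ : O) = 0 from Subtype.ext (map_zero (formCoeff n)),
      map_zero, mul_one, map_one, map_one, one_mul] at ha
    exact (mul_eq_zero.mp ha.symm).resolve_right hn
  obtain ⟨P', Q, rfl⟩ := exists_polyImg_add p P
  -- the integral part is divisible by `p`
  have hrange : LinearMap.range (evZ p P') ≤
      Ideal.span {(p : ℤ)} • (⊤ : Submodule ℤ (parabolicHoms ℤ (pmGamma M) ℤ)) := by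
    rintro _ ⟨θ, rfl⟩
    set w₀ := evZ p P' θ
    have hd : ∀ i, (p : ℤ) ∣ parabolicCoords (pmGamma M) ℤ ℤ w₀ i := fun i => by
      have h := hP (toSub p (pushParO θ))
      rw [add_smul, mul_smul, ← eq_neg_iff_add_eq_zero] at h
      have h1 := congrArg (fun z => shapiroHecke ℤ_[p] (signQ M) (dvd_refl M) (primeIdx M)
        (signQ_surjective M) z.1 (Additive.ofMul (parElt (pmGamma M) i))) h
      simp only [shapiro_polyImg_smul, evR_apply] at h1
      rw [Nat.cast_smul_eq_nsmul, ← neg_nsmul, Submodule.coe_smul_of_tower, map_nsmul,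
        AddMonoidHom.nsmul_apply, nsmul_eq_mul, pushParO_apply, algebraMap_int_eq,
        eq_intCast] at h1
      exact (PadicInt.norm_int_lt_one_iff_dvd _).mp ((PadicInt.norm_lt_one_iff_dvd _).mpr ⟨_, h1⟩)
    choose w hw using hd
    have e : w₀ = (p : ℤ) • (parabolicCoords (pmGamma M) ℤ ℤ).symm w := by
      refine (parabolicCoords (pmGamma M) ℤ ℤ).injective (funext fun i => ?_)
      rw [map_smul, LinearEquiv.apply_symm_apply, Pi.smul_apply, smul_eq_mul]
      exact hw i
    rw [e]
    exact Submodule.smul_mem_smul (Ideal.mem_span_singleton_self _) Submodule.mem_top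
  have : Module.Finite ℤ (parabolicHoms ℤ (pmGamma M) ℤ) :=
    Module.Finite.equiv (parabolicCoords (pmGamma M) ℤ ℤ).symm
  obtain ⟨f, hf, -, hfc, hf0⟩ :=
    LinearMap.exists_monic_and_natDegree_eq_and_coeff_mem_pow_and_aeval_eq_zero (R := ℤ)
      (f := evZ p P') (I := Ideal.span {(p : ℤ)}) (hI := hrange)
  have h1 := hzero (Polynomial.aeval P' f) (by rw [← Polynomial.aeval_algHom_apply, hf0])
  rw [← Polynomial.aeval_algHom_apply, Polynomial.aeval_def, ← Polynomial.eval_map] at h1
  have hmap : f.map (algebraMap ℤ (ResF O)) = Polynomial.X ^ f.natDegree := by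
    ext i
    rw [Polynomial.coeff_map, Polynomial.coeff_X_pow]
    rcases lt_trichotomy i f.natDegree with h | rfl | h
    · rw [if_neg h.ne]
      have hi := Ideal.pow_le_self (by omega) (hfc i)
      rw [Ideal.mem_span_singleton] at hi
      obtain ⟨c, hc⟩ := hi
      rw [hc, map_mul, map_natCast, CharP.cast_eq_zero, zero_mul]
    · rw [if_pos rfl, hf.coeff_natDegree, map_one]
    · rw [if_neg h.ne', Polynomial.coeff_eq_zero_of_natDegree_lt h, map_zero]
  rw [hmap, Polynomial.eval_pow, Polynomial.eval_X] at h1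
  rw [map_add, map_mul, map_natCast, CharP.cast_eq_zero, zero_mul, add_zero, polyK_polyImg]
  exact eq_zero_of_pow_eq_zero h1

end Residual

end FermatAgent.DS
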