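import Fermat.Agent.HM.Gal.Local
import Fermat.Agent.RT.Traces
import Fermat.Agent.ES.Tate.Unramified

/-!
# The residual trace attached to a character of a parabolic Hecke module

A ring map on the Hecke polynomial algebra killing the annihilator of the parabolic module of
`Γ_H`, into a field of characteristic `p`, gives a trace and determinant of `Gal(ℚ̄/ℚ)` of finite
level.
-/

set_option autoImplicit false

noncomputable section

open CongruenceSubgroup ModularCurve.Period MvPolynomial
open scoped MatrixGroups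
open FermatAgent.ES (GQ)

namespace FermatAgent.DS

open FermatAgent.HM

/-- `x + (-1) x = 0` among endomorphisms. -/
theorem end_add_neg_one_mul {R V : Type*} [CommRing R] [AddCommGroup V] [Module R V]
    (G : Module.End R V) {P : R} (hP : P = -1) : G + algebraMap R (Module.End R V) P * G = 0 := by
  rw [hP, map_neg, map_one, neg_one_mul, add_neg_cancel]

/-- The change of the trace under an element congruent to one. -/
theorem traceFun_sub_eq {R A G : Type*} [CommRing R] [Ring A] [Algebra R A] [Group G]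
    (ρ d : G →* A) (g : G) {τ : G} {π : R} {f1 f2 f3 : A} (h1 : ρ τ = 1 + π • f1)
    (h2 : d τ = 1 + π • f2) (h3 : ρ τ⁻¹ = 1 + π • f3) :
    traceFun ρ d (g * τ) - traceFun ρ d g =
      π • (ρ g * f1 + d g * f2 * ρ (g * τ)⁻¹ + d g * (f3 * ρ g⁻¹)) := by
  have e1 : ρ (g * τ) - ρ g = π • (ρ g * f1) := by
    rw [map_mul, h1, mul_add, mul_one, add_sub_cancel_left, mul_smul_comm]
  have e2 : d (g * τ) - d g = π • (d g * f2) := by
    rw [map_mul, h2, mul_add, mul_one, add_sub_cancel_left, mul_smul_comm]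
  have e3 : ρ (g * τ)⁻¹ - ρ g⁻¹ = π • (f3 * ρ g⁻¹) := by
    rw [mul_inv_rev, map_mul, h3, add_mul, one_mul, add_sub_cancel_left, smul_mul_assoc]
  calc traceFun ρ d (g * τ) - traceFun ρ d g
      = (ρ (g * τ) - ρ g) + (d (g * τ) - d g) * ρ (g * τ)⁻¹ +
          d g * (ρ (g * τ)⁻¹ - ρ g⁻¹) := by
        simp only [traceFun]; noncomm_ring
    _ = _ := by
      rw [e1, e2, e3, smul_mul_assoc, mul_smul_comm, smul_add, smul_add]

/-- The trace is unchanged by an element acting trivially. -/
theorem traceFun_congr {A G : Type*} [Ring A] [Group G] (ρ d : G →* A) (g : G) {τ : G}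
    (h1 : ρ τ = 1) (h2 : ρ τ⁻¹ = 1) (h3 : d (g * τ) = d g) :
    traceFun ρ d (g * τ) = traceFun ρ d g := by
  rw [traceFun, traceFun, h3, mul_inv_rev, map_mul, map_mul, h1, h2, mul_one, one_mul]

/-- Differences are transferred. -/
theorem map_sub_transfer {A B C : Type*} [Ring A] [Ring B] [Ring C] (i : A →+* C) (j : B →+* C)
    {u v : A} {a b z : B} (hu : i u = j a) (hv : i v = j b) (h : a - b = z) :
    i (u - v) = j z := by
  rw [← h, map_sub, map_sub, hu, hv]

/-- A map out of a quotient takes equal values on classes whose difference it kills. -/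
theorem lift_eq_of_kills {R k : Type*} [CommRing R] [CommRing k] {I : Ideal R} (K : R →+* k)
    (hK : ∀ a ∈ I, K a = 0) {u v : R ⧸ I}
    (h : ∀ x, Ideal.Quotient.mk I x = u - v → K x = 0) :
    Ideal.Quotient.lift I K hK u = Ideal.Quotient.lift I K hK v := by
  obtain ⟨x, hx⟩ := Ideal.Quotient.mk_surjective (u - v)
  rw [← sub_eq_zero, ← map_sub, ← hx, Ideal.Quotient.lift_mk, h x hx]

variable (p : ℕ) [hp : Fact p.Prime] (O : Type) [CommRing O] [Algebra ℤ_[p] O] [IsAddTorsionFree O]
  {Δ : Type} [CommGroup Δ] [Finite Δ] {N L M : ℕ} [NeZero M]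
  [NeZero N] {δ : (ZMod N)ˣ →* Δ} {hNM : N ∣ M} {ι : Type} {pr : ι → HPrime L}
variable (hδ : Function.Surjective δ) (hneg : δ (-1) = 1)

/-- The ring of endomorphisms of the parabolic module. -/
instance ringEndParSub :
    Ring (Module.End (MvPolynomial ι (MonoidAlgebra O Δ)) (parSub O δ hNM pr hδ)) :=
  @Module.End.instRing _ _ _ (Submodule.addCommGroup (parSub O δ hNM pr hδ)) _

variable (δ hNM pr) in
/-- The Hecke algebra of the parabolic module. -/
abbrev ImgAlg : Type :=
  MvPolynomial ι (MonoidAlgebra O Δ) ⧸ RingHom.ker (algebraMap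
    (MvPolynomial ι (MonoidAlgebra O Δ))
    (Module.End (MvPolynomial ι (MonoidAlgebra O Δ)) (parSub O δ hNM pr hδ)))

/-- The inclusion of the Hecke algebra. -/
def imgIncl : ImgAlg O δ hNM pr hδ →+*
    Module.End (MvPolynomial ι (MonoidAlgebra O Δ)) (parSub O δ hNM pr hδ) := RingHom.kerLift _

section

omit [NeZero N] [IsAddTorsionFree O]

theorem imgIncl_mk (P : (MvPolynomial ι (MonoidAlgebra O Δ))) :
    imgIncl O hδ (Ideal.Quotient.mk _ P) = algebraMap (MvPolynomial ι (MonoidAlgebra O Δ))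
      (Module.End (MvPolynomial ι (MonoidAlgebra O Δ)) (parSub O δ hNM pr hδ)) P := rfl

theorem imgIncl_injective : Function.Injective (imgIncl O hδ (hNM := hNM) (pr := pr)) :=
  RingHom.kerLift_injective _

theorem imgIncl_commute (x : ImgAlg O δ hNM pr hδ)
    (a : Module.End (MvPolynomial ι (MonoidAlgebra O Δ)) (parSub O δ hNM pr hδ)) :
    Commute (imgIncl O hδ x) a := by
  obtain ⟨P, rfl⟩ := Ideal.Quotient.mk_surjective x
  rw [imgIncl_mk]
  exact Algebra.commutes (R := (MvPolynomial ι (MonoidAlgebra O Δ))) P a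

end

/-- The trace, as an endomorphism of the module. -/
def endTrace (g : GQ) : Module.End (MvPolynomial ι (MonoidAlgebra O Δ)) (parSub O δ hNM pr hδ) :=
  parAlgHom (traceFun (galParAlg (hNM := hNM) (pr := pr) p O hδ hneg)
    (detParAlg p O hδ) g)

variable {hδ hneg}

theorem endTrace_eq (g : GQ) : endTrace (hNM := hNM) (pr := pr) p O hδ hneg g =
    parAlgHom (galParAlg p O hδ hneg g) + algebraMap (MvPolynomial ι (MonoidAlgebra O Δ))
      (Module.End (MvPolynomial ι (MonoidAlgebra O Δ)) (parSub O δ hNM pr hδ))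
      (C (detChar p O δ g)) * parAlgHom (galParAlg p O hδ hneg g⁻¹) := by
  simp only [endTrace, traceFun, map_add, map_mul, parAlgHom_detParAlg]

variable [IsNoetherianRing O] [IsLocalRing O] (hpO : (p : O) ∈ IsLocalRing.maximalIdeal O)
variable (S : Finset ℕ) (hgood : ∀ q : ℕ, q.Prime → q ∉ S → ∃ i : ι, ((pr i).1.1 : ℕ) = q)

include hgood hpO in
theorem exists_endTrace_eq (g : GQ) : ∃ x : ImgAlg O δ hNM pr hδ,
    imgIncl O hδ x = endTrace p O hδ hneg g := by
  obtain ⟨P, hP⟩ := traceFun_mem_goodAlg (hNM := hNM) (pr := pr) p O hδ hneg Set.univ hpO S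
    (fun q hq hqS => (hgood q hq hqS).imp fun i hi => ⟨trivial, hi⟩) g
  exact ⟨Ideal.Quotient.mk _ (rename Subtype.val P), (imgIncl_mk O hδ _).trans hP.symm⟩

variable (hδ hneg) in
include hpO hgood in
/-- The trace and determinant with values in the Hecke algebra. -/
def parTraceDet : RT.TraceDet GQ (ImgAlg O δ hNM pr hδ) :=
  traceDetOf (T := ImgAlg O δ hNM pr hδ)
    (A₀ := Module.End (MvPolynomial ι (MonoidAlgebra O Δ)) (parSub O δ hNM pr hδ))
    (ρ := (parAlgHom (hδ := hδ)).toMonoidHom.comp (galParAlg p O hδ hneg))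
    (dT := (Ideal.Quotient.mk _).toMonoidHom.comp
      ((C : MonoidAlgebra O Δ →+* (MvPolynomial ι (MonoidAlgebra O Δ))).toMonoidHom.comp
        (detChar p O δ)))
    (imgIncl O hδ) (imgIncl_injective O hδ)
    (fun _ a => imgIncl_commute O hδ _ a) (fun x _ => imgIncl_commute O hδ x _)
    (fun g => (exists_endTrace_eq p O
      (hδ := hδ) (hNM := hNM) (pr := pr) (hneg := hneg) hpO S hgood g).choose)
    fun g => (exists_endTrace_eq p O
      (hδ := hδ) (hNM := hNM) (pr := pr) (hneg := hneg) hpO S hgood g).choose_spec.trans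
      ((endTrace_eq p O g).trans rfl)

theorem imgIncl_parTraceDet (g : GQ) :
    imgIncl O hδ ((parTraceDet p O hδ hneg hpO S hgood).t g) =
      endTrace (hNM := hNM) p O hδ hneg g :=
  (exists_endTrace_eq p O
    (hδ := hδ) (hNM := hNM) (pr := pr) (hneg := hneg) hpO S hgood g).choose_spec

theorem parTraceDet_frobenius (i : ι) (hiM : ¬ ((pr i).1.1 : ℕ) ∣ M) (hip : (pr i).1.1 ≠ p)
    {A : ValuationSubring (AlgebraicClosure ℚ)} (hA : A.LiesOverPrime (pr i).1.1) {σ : GQ}
    (hσ : A.IsFrobeniusAt σ (pr i).1.1) :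
    (parTraceDet (hNM := hNM) p O hδ hneg hpO S hgood).t σ = Ideal.Quotient.mk _
      (MvPolynomial.X i : MvPolynomial ι (MonoidAlgebra O Δ)) := by
  refine imgIncl_injective O hδ ?_
  rw [imgIncl_parTraceDet p O hpO S hgood σ, imgIncl_mk]
  exact parAlgHom_traceFun_frobenius p O hδ hneg hiM hip hA hσ

theorem parTraceDet_conj :
    (parTraceDet (hNM := hNM) p O hδ hneg hpO S hgood).t complexConjugation = 0 := by
  refine imgIncl_injective O hδ ?_
  refine (imgIncl_parTraceDet p O hpO S hgood complexConjugation).trans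
    (Eq.trans ?_ (map_zero (imgIncl O hδ)).symm)
  rw [endTrace_eq, complexConjugation_inv]
  refine end_add_neg_one_mul (R := MvPolynomial ι (MonoidAlgebra O Δ))
    (V := parSub O δ hNM pr hδ) _ ?_
  rw [detChar_complexConjugation p O hneg]
  exact (map_neg (C : MonoidAlgebra O Δ →+* MvPolynomial ι (MonoidAlgebra O Δ)) 1).trans
    (congrArg Neg.neg (map_one (C : MonoidAlgebra O Δ →+* MvPolynomial ι (MonoidAlgebra O Δ))))

theorem parTraceDet_inertia {q : ℕ} (hq : q.Prime) (hqM : ¬ q ∣ M) (hqN : ¬ q ∣ N) (hqp : q ≠ p)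
    {A : ValuationSubring (AlgebraicClosure ℚ)} (hA : A.LiesOverPrime q) {τ : GQ}
    (hτ : τ ∈ A.inertiaSubgroupIn ℚ) (g : GQ) :
    (parTraceDet (hNM := hNM) p O hδ hneg hpO S hgood).t (g * τ) =
      (parTraceDet (hNM := hNM) p O hδ hneg hpO S hgood).t g := by
  have hgal : galParAlg (hNM := hNM) (pr := pr) p O hδ hneg τ = 1 := Subtype.ext (by
    show extPar _ ℤ_[p] O (galParLin p hneg τ) = _
    rw [galParLin_inertia p _ hq hqM hqp hA hτ, map_one]; rfl)
  have hgal' : galParAlg (hNM := hNM) (pr := pr) p O hδ hneg τ⁻¹ = 1 := by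
    refine Subtype.ext ?_
    show extPar _ ℤ_[p] O (galParLin p hneg τ⁻¹) = _
    rw [galParLin_inertia p _ hq hqM hqp hA (inv_mem hτ), map_one]; rfl
  have hD : detParAlg (hNM := hNM) (pr := pr) p O hδ (g * τ) = detParAlg p O hδ g := by
    have h1 : cycloN N τ = 1 := cycloN_eq fun t ht => by
      rw [Mazur.inertia_fixes_rootsOfUnity hq hA hqN (NeZero.ne N) hτ ht, Units.val_one,
        ZMod.val_one_eq_one_mod, ← pow_eq_pow_mod _ ht, pow_one]
    refine Subtype.ext ?_
    show algebraMap ℤ_[p] O (ES.padCyclo p (g * τ)) •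
        (conjParLin (classRep hδ (δ (cycloN N (g * τ)))) :
          Module.End O (parabolicHoms O (gammaH δ hNM) O)) =
      algebraMap ℤ_[p] O (ES.padCyclo p g) • conjParLin (classRep hδ (δ (cycloN N g)))
    rw [map_mul (cycloN N), h1, mul_one, map_mul (ES.padCyclo p),
      ES.padCyclo_inertia p hq hqp hA hτ, mul_one]
  refine imgIncl_injective O hδ ((imgIncl_parTraceDet p O hpO S hgood (g * τ)).trans
    (Eq.trans ?_ (imgIncl_parTraceDet p O hpO S hgood g).symm))
  refine congrArg parAlgHom ?_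
  exact traceFun_congr _ _ g hgal hgal' hD

variable {k : Type} [Field k]

omit [NeZero N] [IsLocalRing O] hp [Algebra ℤ_[p] O] [IsNoetherianRing O] in
/-- A map killing the annihilator kills what is divisible by `p`. -/
theorem eq_zero_of_divisible [CharP k p] (K : (MvPolynomial ι (MonoidAlgebra O Δ)) →+* k)
    (hK : RingHom.ker (algebraMap (MvPolynomial ι (MonoidAlgebra O Δ))
      (Module.End (MvPolynomial ι (MonoidAlgebra O Δ)) (parSub O δ hNM pr hδ))) ≤ RingHom.ker K)
    (P : (MvPolynomial ι (MonoidAlgebra O Δ)))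
    (f : parAlg O δ hNM pr hδ)
    (h : algebraMap (MvPolynomial ι (MonoidAlgebra O Δ))
      (Module.End (MvPolynomial ι (MonoidAlgebra O Δ)) (parSub O δ hNM pr hδ)) P =
      parAlgHom ((p : O) • f)) : K P = 0 := by
  have : Module.Finite O (parabolicHoms O (gammaH δ hNM) O) :=
    Module.Finite.equiv (Period.parabolicCoords (gammaH δ hNM) O O).symm
  set x : Module.End O (parabolicHoms O (gammaH δ hNM) O) :=
    (((p : O) • f : parAlg O δ hNM pr hδ) :
      Module.End O (parabolicHoms O (gammaH δ hNM) O))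
  have hrange : LinearMap.range x ≤ Ideal.span {(p : O)} • (⊤ : Submodule O _) := by
    rintro _ ⟨φ, rfl⟩
    exact Submodule.smul_mem_smul (Ideal.mem_span_singleton_self _) Submodule.mem_top
  obtain ⟨q, hq, -, hqc, hq0⟩ :=
    LinearMap.exists_monic_and_natDegree_eq_and_coeff_mem_pow_and_aeval_eq_zero (R := O)
      (f := x) (I := Ideal.span {(p : O)}) (hI := hrange)
  let c : O →+* (MvPolynomial ι (MonoidAlgebra O Δ)) := (C).comp MonoidAlgebra.singleOneRingHom
  have hc : ∀ a, algebraMap (MvPolynomial ι (MonoidAlgebra O Δ))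
      (Module.End (MvPolynomial ι (MonoidAlgebra O Δ)) (parSub O δ hNM pr hδ)) (c a) =
      parAlgHom (algebraMap O (parAlg O δ hNM pr hδ) a) := fun a =>
    (parAlgHom_eq fun z => by
      rw [Module.algebraMap_end_apply, Submodule.coe_smul, Subalgebra.coe_algebraMap,
        Module.algebraMap_end_apply, Submodule.coe_smul]
      rw [show c a = C (MonoidAlgebra.single (1 : Δ) a) from rfl, C_smul_eq,
        shapiroHecke_scalar]).symm
  have h1 : algebraMap (MvPolynomial ι (MonoidAlgebra O Δ))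
      (Module.End (MvPolynomial ι (MonoidAlgebra O Δ)) (parSub O δ hNM pr hδ))
      (q.eval₂ c P) = 0 := by
    rw [Polynomial.hom_eval₂, show (algebraMap (MvPolynomial ι (MonoidAlgebra O Δ))
      (Module.End (MvPolynomial ι (MonoidAlgebra O Δ)) (parSub O δ hNM pr hδ))).comp c =
      (parAlgHom (hδ := hδ)).comp (algebraMap O (parAlg O δ hNM pr hδ)) from
        RingHom.ext hc, h, ← Polynomial.hom_eval₂]
    have h0 : q.eval₂ (algebraMap O (parAlg O δ hNM pr hδ)) ((p : O) • f) = 0 := by
      refine Subtype.ext ?_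
      rw [← Polynomial.aeval_def, ← Subalgebra.coe_val, ← Polynomial.aeval_algHom_apply]
      exact hq0
    rw [h0, map_zero]
  have h2 := hK ((RingHom.mem_ker).mpr h1)
  rw [RingHom.mem_ker, Polynomial.hom_eval₂, ← Polynomial.eval_map] at h2
  have hmap : q.map (K.comp c) = Polynomial.X ^ q.natDegree := by
    ext i
    rw [Polynomial.coeff_map, Polynomial.coeff_X_pow]
    rcases lt_trichotomy i q.natDegree with h | rfl | h
    · rw [if_neg h.ne]
      obtain ⟨a, ha⟩ := Ideal.mem_span_singleton.mp (Ideal.pow_le_self (by omega) (hqc i))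
      rw [ha, map_mul, map_natCast, CharP.cast_eq_zero, zero_mul]
    · rw [if_pos rfl, hq.coeff_natDegree, map_one]
    · rw [if_neg h.ne', Polynomial.coeff_eq_zero_of_natDegree_lt h, map_zero]
  rw [hmap, Polynomial.eval_pow, Polynomial.eval_X] at h2
  exact eq_zero_of_pow_eq_zero h2

variable (K : MvPolynomial ι (MonoidAlgebra O Δ) →+* k)
  (hK : RingHom.ker (algebraMap (MvPolynomial ι (MonoidAlgebra O Δ))
    (Module.End (MvPolynomial ι (MonoidAlgebra O Δ)) (parSub O δ hNM pr hδ))) ≤ RingHom.ker K)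

variable (hneg) in
/-- The residual trace and determinant. -/
def modTraceDet : RT.TraceDet GQ k :=
  (parTraceDet p O hδ hneg hpO S hgood).push (Ideal.Quotient.lift _ K fun _ ha => hK ha)

/-- At a Frobenius of the `i`-th prime the residual trace is the image of the `i`-th Hecke
operator. -/
theorem modTraceDet_frobenius (i : ι) (hiM : ¬ ((pr i).1.1 : ℕ) ∣ M) (hip : (pr i).1.1 ≠ p)
    {A : ValuationSubring (AlgebraicClosure ℚ)} (hA : A.LiesOverPrime (pr i).1.1) {σ : GQ}
    (hσ : A.IsFrobeniusAt σ (pr i).1.1) :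
    (modTraceDet (hNM := hNM) p O hneg hpO S hgood K hK).t σ = K (MvPolynomial.X i) :=
  congrArg _ (parTraceDet_frobenius p O hpO S hgood i hiM hip hA hσ)

/-- The residual determinant is the image of the determinant character. -/
theorem modTraceDet_det (g : GQ) :
    (modTraceDet (hNM := hNM) p O hneg hpO S hgood K hK).d g = K (C (detChar p O δ g)) := rfl

/-- The residual trace of complex conjugation is zero. -/
theorem modTraceDet_conj :
    (modTraceDet (hNM := hNM) p O hneg hpO S hgood K hK).t complexConjugation = 0 :=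
  (congrArg _ (parTraceDet_conj p O hpO S hgood)).trans (map_zero _)

/-- Inertia at a prime outside the level and different from `p` does not change the residual
trace. -/
theorem modTraceDet_inertia {q : ℕ} (hq : q.Prime) (hqM : ¬ q ∣ M) (hqN : ¬ q ∣ N) (hqp : q ≠ p)
    {A : ValuationSubring (AlgebraicClosure ℚ)} (hA : A.LiesOverPrime q) {τ : GQ}
    (hτ : τ ∈ A.inertiaSubgroupIn ℚ) (g : GQ) :
    (modTraceDet (hNM := hNM) p O hneg hpO S hgood K hK).t (g * τ) =
      (modTraceDet (hNM := hNM) p O hneg hpO S hgood K hK).t g :=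
  congrArg (Ideal.Quotient.lift _ K fun _ ha => hK ha)
    (parTraceDet_inertia p O hpO S hgood hq hqM hqN hqp hA hτ g)

/-- The residual trace is of finite level. -/
theorem exists_level_modTraceDet [CharP k p] :
    ∃ L : IntermediateField ℚ (AlgebraicClosure ℚ), FiniteDimensional ℚ L ∧
      ∀ τ : GQ, (∀ x ∈ L, τ x = x) → ∀ g,
        (modTraceDet (hNM := hNM) p O hneg hpO S hgood K hK).t (g * τ) =
          (modTraceDet (hNM := hNM) p O hneg hpO S hgood K hK).t g := by
  obtain ⟨L, hL, hc⟩ := exists_congr_one (hNM := hNM) (pr := pr) p O hδ hneg 1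
  refine ⟨L, hL, fun τ hτ g => ?_⟩
  have hmem : τ ∈ L.fixingSubgroup := (IntermediateField.mem_fixingSubgroup_iff _ _).mpr hτ
  obtain ⟨⟨f1, hf1⟩, f2, hf2⟩ := hc τ hmem
  obtain ⟨⟨f3, hf3⟩, -⟩ := hc τ⁻¹ (inv_mem hmem)
  refine lift_eq_of_kills K _ fun x hx => ?_
  refine eq_zero_of_divisible p O K hK x
    (galParAlg (hNM := hNM) (pr := pr) p O hδ hneg g * f1 +
      detParAlg p O hδ g * f2 * galParAlg p O hδ hneg (g * τ)⁻¹ +
      detParAlg p O hδ g * (f3 * galParAlg p O hδ hneg g⁻¹)) ?_
  exact (imgIncl_mk O hδ x).symm.trans ((congrArg (imgIncl O hδ) hx).trans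
    (map_sub_transfer (imgIncl O hδ) parAlgHom (imgIncl_parTraceDet p O hpO S hgood (g * τ))
      (imgIncl_parTraceDet p O hpO S hgood g)
      ((traceFun_sub_eq _ _ g hf1 hf2 hf3).trans
        (congrArg (· • _) (pow_one (p : O))))))

end FermatAgent.DS
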