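import Fermat.Agent.DS.RepOfTrace
import Fermat.Agent.DS.Occurs
import Fermat.Agent.DS.ParRep

/-!
# The representation attached to a character of the `p`-adic Hecke module of `±Γ₁(M)`
-/

set_option autoImplicit false
set_option maxSynthPendingDepth 4

noncomputable section

open CongruenceSubgroup ModularCurve.Period MvPolynomial
open scoped MatrixGroups

namespace FermatAgent.DS

open FermatAgent.HM

variable {M : ℕ} [NeZero M] (p : ℕ) [hp : Fact p.Prime] {k : Type} [Field k] [CharP k p]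

theorem natCast_mem_maximalIdeal_padicInt : (p : ℤ_[p]) ∈ IsLocalRing.maximalIdeal ℤ_[p] := by
  rw [IsLocalRing.mem_maximalIdeal]; exact PadicInt.p_nonunit

theorem exists_goodPrime (q : ℕ) (hq : q.Prime) (hqS : q ∉ M.primeFactors) :
    ∃ i : GoodPrime M, ((primeIdx M i).1.1 : ℕ) = q :=
  ⟨⟨⟨q, hq⟩, fun hd => hqS (Nat.mem_primeFactors.mpr ⟨hq, hd, NeZero.ne M⟩)⟩, rfl⟩

variable (K : MvPolynomial (GoodPrime M) (MonoidAlgebra ℤ_[p] (SignQuot M)) →+* k)
  (hK : RingHom.ker (algebraMap (MvPolynomial (GoodPrime M) (MonoidAlgebra ℤ_[p] (SignQuot M)))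
    (Module.End (MvPolynomial (GoodPrime M) (MonoidAlgebra ℤ_[p] (SignQuot M)))
      (parSub ℤ_[p] (signQ M) (dvd_refl M) (primeIdx M) (signQ_surjective M)))) ≤ RingHom.ker K)

include hK in
/-- **The representation attached to a character of the Hecke module**: it is of finite level,
unramified at good primes other than `p`, with trace and determinant of Frobenius given by the
character. -/
theorem exists_rep (h20 : (2 : k) ≠ 0) :
    ∃ ρ : GQ →* GL (Fin 2) k, GaloisFactorsThroughFiniteLevel ρ ∧ IsSplitOrIrreducible ρ ∧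
      ∀ q : GoodPrime M, (q.1 : ℕ) ≠ p →
        ∀ A : ValuationSubring (AlgebraicClosure ℚ), A.LiesOverPrime (q.1 : ℕ) →
          (∀ σ ∈ A.inertiaSubgroupIn ℚ, ρ σ = 1) ∧ ∀ σ : GQ, A.IsFrobeniusAt σ (q.1 : ℕ) →
            ((ρ σ : GL (Fin 2) k) : Matrix (Fin 2) (Fin 2) k).trace = K (MvPolynomial.X q) ∧
            ((ρ σ : GL (Fin 2) k) : Matrix (Fin 2) (Fin 2) k).det =
              K (C (MonoidAlgebra.single (signQ M (primeUnit q)) ((q.1 : ℕ) : ℤ_[p]))) := by
  obtain ⟨L, hL, hlev⟩ := exists_level_modTraceDet (hNM := dvd_refl M) (pr := primeIdx M)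
    (hδ := signQ_surjective M) (hneg := signQ_neg_one M) p ℤ_[p]
    (natCast_mem_maximalIdeal_padicInt p) M.primeFactors exists_goodPrime K hK
  obtain ⟨ρ, hρ, hsplit, hker, hval⟩ := exists_rep_of_traceDet _ h20 complexConjugation_mul_self
    (modTraceDet_conj (hNM := dvd_refl M) (pr := primeIdx M) (hδ := signQ_surjective M)
      (hneg := signQ_neg_one M) p ℤ_[p] (natCast_mem_maximalIdeal_padicInt p) M.primeFactors
      exists_goodPrime K hK) hL hlev
  refine ⟨ρ, hρ, hsplit, fun q hqp A hA => ⟨fun σ hσ => hker σ fun g => ?_, fun σ hσ => ⟨?_, ?_⟩⟩⟩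
  · exact modTraceDet_inertia p ℤ_[p] _ _ _ K hK q.1.2 q.2 q.2 hqp hA hσ g
  · exact (hval σ).1.trans (modTraceDet_frobenius p ℤ_[p] _ _ _ K hK q q.2 hqp hA hσ)
  · refine (hval σ).2.trans ((modTraceDet_det p ℤ_[p] _ _ _ K hK σ).trans ?_)
    show K (C (MonoidAlgebra.single (signQ M (cycloN M σ))
      (algebraMap ℤ_[p] ℤ_[p] (ES.padCyclo p σ)))) = _
    rw [cycloN_frobenius q.1.2 q.2 hA hσ, ES.padCyclo_frobenius p q.1.2 hqp hA hσ, map_natCast]
    rfl

end FermatAgent.DS
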