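import Fermat.Agent.DS.ModForm
import Fermat.Agent.DS.ResRep

/-!
# The representations modulo `l` of a weight one eigenform

For a weight one eigenform `f` of level `N` with character `ε` and a valuation subring over a
prime `l ≥ 5`, `exists_modRep` gives a Galois representation into `GL₂` of the residue field,
hence `hasModReps`. The products of `f` with the weight one multipliers, whose series are
constant modulo `l` (`exists_multInt`), reduce after scaling to multiples of one series
(`exists_scaled`). This gives a residual system of periods in weight two with character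
`chiRes`, to which the construction `exists_rep` applies.
-/

set_option autoImplicit false
set_option maxSynthPendingDepth 4

noncomputable section

open UpperHalfPlane hiding I
open CongruenceSubgroup ModularCurve ModularCurve.Period Matrix.SpecialLinearGroup MvPolynomial
open scoped MatrixGroups ModularForm Manifold

namespace FermatAgent.DS

open FermatAgent.HM FermatAgent.LT.Mod3
open FermatAgent.ES (HasExp qm)
open IsLocalRing (residue)

/-- A root of unity lies in every valuation subring. -/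
theorem mem_of_pow_eq_one (O : ValuationSubring ℂ) {z : ℂ} {n : ℕ} (hn : 0 < n) (hz : z ^ n = 1) :
    z ∈ O :=
  (O.valuation_le_one_iff z).1 ((pow_le_one_iff hn.ne').1 (by rw [← map_pow, hz, map_one]))

variable {N : ℕ} [NeZero N] (l : ℕ) [hl : Fact l.Prime] (O : ValuationSubring ℂ)

local instance neZero_repLevel : NeZero (N * l) := ⟨mul_ne_zero (NeZero.ne N) hl.out.ne_zero⟩

/-- The values of `ε`, reduced. -/
def resChar (ε : DirichletCharacter ℂ N) : (ZMod N)ˣ →* ResF O where
  toFun u := residue O ⟨ε (u : ZMod N), mem_of_pow_eq_one O (orderOf_pos u) (by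
    rw [← map_pow, ← Units.val_pow_eq_pow_val, pow_orderOf_eq_one, Units.val_one, map_one])⟩
  map_one' := (congrArg (residue O) (Subtype.ext (by simp))).trans (map_one _)
  map_mul' u v := (congrArg (residue O) (Subtype.ext (by simp))).trans (map_mul _ _ _)

variable [CharP (ResF O) l]

/-- The character of the weight two congruence. -/
def chiRes (ε : DirichletCharacter ℂ N) : (ZMod (N * l))ˣ →* ResF O :=
  ((resChar O ε).comp (toLeft N l)) *
    (((ZMod.castHom (dvd_refl l) (ResF O)).toMonoidHom.comp (Units.coeHom _)).comp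
      (invMonoidHom.comp (toRight N l)))

omit [NeZero N] in
theorem chiRes_apply (ε : DirichletCharacter ℂ N) (u : (ZMod (N * l))ˣ) :
    chiRes l O ε u = resChar O ε (toLeft N l u) *
      ZMod.castHom (dvd_refl l) (ResF O) (((toRight N l u)⁻¹ : (ZMod l)ˣ) : ZMod l) := rfl

/-- The reduced inverse of a unit. -/
theorem castHom_inv_eq (u : (ZMod l)ˣ) :
    ZMod.castHom (dvd_refl l) (ResF O) ((u⁻¹ : (ZMod l)ˣ) : ZMod l) =
      (((u : ZMod l).val : ResF O))⁻¹ := by
  have h : ((u : ZMod l).val : ResF O) = ZMod.castHom (dvd_refl l) (ResF O) (u : ZMod l) := by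
    rw [ZMod.castHom_apply, ZMod.cast_eq_val]
  rw [h, Units.val_inv_eq_inv_val, map_inv₀]

variable {ε : DirichletCharacter ℂ N} {f : CuspForm (Gamma1 N) 1}

theorem qCoeff_hasExp (f : CuspForm (Gamma1 N) 1) : ∃ c : PowerSeries ℂ,
    HasExp 1 (f : ℍ → ℂ) c ∧ ∀ n, PowerSeries.coeff n c = ModularFormClass.qCoeff f n := by
  refine ⟨qExpansion ((1 : ℕ) : ℝ) f, HasExp.exists_of_bounded ?_ (CuspFormClass.holo f) ?_,
    fun n => by simp [ModularFormClass.qCoeff]⟩
  · have := periodic_slash (f := f) (one_mem (Gamma0 N))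
    rw [SlashAction.slash_one] at this
    rwa [Nat.cast_one]
  · have := (CuspFormClass.zero_at_infty_slash f 1).boundedAtFilter
    rwa [SlashAction.slash_one] at this

variable (h5 : 5 ≤ l) (hO : (l : O) ∈ IsLocalRing.maximalIdeal O)

include h5 hO in
omit [CharP (ResF O) l] in
/-- The integral series of a multiplier. -/
theorem exists_multInt (k : (ZMod l)ˣ) : ∃ E : PowerSeries O,
    PowerSeries.map O.subtype E = multSeries l k ∧ PowerSeries.map (residue O) E =
      PowerSeries.C ((8 / 3 : ResF O) * (((k : ZMod l).val : ResF O))⁻¹) := by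
  choose hm hr using multSeries_residue (l := l) h5 k O hO
  refine ⟨PowerSeries.mk fun e => ⟨_, hm e⟩, ?_, ?_⟩
  · ext e; rw [PowerSeries.coeff_map, PowerSeries.coeff_mk]; rfl
  · ext e; rw [PowerSeries.coeff_map, PowerSeries.coeff_mk, hr, PowerSeries.coeff_C]

include h5 hO in
omit [CharP (ResF O) l] in
/-- **The eigenform and its products reduce to one series.** -/
theorem exists_scaled (h : IsEigenOne N ε f) : ∃ (c : ℂ) (b : ℕ → O),
    (∀ n, (b n : ℂ) = c * ModularFormClass.qCoeff f n) ∧ (∃ n, residue O (b n) ≠ 0) ∧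
    ∀ k : (ZMod l)ˣ, ∀ m, ∃ hm : formCoeff m (c • modForm l h5 f k) ∈ O,
      residue O ⟨_, hm⟩ = (((k : ZMod l).val : ResF O))⁻¹ *
        (if N * l ∣ m then (8 / 3 : ResF O) * residue O (b (m / (N * l))) else 0) := by
  obtain ⟨cf, hcf, hcoef⟩ := qCoeff_hasExp f
  choose E hE hEr using exists_multInt l O h5 hO
  have hM : N * l ≠ 0 := NeZero.ne _
  set S : (ZMod l)ˣ → PowerSeries ℂ := fun k =>
    cf.expand (N * l) hM * (multSeries l k).expand N (NeZero.ne N)
  have hS : ∀ k m, formCoeff m (modForm l h5 f k) = PowerSeries.coeff m (S k) := fun k m => by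
    refine formCoeff_unique _ (c := fun i => PowerSeries.coeff i (S k)) (fun τ => ?_) m
    have h1 : HasExp (N * l) (f : ℍ → ℂ) (cf.expand (N * l) hM) := fun τ => by
      have := hasExp_expand (d := N * l) hcf τ
      simpa only [one_mul] using this
    have h2 : HasExp (N * l) (multForm l k) ((multSeries l k).expand N (NeZero.ne N)) := fun τ => by
      have := hasExp_expand (d := N) (hasExp_multForm h5 k) τ
      simpa only [mul_comm l N] using this
    exact (h1.mul h2) τ
  have hne : ∃ k, modForm l h5 f k ≠ 0 := ⟨1, fun e => by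
    have hf : (f : ℍ → ℂ) = 0 := funext fun τ => by
      have := congrFun (congrArg DFunLike.coe e) τ
      rw [coe_modForm, Pi.mul_apply, FunLike.coe_zero, Pi.zero_apply] at this
      exact (mul_eq_zero.mp this).resolve_right (multForm_ne_zero h5 1 τ)
    have h1 := h.1
    simp [ModularFormClass.qCoeff, hf, UpperHalfPlane.qExpansion_zero] at h1⟩
  obtain ⟨k₀, n₀, hc0, hint⟩ := exists_max_coeff O (fun k => modForm l h5 f k) hne
  set c := (formCoeff n₀ (modForm l h5 f k₀))⁻¹
  -- the stretched integral multiplier and its inverse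
  have hu : IsUnit ((E 1).expand N (NeZero.ne N)) := by
    rw [PowerSeries.isUnit_iff_constantCoeff, ← IsLocalRing.residue_ne_zero_iff_isUnit,
      ← PowerSeries.coeff_zero_eq_constantCoeff_apply, ← PowerSeries.coeff_map,
      PowerSeries.map_expand, hEr, PowerSeries.expand_C, PowerSeries.coeff_C, if_pos rfl]
    refine mul_ne_zero (residue_const_ne_zero h5 hO) (inv_ne_zero ?_)
    simp [ZMod.val_one]
  obtain ⟨Einv, hEinv⟩ := hu.exists_right_inv
  let G₁ : PowerSeries O := PowerSeries.mk fun m => ⟨_, hint 1 m⟩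
  have hG₁ : PowerSeries.map O.subtype (G₁ * Einv) = PowerSeries.C c * cf.expand (N * l) hM := by
    have e1 : PowerSeries.map O.subtype G₁ = PowerSeries.C c * S 1 := by
      ext m
      rw [PowerSeries.coeff_map, PowerSeries.coeff_mk, PowerSeries.coeff_C_mul, ← hS]
      exact (inv_mul_eq_div _ _).symm
    rw [map_mul, e1, mul_assoc]
    congr 1
    have e2 := congrArg (PowerSeries.map O.subtype) hEinv
    rw [map_mul, PowerSeries.map_expand, hE, map_one] at e2
    rw [show S 1 = _ from rfl, mul_assoc, e2, mul_one]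
  have hb : ∀ n, c * ModularFormClass.qCoeff f n ∈ O := fun n => by
    have e := congrArg (PowerSeries.coeff (N * l * n)) hG₁
    rw [PowerSeries.coeff_map, PowerSeries.coeff_C_mul, PowerSeries.coeff_expand_mul, hcoef] at e
    exact e ▸ SetLike.coe_mem _
  set B : PowerSeries O := PowerSeries.mk fun n => ⟨_, hb n⟩ with hB
  have hBmap : PowerSeries.map O.subtype B = PowerSeries.C c * cf := by
    ext n
    rw [PowerSeries.coeff_map, PowerSeries.coeff_mk, PowerSeries.coeff_C_mul, hcoef]
    rfl
  have key : ∀ k m, ∃ hm : formCoeff m (c • modForm l h5 f k) ∈ O,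
      residue O ⟨_, hm⟩ = (((k : ZMod l).val : ResF O))⁻¹ *
        (if N * l ∣ m then
          (8 / 3 : ResF O) * residue O (⟨_, hb (m / (N * l))⟩ : O) else 0) := fun k m => by
    set T : PowerSeries O := B.expand (N * l) hM * (E k).expand N (NeZero.ne N)
    have hT : ((PowerSeries.coeff m T : O) : ℂ) = formCoeff m (c • modForm l h5 f k) := by
      have e : PowerSeries.map O.subtype T = PowerSeries.C c * S k := by
        rw [show T = _ from rfl, map_mul (PowerSeries.map O.subtype), PowerSeries.map_expand,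
          PowerSeries.map_expand, hE, hBmap, map_mul (PowerSeries.expand (N * l) hM),
          PowerSeries.expand_C, mul_assoc]
      rw [map_smul, smul_eq_mul, hS, ← PowerSeries.coeff_C_mul, ← e, PowerSeries.coeff_map]
      rfl
    refine ⟨hT ▸ SetLike.coe_mem _, ?_⟩
    rw [show (⟨_, _⟩ : O) = PowerSeries.coeff m T from Subtype.ext hT.symm,
      ← PowerSeries.coeff_map, map_mul (PowerSeries.map (residue O)), PowerSeries.map_expand,
      PowerSeries.map_expand, hEr,
      PowerSeries.expand_C, PowerSeries.coeff_mul_C]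
    split_ifs with hd
    · obtain ⟨n, rfl⟩ := hd
      rw [PowerSeries.coeff_expand_mul, PowerSeries.coeff_map, hB, PowerSeries.coeff_mk,
        Nat.mul_div_cancel_left _ (Nat.pos_of_ne_zero hM)]
      ring
    · rw [PowerSeries.coeff_expand_of_not_dvd _ _ _ hd]
      ring
  refine ⟨c, fun n => ⟨_, hb n⟩, fun n => rfl, ?_, key⟩
  by_contra hall
  push Not at hall
  obtain ⟨hm, he⟩ := key k₀ n₀
  have h1 : (⟨_, hm⟩ : O) = 1 := Subtype.ext (by
    show formCoeff n₀ (c • modForm l h5 f k₀) = _
    rw [map_smul, smul_eq_mul]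
    exact inv_mul_cancel₀ hc0)
  rw [h1, map_one, hall, mul_zero, ite_self, mul_zero] at he
  exact one_ne_zero he

omit [NeZero N] in
/-- The units of the residue field away from `l`. -/
theorem natCast_mul_chiRes (ε : DirichletCharacter ℂ N) (q : GoodPrime (N * l)) :
    ((q.1 : ℕ) : ResF O) * chiRes l O ε (primeUnit q) =
      resChar O ε (toLeft N l (primeUnit q)) := by
  rw [chiRes_apply, castHom_inv_eq]
  have hv : ((toRight N l (primeUnit q) : (ZMod l)ˣ) : ZMod l) = ((q.1 : ℕ) : ZMod l) := by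
    refine (ZMod.unitsMap_val _ _).trans ?_
    show ((((q.1 : ℕ) : ZMod (N * l))).cast : ZMod l) = _
    rw [ZMod.cast_natCast (dvd_mul_left l N)]
  have hq : ((q.1 : ℕ) : ResF O) =
      (((toRight N l (primeUnit q) : (ZMod l)ˣ) : ZMod l).val : ResF O) := by
    rw [hv, ZMod.val_natCast]
    exact CharP.natCast_eq_natCast (ResF O) l |>.mpr (Nat.mod_modEq _ _).symm
  have h0 : ((q.1 : ℕ) : ResF O) ≠ 0 := fun e => q.2
    (((Nat.prime_dvd_prime_iff_eq hl.out q.1.2).mp ((CharP.cast_eq_zero_iff _ l _).mp e)) ▸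
      dvd_mul_left l N)
  rw [← hq, mul_left_comm, mul_inv_cancel₀ h0, mul_one]

omit [NeZero N] [CharP (ResF O) l] hl in
/-- The value of `ε` at a good prime, through the unit it defines. -/
theorem apply_goodPrime (ε : DirichletCharacter ℂ N) (q : GoodPrime (N * l)) :
    ε ((q.1 : ℕ) : ZMod N) = ε ((toLeft N l (primeUnit q) : (ZMod N)ˣ) : ZMod N) := by
  congr 1
  refine ((ZMod.unitsMap_val _ _).trans ?_).symm
  show ((((q.1 : ℕ) : ZMod (N * l))).cast : ZMod N) = _
  rw [ZMod.cast_natCast (dvd_mul_right N l)]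

omit [NeZero N] hl [CharP (ResF O) l] in
/-- The values of `ε` lie in the valuation subring. -/
theorem apply_unit_mem (ε : DirichletCharacter ℂ N) (u : (ZMod N)ˣ) : ε (u : ZMod N) ∈ O :=
  mem_of_pow_eq_one O (orderOf_pos u) (by
    rw [← map_pow, ← Units.val_pow_eq_pow_val, pow_orderOf_eq_one, Units.val_one, map_one])

omit [CharP (ResF O) l] in
/-- A scalar `a` with `x + e y = a z`, `z` a unit, all others integral, is integral. -/
theorem mem_of_relation {a e : ℂ} (he : e ∈ O) (x y : O) {z : O} (hz : residue O z ≠ 0)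
    (h : (x : ℂ) + e * (y : ℂ) = a * (z : ℂ)) : a ∈ O := by
  obtain ⟨w, hw⟩ := ((IsLocalRing.residue_ne_zero_iff_isUnit _).mp hz).exists_right_inv
  have hw' : (z : ℂ) * (w : ℂ) = 1 := by exact_mod_cast congrArg (fun x : O => (x : ℂ)) hw
  have e' : a = (x : ℂ) * (w : ℂ) + e * ((y : ℂ) * (w : ℂ)) := by
    linear_combination -(w : ℂ) * h - a * hw'
  rw [e']
  exact O.add_mem _ _ (O.mul_mem _ _ x.2 w.2) (O.mul_mem _ _ he (O.mul_mem _ _ y.2 w.2))

/-- The character of the weight two congruence is even. -/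
theorem chiRes_neg_one (h : IsEigenOne N ε f) : chiRes l O ε (-1) = 1 := by
  have hL : toLeft N l (-1) = -1 := Units.ext (by simp [ZMod.unitsMap_def])
  have hR : toRight N l (-1) = -1 := Units.ext (by simp [ZMod.unitsMap_def])
  rw [chiRes_apply, hL, hR, inv_neg, inv_one, Units.val_neg, Units.val_one, map_neg, map_one]
  have : resChar O ε (-1) = -1 := (congrArg (residue O) (Subtype.ext (show
    ε ((-1 : (ZMod N)ˣ) : ZMod N) = ((-1 : O) : ℂ) by
      simp [eig_neg_one l h]))).trans (by simp)
  rw [this, neg_mul_neg, one_mul]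

include h5 hO in
/-- **The representation modulo a valuation subring over `l`.** -/
theorem exists_modRep (h : IsEigenOne N ε f) :
    ∃ ρ : GQ →* GL (Fin 2) (IsLocalRing.ResidueField O),
      IsModRep N l ε (ModularFormClass.qCoeff f) O ρ := by
  obtain ⟨c, b, hb, ⟨n₁, hn₁⟩, hred⟩ := exists_scaled l O h5 hO h
  set χ := chiRes l O ε with hχdef
  set φ : ℕ → ResF O := fun m =>
    if N * l ∣ m then (8 / 3 : ResF O) * residue O (b (m / (N * l))) else 0 with hφdef
  have hM : 0 < N * l := Nat.pos_of_ne_zero (NeZero.ne _)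
  have hφn : ∀ n, φ (N * l * n) = (8 / 3 : ResF O) * residue O (b n) := fun n => by
    simp [hφdef, Nat.mul_div_cancel_left _ hM]
  -- the eigenvalues are integral
  have hε : ∀ q : GoodPrime (N * l), ε ((q.1 : ℕ) : ZMod N) =
      ε ((toLeft N l (primeUnit q) : (ZMod N)ˣ) : ZMod N) := apply_goodPrime l ε
  have hεO : ∀ q : GoodPrime (N * l), ε ((q.1 : ℕ) : ZMod N) ∈ O := fun q =>
    hε q ▸ apply_unit_mem O ε _
  have hrel : ∀ (q : GoodPrime (N * l)) (n : ℕ), ((b ((q.1 : ℕ) * n) : O) : ℂ) +
      ε ((q.1 : ℕ) : ZMod N) * ((if (q.1 : ℕ) ∣ n then b (n / (q.1 : ℕ)) else 0 : O) : ℂ) =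
        ModularFormClass.qCoeff f (q.1 : ℕ) * (b n : ℂ) := fun q n => by
    have e := h.2 (q.1 : ℕ) q.1.2 (fun hd => q.2 (hd.trans (dvd_mul_right N l))) n
    split_ifs with hd
    · rw [if_pos hd] at e
      rw [hb, hb, hb]
      linear_combination c * e
    · rw [if_neg hd] at e
      rw [hb, hb, ZeroMemClass.coe_zero]
      linear_combination c * e
  have haO : ∀ q : GoodPrime (N * l), ModularFormClass.qCoeff f (q.1 : ℕ) ∈ O := fun q =>
    mem_of_relation O (hεO q) _ _ hn₁ (hrel q n₁)
  set aq : GoodPrime (N * l) → ResF O := fun q => residue O ⟨_, haO q⟩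
  have hres : ∀ q : GoodPrime (N * l), residue O ⟨_, hεO q⟩ =
      ((q.1 : ℕ) : ResF O) * χ (primeUnit q) := fun q => by
    rw [hχdef, natCast_mul_chiRes]
    exact congrArg (residue O) (Subtype.ext (hε q))
  -- the Hecke relations
  have heig : ∀ (q : GoodPrime (N * l)) (n : ℕ), φ ((q.1 : ℕ) * n) +
      ((q.1 : ℕ) : ResF O) * χ (primeUnit q) *
        (if (q.1 : ℕ) ∣ n then φ (n / (q.1 : ℕ)) else 0) = aq q * φ n := fun q n => by
    have hcop : Nat.Coprime (N * l) (q.1 : ℕ) := ((q.1.2.coprime_iff_not_dvd).mpr q.2).symm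
    by_cases hn : N * l ∣ n
    · obtain ⟨m, rfl⟩ := hn
      rw [mul_left_comm, hφn, hφn]
      have hiff : (q.1 : ℕ) ∣ N * l * m ↔ (q.1 : ℕ) ∣ m :=
        hcop.symm.dvd_mul_left
      have e : (⟨_, haO q⟩ : O) * b m = b ((q.1 : ℕ) * m) + (⟨_, hεO q⟩ : O) *
          (if (q.1 : ℕ) ∣ m then b (m / (q.1 : ℕ)) else 0) := Subtype.ext (by
        push_cast
        exact (hrel q m).symm)
      have e' := congrArg (residue O) e
      rw [map_add, map_mul, map_mul, apply_ite (residue O), map_zero, hres] at e'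
      by_cases hd : (q.1 : ℕ) ∣ m
      · rw [if_pos (hiff.mpr hd), Nat.mul_div_assoc _ hd, hφn]
        rw [if_pos hd] at e'
        linear_combination (-(8 / 3 : ResF O)) * e'
      · rw [if_neg fun hx => hd (hiff.mp hx)]
        rw [if_neg hd] at e'
        linear_combination (-(8 / 3 : ResF O)) * e'
    · have h1 : φ ((q.1 : ℕ) * n) = 0 := if_neg fun hx => hn (hcop.dvd_of_dvd_mul_left hx)
      have h2 : φ n = 0 := if_neg hn
      have h3 : (if (q.1 : ℕ) ∣ n then φ (n / (q.1 : ℕ)) else 0) = 0 := by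
        split_ifs with hd
        · exact if_neg fun hx => hn (hx.trans (Nat.div_dvd_of_dvd hd))
        · rfl
      rw [h1, h2, h3]
      ring
  -- the translates
  set G₀ := c • modForm l h5 f 1
  have hG₀ : IsInvForm (pmGamma (N * l)) G₀ := fun γ => by
    rw [FunLike.coe_smul, ModularForm.SL_smul_slash, isInvForm_modForm l h h5 1 γ]
  have h₀ : IsEigPer O φ χ (invPeriod hG₀) 1 := fun g => by
    refine ⟨slashForm (g : SL(2, ℤ)) G₀, isInvForm_slashForm hG₀ g, invPeriod_slashForm_eq hG₀ g,
      fun m => ?_⟩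
    have e : slashForm (g : SL(2, ℤ)) G₀ = ε (toLeft N l (lrUnit g) : ZMod N) •
        (c • modForm l h5 f (toRight N l (lrUnit g))) := by
      refine DFunLike.coe_injective ?_
      have e1 := congrArg DFunLike.coe (modForm_slash l h h5 1 g)
      rw [coe_slashForm, FunLike.coe_smul, one_mul] at e1
      rw [coe_slashForm, FunLike.coe_smul, ModularForm.SL_smul_slash, e1, FunLike.coe_smul,
        FunLike.coe_smul, smul_comm]
    obtain ⟨hm, he⟩ := hred (toRight N l (lrUnit g)) m
    set u := toLeft N l (lrUnit g)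
    have hu : ε (u : ZMod N) ∈ O := apply_unit_mem O ε u
    have hv : formCoeff m (slashForm (g : SL(2, ℤ)) G₀) =
        (((⟨_, hu⟩ : O) * ⟨_, hm⟩ : O) : ℂ) := by
      rw [e, map_smul]; rfl
    refine ⟨hv ▸ SetLike.coe_mem _, ?_⟩
    rw [show (⟨_, _⟩ : O) = (⟨_, hu⟩ : O) * ⟨_, hm⟩ from Subtype.ext hv, map_mul, he, mul_one,
      hχdef, chiRes_apply, castHom_inv_eq]
    show resChar O ε u * _ = _
    ring
  have h1χ : χ (-1) = 1 := chiRes_neg_one l O h
  -- the representation
  have h20 : (2 : ResF O) ≠ 0 := fun e => by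
    have := Nat.le_of_dvd two_pos ((CharP.cast_eq_zero_iff (ResF O) l 2).mp (by exact_mod_cast e))
    omega
  have hφ : ∃ n, φ n ≠ 0 := ⟨N * l * n₁, by
    rw [hφn]; exact mul_ne_zero (residue_const_ne_zero h5 hO) hn₁⟩
  obtain ⟨ρ, hρ, hsplit, hρq⟩ := exists_rep l (polyK l h1χ aq) (fun P hP =>
    polyK_eq_zero_of_annihilates l heig h1χ h₀ hφ P fun z =>
      (LinearMap.congr_fun (RingHom.mem_ker.mp hP) z)) h20
  refine ⟨ρ, hρ, hsplit, fun p hp hpN A hA => ?_⟩
  obtain ⟨hI, hF⟩ := hρq ⟨⟨p, hp⟩, hpN⟩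
    (fun e => hpN (dvd_mul_of_dvd_right (e ▸ dvd_refl l) N)) A hA
  refine ⟨hI, fun σ hσ => ?_⟩
  obtain ⟨htr, hdet⟩ := hF σ hσ
  refine ⟨haO ⟨⟨p, hp⟩, hpN⟩, hεO ⟨⟨p, hp⟩, hpN⟩, htr.trans ?_, hdet.trans ?_⟩
  · simp [polyK, aq]
  · rw [polyK_C_single, map_natCast, map_natCast, ← hres]

/-- **Representations modulo every large prime**: a weight one eigenform has, modulo every
valuation subring over a prime `ℓ ≥ 5` not dividing `N`, a two-dimensional Galois representation. -/
theorem hasModReps {N : ℕ} [NeZero N] {ε : DirichletCharacter ℂ N} {f : CuspForm (Gamma1 N) 1}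
    (h : IsEigenOne N ε f) : HasModReps N ε (ModularFormClass.qCoeff f) := fun l hl h5 _ O hO => by
  have : Fact l.Prime := ⟨hl⟩
  have := charP_residueField (l := l) hO
  exact exists_modRep l O h5 hO h

end FermatAgent.DS
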