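import Mathlib
import Fermat.Agent.DS.GroupLift
import Fermat.Agent.DS.ArtinBound
import Fermat.Agent.DS.Field
import Fermat.Agent.DS.ModRep
import Fermat.Agent.GaloisBasic.CharpolyDensity

/-!
# The Artin representation of a weight one system

Residual representations with bounded image lift to `GL₂(ℂ)`; two of them give a representation
unramified outside `N`, irreducible by the sharp Rankin bound.
-/

set_option autoImplicit false

noncomputable section

open IsLocalRing Finset Polynomial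

namespace FermatAgent.DS

open FermatAgent.GaloisBasic (trace_pow_eq_of_eq exists_frobenius_pow_congr exists_liesOverPrime
  exists_isFrobeniusAt)

/-- The traces of matrices of order dividing `n`. -/
def traceSet (n : ℕ) : Finset ℂ :=
  ((nthRootsFinset n (1 : ℂ)) ×ˢ (nthRootsFinset n (1 : ℂ))).image fun x => x.1 + x.2

/-- The determinants of matrices of order dividing `n`. -/
def detSet (n : ℕ) : Finset ℂ :=
  ((nthRootsFinset n (1 : ℂ)) ×ˢ (nthRootsFinset n (1 : ℂ))).image fun x => x.1 * x.2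

lemma isIntegral_traceSet {n : ℕ} {x : ℂ} (h : x ∈ traceSet n ∨ x ∈ detSet n) (hn : 0 < n) :
    IsIntegral ℤ x := by
  have hroot : ∀ y ∈ nthRootsFinset n (1 : ℂ), IsIntegral ℤ y := fun y hy => by
    refine IsIntegral.of_pow hn ?_
    rw [(mem_nthRootsFinset hn 1).mp hy]
    exact isIntegral_one
  rcases h with h | h <;> obtain ⟨⟨u, v⟩, huv, rfl⟩ := Finset.mem_image.mp h <;>
    rw [Finset.mem_product] at huv
  · exact (hroot u huv.1).add (hroot v huv.2)
  · exact (hroot u huv.1).mul (hroot v huv.2)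

lemma norm_le_two_of_mem_traceSet {n : ℕ} (hn : 0 < n) {x : ℂ} (h : x ∈ traceSet n) : ‖x‖ ≤ 2 := by
  obtain ⟨⟨u, v⟩, huv, rfl⟩ := Finset.mem_image.mp h
  rw [Finset.mem_product, mem_nthRootsFinset hn, mem_nthRootsFinset hn] at huv
  refine (norm_add_le u v).trans ?_
  rw [Complex.norm_eq_one_of_pow_eq_one huv.1 hn.ne',
    Complex.norm_eq_one_of_pow_eq_one huv.2 hn.ne']
  norm_num

lemma trace_det_mem_of_pow_eq_one {n : ℕ} (hn : 0 < n) {M : Matrix (Fin 2) (Fin 2) ℂ}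
    (hM : M ^ n = 1) : M.trace ∈ traceSet n ∧ M.det ∈ detSet n := by
  have hsplit : M.charpoly.Splits := IsAlgClosed.splits _
  have hcard : Multiset.card M.charpoly.roots = 2 := by
    rw [← hsplit.natDegree_eq_card_roots, Matrix.charpoly_natDegree_eq_dim, Fintype.card_fin]
  obtain ⟨u, v, huv⟩ := Multiset.card_eq_two.mp hcard
  have hroot : ∀ z ∈ M.charpoly.roots, z ∈ nthRootsFinset n (1 : ℂ) := by
    intro z hz
    rw [mem_nthRootsFinset hn]
    have h1 : z ∈ spectrum ℂ M :=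
      Matrix.mem_spectrum_iff_isRoot_charpoly.mpr
        ((Polynomial.mem_roots M.charpoly_monic.ne_zero).mp hz)
    have h2 : z ^ n ∈ spectrum ℂ (M ^ n) := spectrum.pow_mem_pow M n h1
    rw [hM, spectrum.one_eq] at h2
    exact h2
  rw [huv] at hroot
  have hu := hroot u (by simp)
  have hv := hroot v (by simp)
  refine ⟨Finset.mem_image.mpr ⟨(u, v), Finset.mem_product.mpr ⟨hu, hv⟩, ?_⟩,
    Finset.mem_image.mpr ⟨(u, v), Finset.mem_product.mpr ⟨hu, hv⟩, ?_⟩⟩
  · rw [Matrix.trace_eq_sum_roots_charpoly, huv]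
    simp
  · rw [Matrix.det_eq_prod_roots_charpoly, huv]
    simp

lemma eq_one_of_pow_eq_one_of_trace {n : ℕ} (hn : 0 < n) {M : Matrix (Fin 2) (Fin 2) ℂ}
    (hM : M ^ n = 1) (ht : M.trace = 2) (hd : M.det = 1) : M = 1 := by
  have hsq : (M - 1) * (M - 1) = 0 := by
    rw [Matrix.trace_fin_two] at ht
    rw [Matrix.det_fin_two] at hd
    ext i j
    fin_cases i <;> fin_cases j <;>
      simp [Matrix.mul_apply, Fin.sum_univ_two, Matrix.one_apply]
    · linear_combination (M 0 0) * ht - hd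
    · linear_combination (M 0 1) * ht
    · linear_combination (M 1 0) * ht
    · linear_combination (M 1 1) * ht - hd
  have hpow : ∀ m : ℕ, M ^ m = 1 + m • (M - 1) := by
    intro m
    induction m with
    | zero => simp
    | succ m ih =>
      have h1 : (1 + m • (M - 1)) * M = (1 + m • (M - 1)) + (1 + m • (M - 1)) * (M - 1) := by
        rw [mul_sub, mul_one]
        abel
      rw [pow_succ, ih, h1, add_mul, one_mul, smul_mul_assoc, hsq, smul_zero, add_zero,
        succ_nsmul]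
      abel
  have := hpow n
  rw [hM, left_eq_add, ← Nat.cast_smul_eq_nsmul ℂ, smul_eq_zero] at this
  exact sub_eq_zero.mp (this.resolve_left (Nat.cast_ne_zero.mpr hn.ne'))

/-- A lift to `GL₂(ℂ)` of a residual representation with image of small order. -/
theorem exists_complex_lift {A ℓ : ℕ} (hℓ : ℓ.Prime) (hAℓ : A < ℓ) {O : ValuationSubring ℂ}
    (hO : (ℓ : O) ∈ maximalIdeal O) (ρ : GQ →* GL (Fin 2) (ResidueField O))
    (hfin : GaloisFactorsThroughFiniteLevel ρ) (hA : Nat.card ρ.range ≤ A) :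
    ∃ R : GQ →* GL (Fin 2) ℂ, (∀ σ, ρ σ = 1 → R σ = 1) ∧ (∀ σ, (R σ).val ^ A.factorial = 1) ∧
      ∀ σ, ∃ (ht : (R σ).val.trace ∈ O) (hd : (R σ).val.det ∈ O),
        residue O ⟨_, ht⟩ = (ρ σ).val.trace ∧ residue O ⟨_, hd⟩ = (ρ σ).val.det := by
  have := finite_range_of_finiteLevel ρ hfin
  have hG : (Nat.card ρ.range : ResidueField O) ≠ 0 :=
    natCast_residue_ne_zero hℓ hO Nat.card_pos.ne' (lt_of_le_of_lt hA hAℓ)
  obtain ⟨L, hL⟩ := exists_lift_rep hG ((Units.coeHom _).comp ρ.range.subtype)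
  let R : GQ →* GL (Fin 2) ℂ :=
    ((O.subtype.mapMatrix.toMonoidHom.comp L).toHomUnits).comp ρ.rangeRestrict
  have hR : ∀ σ, (R σ).val = (L (ρ.rangeRestrict σ)).map O.subtype := fun σ => rfl
  refine ⟨R, fun σ hσ => ?_, fun σ => ?_, fun σ => ?_⟩
  · have : ρ.rangeRestrict σ = 1 := Subtype.ext hσ
    simp [R, this]
  · rw [hR, ← RingHom.mapMatrix_apply, ← map_pow, ← map_pow]
    have hdvd : Nat.card ρ.range ∣ A.factorial := Nat.dvd_factorial Nat.card_pos hA
    obtain ⟨c, hc⟩ := hdvd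
    rw [hc, pow_mul, pow_card_eq_one', one_pow, map_one, map_one]
  · have htr : (R σ).val.trace = O.subtype (L (ρ.rangeRestrict σ)).trace := by
      rw [hR]; exact (AddMonoidHom.map_trace O.subtype.toAddMonoidHom _).symm
    have hdet : (R σ).val.det = O.subtype (L (ρ.rangeRestrict σ)).det := by
      rw [hR, ← RingHom.mapMatrix_apply, ← RingHom.map_det]
    refine ⟨htr ▸ (L (ρ.rangeRestrict σ)).trace.2, hdet ▸ (L (ρ.rangeRestrict σ)).det.2, ?_, ?_⟩
    · rw [show (⟨(R σ).val.trace, _⟩ : O) = (L (ρ.rangeRestrict σ)).trace from Subtype.ext htr]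
      refine (AddMonoidHom.map_trace (residue O).toAddMonoidHom _).trans ?_
      exact congrArg Matrix.trace (hL _)
    · rw [show (⟨(R σ).val.det, _⟩ : O) = (L (ρ.rangeRestrict σ)).det from Subtype.ext hdet,
        RingHom.map_det, RingHom.mapMatrix_apply, hL]
      rfl

variable {N : ℕ} {ε : DirichletCharacter ℂ N} {a : ℕ → ℂ}

lemma isIntegral_char {p : ℕ} (hN : N ≠ 0) (hp : IsGood N p) : IsIntegral ℤ (ε (p : ZMod N)) := by
  have : NeZero N := ⟨hN⟩
  set u := ZMod.unitOfCoprime p ((Nat.Prime.coprime_iff_not_dvd hp.1).mpr hp.2) with hu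
  refine IsIntegral.of_pow (Nat.totient_pos.mpr (Nat.pos_of_ne_zero hN)) ?_
  rw [← ZMod.coe_unitOfCoprime p ((Nat.Prime.coprime_iff_not_dvd hp.1).mpr hp.2), ← map_pow,
    ← Units.val_pow_eq_pow_val, ZMod.pow_totient, Units.val_one, map_one]
  exact isIntegral_one

lemma eq_of_residue_eq {O : ValuationSubring ℂ} {x y : ℂ} {B : ℕ} {ℓ : ℕ}
    (hB : x ≠ y → ∀ (O : ValuationSubring ℂ) (ℓ : ℕ), ℓ.Prime → B < ℓ →
      (ℓ : O) ∈ maximalIdeal O → ∀ h : x - y ∈ O, residue O ⟨x - y, h⟩ ≠ 0)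
    (hℓ : ℓ.Prime) (hBℓ : B < ℓ) (hO : (ℓ : O) ∈ maximalIdeal O) {hx : x ∈ O} {hy : y ∈ O}
    (h : residue O ⟨x, hx⟩ = residue O ⟨y, hy⟩) : x = y := by
  by_contra hne
  refine hB hne O ℓ hℓ hBℓ hO (sub_mem hx hy) ?_
  rw [← sub_eq_zero, ← map_sub] at h
  exact h

/-- A single bound separating the members of a finite set of algebraic integers at large places. -/
lemma exists_separation (F : Finset ℂ) (hF : ∀ x ∈ F, IsIntegral ℤ x) :
    ∃ B : ℕ, ∀ x ∈ F, ∀ y ∈ F, x ≠ y → ∀ (O : ValuationSubring ℂ) (ℓ : ℕ), ℓ.Prime → B < ℓ →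
      (ℓ : O) ∈ maximalIdeal O → ∀ h : x - y ∈ O, residue O ⟨x - y, h⟩ ≠ 0 := by
  classical
  have key : ∀ z : ℂ × ℂ, ∃ B : ℕ, z ∈ F ×ˢ F → z.1 ≠ z.2 →
      ∀ (O : ValuationSubring ℂ) (ℓ : ℕ), ℓ.Prime → B < ℓ →
      (ℓ : O) ∈ maximalIdeal O → ∀ h : z.1 - z.2 ∈ O, residue O ⟨z.1 - z.2, h⟩ ≠ 0 := by
    intro z
    by_cases hz : z ∈ F ×ˢ F ∧ z.1 ≠ z.2
    · obtain ⟨B, hB⟩ := exists_bound_residue_ne_zero
        ((hF _ (Finset.mem_product.mp hz.1).1).sub (hF _ (Finset.mem_product.mp hz.1).2))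
        (sub_ne_zero.mpr hz.2)
      exact ⟨B, fun _ _ => hB⟩
    · exact ⟨0, fun h1 h2 => absurd ⟨h1, h2⟩ hz⟩
  choose B hB using key
  refine ⟨(F ×ˢ F).sup B, fun x hx y hy hne O ℓ hℓ hlt => ?_⟩
  have hmem : (x, y) ∈ F ×ˢ F := Finset.mem_product.mpr ⟨hx, hy⟩
  exact hB (x, y) hmem hne O ℓ hℓ (lt_of_le_of_lt (Finset.le_sup hmem) hlt)

lemma two_mul_card_le_sum_norm_sq {G : Type} [Group G] [Fintype G] (χ δ : G →* ℂ) :
    2 * (Fintype.card G : ℝ) ≤ ∑ g, ‖χ g + δ g * (χ g)⁻¹‖ ^ 2 := by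
  classical
  have hnorm : ∀ (ψ : G →* ℂ) g, ‖ψ g‖ = 1 := fun ψ g =>
    Complex.norm_eq_one_of_pow_eq_one (by rw [← map_pow, pow_card_eq_one, map_one])
      Fintype.card_ne_zero
  let ψ : G →* ℂ :=
    { toFun := fun g => χ g ^ 2 * (δ g)⁻¹
      map_one' := by simp
      map_mul' := fun g g' => by simp only [map_mul, mul_inv_rev]; ring }
  have hterm : ∀ g, ‖χ g + δ g * (χ g)⁻¹‖ ^ 2 = 2 + 2 * (ψ g).re := by
    intro g
    rw [← Complex.normSq_eq_norm_sq, Complex.normSq_add, Complex.normSq_eq_norm_sq,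
      Complex.normSq_eq_norm_sq, norm_mul, norm_inv, hnorm, hnorm, inv_one, one_mul, one_pow]
    have hconj : (starRingEnd ℂ) (δ g * (χ g)⁻¹) = (δ g)⁻¹ * χ g := by
      rw [map_mul, map_inv₀, ← Complex.inv_eq_conj (hnorm δ g), ← Complex.inv_eq_conj (hnorm χ g),
        inv_inv]
    rw [hconj]
    have : χ g * ((δ g)⁻¹ * χ g) = ψ g := by
      show _ = χ g ^ 2 * (δ g)⁻¹
      ring
    rw [this]
    ring
  simp only [hterm, Finset.sum_add_distrib, Finset.sum_const, Finset.card_univ, nsmul_eq_mul,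
    ← Finset.mul_sum, ← Complex.re_sum]
  have hre : 0 ≤ (∑ g, ψ g).re := by
    rw [sum_hom_units ψ]
    split <;> simp
  linarith

section Lifts

variable {A : ℕ} (hA : ∀ ℓ : ℕ, ℓ.Prime → 5 ≤ ℓ → ∀ O : ValuationSubring ℂ,
    (ℓ : O) ∈ maximalIdeal O →
      ∀ ρ : GQ →* GL (Fin 2) (ResidueField O), IsModRep N ℓ ε a O ρ → Nat.card ρ.range ≤ A)
  (hM : HasModReps N ε a)
include hA hM

/-- A lift of bounded order at each large prime. -/
private lemma exists_lift_at [NeZero N] {ℓ : ℕ} (hℓ : ℓ.Prime) (h5 : 5 ≤ ℓ) (hAℓ : A < ℓ)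
    (hNℓ : N < ℓ) :
    ∃ (O : ValuationSubring ℂ) (R : GQ →* GL (Fin 2) ℂ), (ℓ : O) ∈ maximalIdeal O ∧
      GaloisFactorsThroughFiniteLevel R ∧ (∀ σ, (R σ).val ^ A.factorial = 1) ∧
      ∀ p : ℕ, p.Prime → ¬ p ∣ N * ℓ → ∀ P : ValuationSubring (AlgebraicClosure ℚ),
        P.LiesOverPrime p → (∀ σ ∈ P.inertiaSubgroupIn ℚ, R σ = 1) ∧
        ∀ σ : GQ, P.IsFrobeniusAt σ p →
          ∃ (ht : (R σ).val.trace ∈ O) (hd : (R σ).val.det ∈ O) (ha : a p ∈ O)
            (he : ε (p : ZMod N) ∈ O),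
            residue O ⟨_, ht⟩ = residue O ⟨_, ha⟩ ∧ residue O ⟨_, hd⟩ = residue O ⟨_, he⟩ := by
  obtain ⟨O, hO⟩ := exists_place hℓ
  have hndvd : ¬ ℓ ∣ N := fun h =>
    absurd (Nat.le_of_dvd (Nat.pos_of_ne_zero (NeZero.ne N)) h) (by omega)
  obtain ⟨ρ, hρ⟩ := hM ℓ hℓ h5 hndvd O hO
  obtain ⟨R, hker, hpow, hred⟩ :=
    exists_complex_lift hℓ hAℓ hO ρ hρ.1 (hA ℓ hℓ h5 O hO ρ hρ)
  refine ⟨O, R, hO, ?_, hpow, fun p hp hnd P hP =>
    ⟨fun σ hσ => hker σ ((hρ.2.2 p hp hnd P hP).1 σ hσ), fun σ hσ => ?_⟩⟩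
  · obtain ⟨L, hL, h⟩ := hρ.1
    exact ⟨L, hL, fun σ hσ => hker σ (h σ hσ)⟩
  · obtain ⟨ht, hd, h1, h2⟩ := hred σ
    obtain ⟨ha, he, h3, h4⟩ := (hρ.2.2 p hp hnd P hP).2 σ hσ
    exact ⟨ht, hd, ha, he, h1.trans h3, h2.trans h4⟩

/-- The eigenvalues are sums, and the values of the character products, of two roots of unity. -/
private lemma mem_traceSet_detSet [NeZero N] (hint : ∀ p, IsGood N p → IsIntegral ℤ (a p)) {p : ℕ}
    (hp : IsGood N p) :
    a p ∈ traceSet A.factorial ∧ ε (p : ZMod N) ∈ detSet A.factorial := by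
  classical
  set n := A.factorial
  have hnpos : 0 < n := Nat.factorial_pos A
  obtain ⟨B, hB⟩ := exists_separation
    ({a p, ε (p : ZMod N)} ∪ traceSet n ∪ detSet n) (fun x hx => by
      simp only [Finset.mem_union, Finset.mem_insert, Finset.mem_singleton] at hx
      rcases hx with ((rfl | rfl) | hx) | hx
      · exact hint p hp
      · exact isIntegral_char (NeZero.ne N) hp
      · exact isIntegral_traceSet (Or.inl hx) hnpos
      · exact isIntegral_traceSet (Or.inr hx) hnpos)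
  obtain ⟨ℓ, hle, hℓ⟩ := Nat.exists_infinite_primes (B + A + N + p + 5)
  obtain ⟨O, R, hO, -, hpow, hfrob⟩ := exists_lift_at hA hM hℓ (by omega) (by omega) (by omega)
  obtain ⟨P, hP⟩ := exists_liesOverPrime hp.1
  obtain ⟨σ, hσ⟩ := exists_isFrobeniusAt hp.1 hP
  have hnd : ¬ p ∣ N * ℓ := fun h => (hp.1.dvd_mul.mp h).elim hp.2 fun h' => by
    have := (Nat.prime_dvd_prime_iff_eq hp.1 hℓ).mp h'
    omega
  obtain ⟨ht, hd, ha, he, h1, h2⟩ := (hfrob p hp.1 hnd P hP).2 σ hσ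
  obtain ⟨htm, hdm⟩ := trace_det_mem_of_pow_eq_one hnpos (hpow σ)
  have e1 := eq_of_residue_eq (B := B)
    (hB _ (by simp [htm]) _ (by simp)) hℓ (by omega) hO h1
  have e2 := eq_of_residue_eq (B := B)
    (hB _ (by simp [hdm]) _ (by simp)) hℓ (by omega) hO h2
  exact ⟨e1 ▸ htm, e2 ▸ hdm⟩

/-- For large `ℓ` the lift has the exact eigenvalues away from `ℓ`. -/
private lemma exists_exact_lifts [NeZero N] (hint : ∀ p, IsGood N p → IsIntegral ℤ (a p)) :
    ∃ B : ℕ, ∀ ℓ : ℕ, ℓ.Prime → B ≤ ℓ → ∃ R : GQ →* GL (Fin 2) ℂ,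
      GaloisFactorsThroughFiniteLevel R ∧ (∀ σ, (R σ).val ^ A.factorial = 1) ∧
      ∀ p : ℕ, p.Prime → ¬ p ∣ N * ℓ → ∀ P : ValuationSubring (AlgebraicClosure ℚ),
        P.LiesOverPrime p → (∀ σ ∈ P.inertiaSubgroupIn ℚ, R σ = 1) ∧
        ∀ σ : GQ, P.IsFrobeniusAt σ p →
          (R σ).val.trace = a p ∧ (R σ).val.det = ε (p : ZMod N) := by
  classical
  obtain ⟨B, hB⟩ := exists_separation (traceSet A.factorial ∪ detSet A.factorial) fun x hx =>
    isIntegral_traceSet (Finset.mem_union.mp hx) (Nat.factorial_pos A)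
  refine ⟨B + A + N + 5, fun ℓ hℓ hle => ?_⟩
  obtain ⟨O, R, hO, hfin, hpow, hfrob⟩ := exists_lift_at hA hM hℓ (by omega) (by omega) (by omega)
  refine ⟨R, hfin, hpow, fun p hp hnd P hP => ⟨(hfrob p hp hnd P hP).1, fun σ hσ => ?_⟩⟩
  have hgood : IsGood N p := ⟨hp, fun h => hnd (dvd_mul_of_dvd_left h ℓ)⟩
  obtain ⟨ht, hd, ha, he, h1, h2⟩ := (hfrob p hp hnd P hP).2 σ hσ
  obtain ⟨htm, hdm⟩ := trace_det_mem_of_pow_eq_one (Nat.factorial_pos A) (hpow σ)
  exact ⟨eq_of_residue_eq (hB _ (Finset.mem_union_left _ htm) _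
      (Finset.mem_union_left _ (mem_traceSet_detSet hA hM hint hgood).1)) hℓ (by omega) hO h1,
    eq_of_residue_eq (hB _ (Finset.mem_union_right _ hdm) _
      (Finset.mem_union_right _ (mem_traceSet_detSet hA hM hint hgood).2)) hℓ (by omega) hO h2⟩

end Lifts

/-- Two representations with the same traces and determinants of almost all Frobenius elements
have the same traces and determinants. -/
private lemma trace_det_eq_of_frob {R R₁ : GQ →* GL (Fin 2) ℂ} {ℓ₀ ℓ₁ : ℕ} (hN : N ≠ 0)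
    (hℓ₀ : ℓ₀.Prime) (hℓ₁ : ℓ₁.Prime) (hfin : GaloisFactorsThroughFiniteLevel R)
    (hfin₁ : GaloisFactorsThroughFiniteLevel R₁)
    (hfrob : ∀ p : ℕ, p.Prime → ¬ p ∣ N * ℓ₀ → ∀ P : ValuationSubring (AlgebraicClosure ℚ),
      P.LiesOverPrime p → ∀ σ : GQ, P.IsFrobeniusAt σ p →
        (R σ).val.trace = a p ∧ (R σ).val.det = ε (p : ZMod N))
    (hfrob₁ : ∀ p : ℕ, p.Prime → ¬ p ∣ N * ℓ₁ → ∀ P : ValuationSubring (AlgebraicClosure ℚ),
      P.LiesOverPrime p → ∀ σ : GQ, P.IsFrobeniusAt σ p →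
        (R₁ σ).val.trace = a p ∧ (R₁ σ).val.det = ε (p : ZMod N)) (g : GQ) :
    (R g).val.trace = (R₁ g).val.trace ∧ (R g).val.det = (R₁ g).val.det := by
  obtain ⟨L₀, hL₀, hk₀⟩ := hfin
  obtain ⟨L₁, hL₁, hk₁⟩ := hfin₁
  have := hL₀; have := hL₁
  obtain ⟨q, P, σ, j, -, hq, hqS, hP, hσ, -, hmem, -⟩ :=
    exists_frobenius_pow_congr (L₀ ⊔ L₁) g (N * ℓ₀ * ℓ₁).divisors
  have hne : N * ℓ₀ * ℓ₁ ≠ 0 := mul_ne_zero (mul_ne_zero hN hℓ₀.ne_zero) hℓ₁.ne_zero
  have h0 : ¬ q ∣ N * ℓ₀ := fun h => hqS (Nat.mem_divisors.mpr ⟨dvd_mul_of_dvd_left h ℓ₁, hne⟩)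
  have h1 : ¬ q ∣ N * ℓ₁ := fun h => hqS (Nat.mem_divisors.mpr
    ⟨by rw [mul_right_comm]; exact dvd_mul_of_dvd_left h ℓ₀, hne⟩)
  have hg : ∀ (S : GQ →* GL (Fin 2) ℂ) (L : IntermediateField ℚ (AlgebraicClosure ℚ)),
      L ≤ L₀ ⊔ L₁ → (∀ τ : GQ, (∀ x ∈ L, τ x = x) → S τ = 1) →
      (S g).val = (S σ).val ^ j := by
    intro S L hL hk
    have h := hk _ fun x hx =>
      (IntermediateField.mem_fixingSubgroup_iff _ _).mp hmem x (hL hx)
    rw [map_mul, map_inv, map_pow, inv_mul_eq_one] at h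
    rw [← h, Units.val_pow_eq_pow_val]
  obtain ⟨t0, d0⟩ := hfrob q hq h0 P hP σ hσ
  obtain ⟨t1, d1⟩ := hfrob₁ q hq h1 P hP σ hσ
  rw [hg R L₀ le_sup_left hk₀, hg R₁ L₁ le_sup_right hk₁, Matrix.det_pow, Matrix.det_pow]
  exact ⟨trace_pow_eq_of_eq (t0.trans t1.symm) (d0.trans d1.symm) j, by rw [d0, d1]⟩

/-- A reducible representation of a finite group has `∑ |tr|² ≥ 2 |G|`, its trace being a sum of
two characters. -/
private lemma two_mul_card_le_sum_trace_sq {R : GQ →* GL (Fin 2) ℂ} [Fintype R.range]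
    (hred : ¬ (Deformation.matrixRepresentation R).IsIrreducible) :
    2 * (Fintype.card R.range : ℝ) ≤ ∑ g : R.range, ‖(g.1.val).trace‖ ^ 2 := by
  obtain ⟨χ, hχker, hχ⟩ := exists_characters_of_not_irreducible R hred
  have hkerle : R.rangeRestrict.ker ≤ χ.ker := by
    intro σ hσ
    rw [MonoidHom.mem_ker] at hσ ⊢
    exact hχker σ (congrArg Subtype.val hσ)
  let χ' : R.range →* ℂˣ :=
    R.rangeRestrict.liftOfSurjective R.rangeRestrict_surjective ⟨χ, hkerle⟩
  have hχ' : ∀ σ, χ' (R.rangeRestrict σ) = χ σ := fun σ =>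
    MonoidHom.liftOfRightInverse_comp_apply _ _ (Function.rightInverse_surjInv _) ⟨χ, hkerle⟩ σ
  let δ : R.range →* ℂ :=
    (Matrix.detMonoidHom.comp (Units.coeHom _)).comp R.range.subtype
  refine (two_mul_card_le_sum_norm_sq ((Units.coeHom ℂ).comp χ') δ).trans_eq
    (Finset.sum_congr rfl fun g _ => ?_)
  obtain ⟨σ, rfl⟩ := R.rangeRestrict_surjective g
  simp only [MonoidHom.comp_apply, Units.coeHom_apply, hχ', δ, Subgroup.coe_subtype]
  rw [show ((R.rangeRestrict σ).1).val = (R σ).val from rfl, hχ σ, Units.val_inv_eq_inv_val]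
  rfl

/-- The prime sums of the squares of a system bounded by `2` converge for `s > 1`. -/
private lemma summable_normSqSys (hbd : ∀ p, IsGood N p → ‖a p‖ ≤ 2) {s : ℝ} (hs : 1 < s) :
    Summable fun p : Nat.Primes => normSqSys N a p * ((p : ℕ) : ℝ) ^ (-s) := by
  classical
  refine Summable.of_nonneg_of_le (fun p => mul_nonneg ?_ (Real.rpow_nonneg (by positivity) _))
    (fun p => mul_le_mul_of_nonneg_right ?_ (Real.rpow_nonneg (by positivity) _))
    ((Nat.Primes.summable_rpow.mpr (by linarith : -s < -1)).mul_left 4)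
  · unfold normSqSys onGood
    split <;> positivity
  · unfold normSqSys onGood
    split_ifs with h
    · calc ‖a p‖ ^ 2 ≤ 2 ^ 2 := pow_le_pow_left₀ (norm_nonneg _) (hbd p h) 2
        _ = 4 := by norm_num
    · norm_num

/-- The sharp Rankin bound forces irreducibility: by Chebotarev the average of `|tr|²` over the
image is at most `1`. -/
private lemma isIrreducible_of_rankinSharp (hN : N ≠ 0)
    (hS : RankinSharp N a) (hbd : ∀ p, IsGood N p → ‖a p‖ ≤ 2) {R : GQ →* GL (Fin 2) ℂ}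
    (hfin : GaloisFactorsThroughFiniteLevel R)
    (hprop : ∀ p : ℕ, p.Prime → ¬ p ∣ N → ∀ P : ValuationSubring (AlgebraicClosure ℚ),
      P.LiesOverPrime p → (∀ σ ∈ P.inertiaSubgroupIn ℚ, R σ = 1) ∧
      ∀ σ : GQ, P.IsFrobeniusAt σ p →
        (R σ).val.trace = a p ∧ (R σ).val.det = ε (p : ZMod N)) :
    (Deformation.matrixRepresentation R).IsIrreducible := by
  classical
  by_contra hred
  have := finite_range_of_finiteLevel R hfin
  have := Fintype.ofFinite R.range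
  have hsum := two_mul_card_le_sum_trace_sq hred
  obtain ⟨C, hC'⟩ := hS ⟨2, hbd⟩
  have havg := sum_le_of_primeSum R.rangeRestrict (by
      obtain ⟨L, hL, hker⟩ := hfin
      exact ⟨L, hL, fun σ hσ => Subtype.ext (hker σ hσ)⟩) R.rangeRestrict_surjective N.divisors
    (fun p hp hpS P hP σ hσ => Subtype.ext ((hprop p hp
      (fun h => hpS (Nat.mem_divisors.mpr ⟨h, hN⟩)) P hP).1 σ hσ))
    (fun g => ‖(g.1.val).trace‖ ^ 2) (fun g => by positivity)
    (fun g g' hg => by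
      obtain ⟨u, rfl⟩ := isConj_iff.mp hg
      simp only [Subgroup.coe_mul, InvMemClass.coe_inv, Units.val_mul]
      rw [Matrix.trace_mul_cycle, ← Units.val_mul, inv_mul_cancel, Units.val_one, Matrix.one_mul])
    (normSqSys N a) (fun p => by unfold normSqSys onGood; split <;> positivity) 1 C
    (fun s hs hs2 => ⟨summable_normSqSys hbd hs, by rw [one_mul]; exact hC' s hs hs2⟩)
    (fun p hp hpS P σ hP hσ => by
      have hnd : ¬ p ∣ N := fun h => hpS (Nat.mem_divisors.mpr ⟨h, hN⟩)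
      rw [show ((R.rangeRestrict σ).1).val = (R σ).val from rfl,
        ((hprop p hp hnd P hP).2 σ hσ).1, normSqSys, onGood, if_pos ⟨hp, hnd⟩])
  rw [one_mul] at havg
  have hpos : (0 : ℝ) < Fintype.card R.range := by exact_mod_cast Fintype.card_pos
  linarith

/-- A representation of finite exponent, with the characteristic polynomials of one which is
unramified at `p` with the right Frobenius there, is so itself. -/
private lemma frob_at_excluded {R R₁ : GQ →* GL (Fin 2) ℂ} {n p : ℕ} (hn : 0 < n)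
    {P : ValuationSubring (AlgebraicClosure ℚ)} (hpow : ∀ σ, (R σ).val ^ n = 1)
    (hsame : ∀ g, (R g).val.trace = (R₁ g).val.trace ∧ (R g).val.det = (R₁ g).val.det)
    (h₁ : (∀ σ ∈ P.inertiaSubgroupIn ℚ, R₁ σ = 1) ∧ ∀ σ : GQ, P.IsFrobeniusAt σ p →
      (R₁ σ).val.trace = a p ∧ (R₁ σ).val.det = ε (p : ZMod N)) :
    (∀ σ ∈ P.inertiaSubgroupIn ℚ, R σ = 1) ∧ ∀ σ : GQ, P.IsFrobeniusAt σ p →
      (R σ).val.trace = a p ∧ (R σ).val.det = ε (p : ZMod N) := by
  refine ⟨fun σ hσ => ?_, fun σ hσ => by rw [(hsame σ).1, (hsame σ).2]; exact h₁.2 σ hσ⟩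
  refine Units.ext (eq_one_of_pow_eq_one_of_trace hn (hpow σ) ?_ ?_)
  · rw [(hsame σ).1, h₁.1 σ hσ, Units.val_one, Matrix.trace_one, Fintype.card_fin, Nat.cast_ofNat]
  · rw [(hsame σ).2, h₁.1 σ hσ, Units.val_one, Matrix.det_one]

/-- **The theorem of Deligne and Serre** for a system of eigenvalues with a number field of
coefficients, residual representations and the sharp Rankin bound. The residual
representations of a weight one system have images of bounded order, so for all large `ℓ` they lift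
to `GL₂(ℂ)` with the exact traces `a p` and determinants `ε p`; two such lifts give a representation
unramified outside `N`, irreducible by the sharp Rankin bound. -/
theorem hasArtinRep [NeZero N] (hS : RankinSharp N a) (hK : HasCoeffField N a)
    (hM : HasModReps N ε a) :
    HasArtinRep N ε a := by
  classical
  have hN : N ≠ 0 := NeZero.ne N
  obtain ⟨A, hA⟩ := exists_card_bound (ε := ε) hK hN
  obtain ⟨_, -, hint, -⟩ := hK
  have hnpos : 0 < A.factorial := Nat.factorial_pos A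
  obtain ⟨B, hexact⟩ := exists_exact_lifts hA hM hint
  obtain ⟨ℓ₀, hle₀, hℓ₀⟩ := Nat.exists_infinite_primes B
  obtain ⟨ℓ₁, hle₁, hℓ₁⟩ := Nat.exists_infinite_primes (ℓ₀ + 1)
  obtain ⟨R, hfin, hpow, hfrob⟩ := hexact ℓ₀ hℓ₀ hle₀
  obtain ⟨R₁, hfin₁, -, hfrob₁⟩ := hexact ℓ₁ hℓ₁ (by omega)
  -- the two lifts have the same characteristic polynomials
  have hsame := trace_det_eq_of_frob hN hℓ₀ hℓ₁ hfin hfin₁
    (fun p hp hnd P hP => (hfrob p hp hnd P hP).2) fun p hp hnd P hP => (hfrob₁ p hp hnd P hP).2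
  have hprop : ∀ p : ℕ, p.Prime → ¬ p ∣ N → ∀ P : ValuationSubring (AlgebraicClosure ℚ),
      P.LiesOverPrime p → (∀ σ ∈ P.inertiaSubgroupIn ℚ, R σ = 1) ∧
      ∀ σ : GQ, P.IsFrobeniusAt σ p →
        (R σ).val.trace = a p ∧ (R σ).val.det = ε (p : ZMod N) := by
    intro p hp hnd P hP
    by_cases hpl : p = ℓ₀
    · have hnd₁ : ¬ p ∣ N * ℓ₁ := fun h => (hp.dvd_mul.mp h).elim hnd fun h' => by
        have := (Nat.prime_dvd_prime_iff_eq hp hℓ₁).mp h'
        omega
      exact frob_at_excluded hnpos hpow hsame (hfrob₁ p hp hnd₁ P hP)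
    · refine hfrob p hp (fun h => (hp.dvd_mul.mp h).elim hnd fun h' => ?_) P hP
      exact hpl ((Nat.prime_dvd_prime_iff_eq hp hℓ₀).mp h')
  exact ⟨R, hfin, isIrreducible_of_rankinSharp hN hS
    (fun p hp => norm_le_two_of_mem_traceSet hnpos (mem_traceSet_detSet hA hM hint hp).1)
    hfin hprop, hprop⟩


/-- **The theorem of Deligne and Serre** for a normalised eigenform of weight one with character
`ε`: there is an irreducible representation to `GL₂(ℂ)` of finite image, unramified outside `N`,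
with Frobenius at `p` of trace `a p` and determinant `ε p`. -/
theorem hasArtinRep_of_isEigenOne [NeZero N] {f : CuspForm (CongruenceSubgroup.Gamma1 N) 1}
    (h : IsEigenOne N ε f) : HasArtinRep N ε (ModularFormClass.qCoeff f) :=
  hasArtinRep (rankin h).2 (hasCoeffField h) (hasModReps h)

end FermatAgent.DS
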