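import Fermat.Agent.DS.Defs
import Fermat.Agent.ES.Ring.Expansion
import Fermat.Agent.Period.Primitive
import Fermat.Prelude.Def_FLTPrelim_Modularity
import Fermat.Prelude.Def_ModularForm_HeckeOperator
import Fermat.Prelude.Thm_ModularForm_periodic_heckeU_comp_ofComplex
import Fermat.Prelude.Thm_ModularForm_mdifferentiable_heckeU
import Fermat.Prelude.Thm_ModularForm_isBoundedAtImInfty_heckeU
import Fermat.Prelude.Thm_ModularForm_periodic_heckeT_comp_ofComplex
import Fermat.Prelude.Thm_ModularForm_mdifferentiable_heckeT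
import Fermat.Prelude.Thm_ModularForm_isBoundedAtImInfty_heckeT
import Fermat.Prelude.Thm_UpperHalfPlane_qCoeff_heckeT
import Fermat.Prelude.Thm_UpperHalfPlane_qCoeff_heckeU
import Mathlib.NumberTheory.LSeries.PrimesInAP

/-!
# The character of a weight one eigenform is its nebentypus

At a prime `p` outside the level the Hecke relation is an equation between translates of `f`; moved
by `(1, 0; N, 1)` it says that the difference of `f` and its twisted diamond translate is fixed by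
an element of determinant one with a `p` in the denominator, so that its period is arbitrarily
small.
-/

set_option autoImplicit false

noncomputable section

open UpperHalfPlane CongruenceSubgroup
open scoped MatrixGroups ModularForm Manifold

namespace FermatAgent.DS

open FermatAgent.ES (HasExp qm)
open ModularForm (heckeMatrix heckeDiagMatrix heckeU heckeT upperTriangularGL)

local notation "toR" => (Matrix.SpecialLinearGroup.mapGL ℝ : SL(2, ℤ) →* GL (Fin 2) ℝ)

/-- A function with the period `1 / Q` has coefficients at the multiples of `Q` only. -/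
theorem coeff_eq_zero_of_translate {g : ℍ → ℂ} {b : PowerSeries ℂ} (hb : HasExp 1 g b) {Q n : ℕ}
    (hn : n ≠ 0) (hnQ : n < Q) (hg : ∀ τ : ℍ, g ((1 / (Q : ℝ)) +ᵥ τ) = g τ) :
    PowerSeries.coeff n b = 0 := by
  set z : ℂ := Complex.exp (2 * Real.pi * Complex.I * (1 / (Q : ℝ)))
  have h : HasExp 1 g (PowerSeries.mk fun e => PowerSeries.coeff e b * z ^ e) := fun τ => by
    have h1 := hb ((1 / (Q : ℝ)) +ᵥ τ)
    rw [hg] at h1
    refine h1.congr_fun fun e => ?_
    have hq : qm 1 ((1 / (Q : ℝ)) +ᵥ τ) = z * qm 1 τ := by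
      simp only [qm, z, Function.Periodic.qParam, ← Complex.exp_add, UpperHalfPlane.coe_vadd]
      congr 1
      push_cast
      ring
    rw [PowerSeries.coeff_mk, hq, mul_pow]
    ring
  have h2 := congrArg (PowerSeries.coeff n) (hb.series_unique h)
  rw [PowerSeries.coeff_mk] at h2
  by_contra h0
  have h3 : z ^ n = 1 := (mul_right_eq_self₀.1 h2.symm).resolve_right h0
  rw [← Complex.exp_nat_mul, Complex.exp_eq_one_iff] at h3
  obtain ⟨k, hk⟩ := h3
  have hQ : (Q : ℂ) ≠ 0 := Nat.cast_ne_zero.2 (by omega)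
  have h4 : ((n : ℤ) : ℂ) = ((k * Q : ℤ) : ℂ) := by
    push_cast
    have := Complex.two_pi_I_ne_zero
    field_simp at hk
    push_cast at hk
    rw [div_eq_iff hQ] at hk
    exact hk
  rw [Int.cast_inj] at h4
  rcases lt_trichotomy k 0 with hk' | rfl | hk'
  · nlinarith
  · simp at h4; omega
  · nlinarith

/-- The real matrix of an integral one has the same entries. -/
lemma val_toR (x : SL(2, ℤ)) (a b : Fin 2) : (toR x).val a b = (x a b : ℝ) := rfl

lemma val_mk (a b c d : ℤ) (h) :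
    (toR (⟨!![a, b; c, d], h⟩ : SL(2, ℤ))).val = !![(a : ℝ), b; c, d] := by
  ext i j
  fin_cases i <;> fin_cases j <;> rfl

lemma det_toR (x : SL(2, ℤ)) : (toR x).val.det = 1 := by
  rw [Matrix.det_fin_two]
  simp only [val_toR]
  have := congrArg (Int.cast : ℤ → ℝ) x.det_coe
  rw [Matrix.det_fin_two] at this
  exact_mod_cast this

variable {N : ℕ} [NeZero N]

section

omit [NeZero N]

/-- The diagonal entries of an element of `Γ₀(N)` are inverse to each other modulo `N`. -/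
lemma cast_fst_mul_snd {x : SL(2, ℤ)} (hx : x ∈ Gamma0 N) :
    (x 0 0 : ZMod N) * (x 1 1 : ZMod N) = 1 := by
  have h := congrArg (Int.cast : ℤ → ZMod N) x.det_coe
  rw [Matrix.det_fin_two, Int.cast_sub, Int.cast_mul, Int.cast_mul, Gamma0_mem.1 hx, mul_zero,
    sub_zero, Int.cast_one] at h
  exact h

/-- On `Γ₀(N)` the lower right entry modulo `N` is multiplicative. -/
lemma cast_mul_snd {x y : SL(2, ℤ)} (hx : x ∈ Gamma0 N) (hy : y ∈ Gamma0 N) :
    ((x * y) 1 1 : ZMod N) = (x 1 1 : ZMod N) * (y 1 1 : ZMod N) :=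
  map_mul (Gamma0Map N) ⟨x, hx⟩ ⟨y, hy⟩

/-- An element of `Γ₀(N)` with lower right entry `1` modulo `N` lies in `Γ₁(N)`. -/
lemma mem_Gamma1_of_snd {x : SL(2, ℤ)} (hx : x ∈ Gamma0 N) (h : (x 1 1 : ZMod N) = 1) :
    x ∈ Gamma1 N := by
  have := cast_fst_mul_snd hx
  rw [h, mul_one] at this
  exact (Gamma1_mem N x).2 ⟨this, h, Gamma0_mem.1 hx⟩

lemma mul_inv_mem_Gamma1 {x y : SL(2, ℤ)} (hx : x ∈ Gamma0 N) (hy : y ∈ Gamma0 N)
    (h : (x 1 1 : ZMod N) = (y 1 1 : ZMod N)) : x * y⁻¹ ∈ Gamma1 N := by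
  refine mem_Gamma1_of_snd (mul_mem hx (inv_mem hy)) ?_
  rw [cast_mul_snd hx (inv_mem hy), h, ← cast_mul_snd hy (inv_mem hy), mul_inv_cancel]
  simp

end

omit [NeZero N] in
/-- An element of `Γ₀(N)` with first column `(u, N)`. -/
private lemma exists_Gamma0_col {u : ℤ} (hu : IsCoprime u (N : ℤ)) :
    ∃ t ∈ Gamma0 N, t 0 0 = u ∧ t 1 0 = (N : ℤ) ∧ (u : ZMod N) * (t 1 1 : ZMod N) = 1 := by
  obtain ⟨t, ht0, ht1⟩ := IsCoprime.exists_SL2_col hu (0 : Fin 2)
  have ht : t ∈ Gamma0 N := by simp [Gamma0_mem, ht1]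
  exact ⟨t, ht, ht0, ht1, ht0 ▸ cast_fst_mul_snd ht⟩

omit [NeZero N] in
/-- An integral matrix with first column `(x, N)` clears the first column of a product. -/
private lemma inv_mul_first_col {γ : SL(2, ℤ)} {x : ℤ} (hx0 : γ 0 0 = x) (hx1 : γ 1 0 = (N : ℤ))
    {P : ℝ} (hP : P ≠ 0) (A : GL (Fin 2) ℝ)
    (hA : ∀ k, A.val k 0 = (if k = 0 then (x : ℝ) else (N : ℝ)) / P) (k : Fin 2) :
    ((toR γ)⁻¹ * A : GL (Fin 2) ℝ).val k 0 = if k = 0 then 1 / P else 0 := by
  have hinv : ((toR γ)⁻¹ * A : GL (Fin 2) ℝ).val = (toR γ⁻¹).val * A.val := by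
    rw [map_inv, Units.val_mul]
  have hd : ((γ 0 0 : ℝ) * γ 1 1 - γ 0 1 * γ 1 0) = 1 := by
    have := congrArg (Int.cast : ℤ → ℝ) γ.det_coe
    rw [Matrix.det_fin_two] at this
    exact_mod_cast this
  rw [hinv, Matrix.mul_apply, Fin.sum_univ_two, hA, hA, val_toR, val_toR]
  fin_cases k <;>
    simp [Matrix.SpecialLinearGroup.coe_inv, Matrix.adjugate_fin_two, hx0, hx1] at hd ⊢ <;>
    field_simp <;> linarith

omit [NeZero N] in
/-- A group containing `Γ₁(N)` and `δ (p, -i; 0, 1/p)` contains elements of determinant one with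
first column `(u, N) / p ^ m`, `u ≡ p ^ m`. -/
private lemma exists_mem_first_col {G : Subgroup (GL (Fin 2) ℝ)} (hΓ : ∀ γ ∈ Gamma1 N, toR γ ∈ G)
    {p : ℕ} (hp : p.Prime) (hpN : ¬ p ∣ N) {δ : SL(2, ℤ)} (hδ : δ ∈ Gamma0 N)
    (hδp : (δ 1 1 : ZMod N) = p) (i : ℕ) {D : GL (Fin 2) ℝ}
    (hD : (D : Matrix (Fin 2) (Fin 2) ℝ) = !![(p : ℝ), -(i : ℝ); 0, (p : ℝ)⁻¹])
    (hδD : toR δ * D ∈ G) (m : ℕ) :
    ∃ M ∈ G, ∃ u : ℤ, IsCoprime u N ∧ (u : ZMod N) = (p : ZMod N) ^ m ∧
      ((M : Matrix (Fin 2) (Fin 2) ℝ).det = 1) ∧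
      (M : Matrix (Fin 2) (Fin 2) ℝ) 0 0 = u / (p : ℝ) ^ m ∧
      (M : Matrix (Fin 2) (Fin 2) ℝ) 1 0 = N / (p : ℝ) ^ m := by
  have hp0 : (p : ℝ) ≠ 0 := Nat.cast_ne_zero.2 hp.ne_zero
  have hcpN : IsCoprime (p : ℤ) N :=
    Nat.isCoprime_iff_coprime.2 (hp.coprime_iff_not_dvd.2 hpN)
  induction m with
  | zero =>
    obtain ⟨t, ht, ht0, ht1, ht'⟩ := exists_Gamma0_col (N := N) (u := 1) isCoprime_one_left
    rw [Int.cast_one, one_mul] at ht'
    exact ⟨toR t, hΓ t (mem_Gamma1_of_snd ht ht'), 1, isCoprime_one_left, by simp, det_toR t,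
      by simp [ht0], by simp [ht1]⟩
  | succ m ih =>
    obtain ⟨M, hM, u, hu, hum, hdet, hM0, hM1⟩ := ih
    set x : ℤ := (p : ℤ) ^ 2 * u - p * i * N with hx
    have hxN : IsCoprime x N := by
      rw [hx, sub_eq_add_neg, ← neg_mul]
      exact ((hcpN.pow_left).mul_left hu).add_mul_right_left (-((p : ℤ) * i))
    obtain ⟨γx, hγx, hx0, hx1, -⟩ := exists_Gamma0_col hxN
    set γv := δ * γx
    have hγv : γv ∈ Gamma0 N := mul_mem hδ hγx
    have hv1 : (γv 0 0 : ZMod N) = (p : ZMod N) ^ (m + 1) := by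
      have h1 := cast_fst_mul_snd hδ
      rw [hδp] at h1
      simp only [γv, Matrix.SpecialLinearGroup.coe_mul, Matrix.mul_apply, Fin.sum_univ_two, hx0,
        hx1, hx]
      push_cast
      rw [ZMod.natCast_self, hum, mul_zero, mul_zero, sub_zero, add_zero]
      linear_combination ((p : ZMod N) ^ (m + 1)) * h1
    have hcv : IsCoprime (γv 0 0) (N : ℤ) := by
      obtain ⟨k, hk⟩ := (ZMod.intCast_eq_intCast_iff_dvd_sub ((p : ℤ) ^ (m + 1)) (γv 0 0) N).1
        (by push_cast; exact hv1.symm)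
      rw [show γv 0 0 = (p : ℤ) ^ (m + 1) + k * N by linarith]
      exact hcpN.pow_left.add_mul_right_left k
    obtain ⟨t, ht, ht0, ht1, ht'⟩ := exists_Gamma0_col hcv
    have hγ : t * γv⁻¹ ∈ Gamma1 N := by
      refine mul_inv_mem_Gamma1 ht hγv ?_
      linear_combination (γv 1 1 : ZMod N) * ht' - (t 1 1 : ZMod N) * cast_fst_mul_snd hγv
    refine ⟨toR (t * γv⁻¹) * (toR δ * D) * M, mul_mem (mul_mem (hΓ _ hγ) hδD) hM,
      γv 0 0, hcv, hv1, ?_, ?_⟩
    · rw [Units.val_mul, Units.val_mul, Units.val_mul, Matrix.det_mul, Matrix.det_mul,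
        Matrix.det_mul, hdet, hD, Matrix.det_fin_two_of, det_toR, det_toR]
      simp [hp0]
    have e : toR (t * γv⁻¹) * (toR δ * D) * M = toR t * ((toR γx)⁻¹ * (D * M)) := by
      simp only [γv, map_mul, map_inv, mul_inv_rev]
      group
    have hDM := inv_mul_first_col hx0 hx1 (pow_ne_zero (m + 1) hp0) (D * M) fun k => by
      fin_cases k <;>
        simp [Matrix.mul_apply, Fin.sum_univ_two, hD, hM0, hM1, hx] <;> field_simp <;> ring
    refine ⟨?_, ?_⟩ <;>
      rw [e, Units.val_mul, Matrix.mul_apply, Fin.sum_univ_two, hDM, hDM] <;>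
      simp [ht0, ht1, div_eq_mul_inv]

omit [NeZero N] in
/-- From an element with first column `(u, N) / P`, `u ≡ 1`, one with first column `(1 / P, 0)`. -/
private lemma exists_mem_triangular {G : Subgroup (GL (Fin 2) ℝ)}
    (hΓ : ∀ γ ∈ Gamma1 N, toR γ ∈ G) {M : GL (Fin 2) ℝ} (hM : M ∈ G) {u : ℤ}
    (hu : IsCoprime u N) (hu1 : (u : ZMod N) = 1) (hdet : M.val.det = 1) {P : ℝ} (hP0 : P ≠ 0)
    (hM0 : M.val 0 0 = u / P) (hM1 : M.val 1 0 = N / P) :
    ∃ W ∈ G, W.val 0 0 = 1 / P ∧ W.val 1 0 = 0 ∧ W.val 1 1 = P := by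
  obtain ⟨t, ht, ht0, ht1, ht'⟩ := exists_Gamma0_col hu
  rw [hu1, one_mul] at ht'
  have hcol := inv_mul_first_col ht0 ht1 hP0 M fun k => by fin_cases k <;> simp [hM0, hM1]
  refine ⟨(toR t)⁻¹ * M, mul_mem (inv_mem (hΓ _ (mem_Gamma1_of_snd ht ht'))) hM, hcol 0, hcol 1,
    ?_⟩
  have h1 : ((toR t)⁻¹ * M : GL (Fin 2) ℝ).val.det = 1 := by
    rw [← map_inv, Units.val_mul, Matrix.det_mul, hdet, det_toR, one_mul]
  rw [Matrix.det_fin_two, hcol 0, hcol 1] at h1
  simp only [one_ne_zero, if_true, if_false, mul_zero, sub_zero] at h1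
  field_simp at h1
  exact h1

omit [NeZero N] in
/-- Conjugating the unit translation by a triangular element makes its period small. -/
private lemma translation_mem {G : Subgroup (GL (Fin 2) ℝ)}
    (hΓ : ∀ γ ∈ Gamma1 N, toR γ ∈ G) {W : GL (Fin 2) ℝ} (hW : W ∈ G) {P : ℝ} (hP0 : P ≠ 0)
    (hW00 : W.val 0 0 = 1 / P) (hW10 : W.val 1 0 = 0) (hW11 : W.val 1 1 = P) (k : ℕ) :
    upperTriangularGL 1 (1 / P ^ (2 * k)) 1 (by norm_num) ∈ G := by
  induction k with
  | zero =>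
    have hT : ModularGroup.T ∈ Gamma1 N := by simp [Gamma1_mem, ModularGroup.coe_T]
    convert hΓ _ hT using 1
    refine Units.ext (Matrix.ext fun a c => ?_)
    fin_cases a <;> fin_cases c <;> simp [ModularGroup.coe_T]
  | succ k ih =>
    have e : upperTriangularGL 1 (1 / P ^ (2 * (k + 1))) 1 (by norm_num) * W =
        W * upperTriangularGL 1 (1 / P ^ (2 * k)) 1 (by norm_num) := by
      refine Units.ext (Matrix.ext fun a c => ?_)
      fin_cases a <;> fin_cases c <;>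
        simp [Matrix.mul_apply, Fin.sum_univ_two, hW00, hW10, hW11]
      field_simp
      ring
    rw [eq_mul_inv_of_mul_eq e]
    exact mul_mem (mul_mem hW ih) (inv_mem hW)

/-- A function invariant under `Γ₁(N)` and under an element `δ (p, -i; 0, 1/p)` vanishes. -/
theorem eq_zero_of_slash {g : ℍ → ℂ} {b : PowerSeries ℂ} (hb : HasExp 1 g b)
    (hb0 : PowerSeries.coeff 0 b = 0)
    (hinv : ∀ γ ∈ Gamma1 N, g ∣[(1 : ℤ)] toR γ = g) {p : ℕ} (hp : p.Prime) (hpN : ¬ p ∣ N)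
    {δ : SL(2, ℤ)} (hδ : δ ∈ Gamma0 N) (hδp : (δ 1 1 : ZMod N) = p) (i : ℕ)
    {D : GL (Fin 2) ℝ} (hD : (D : Matrix (Fin 2) (Fin 2) ℝ) = !![(p : ℝ), -(i : ℝ); 0, (p : ℝ)⁻¹])
    (hfix : g ∣[(1 : ℤ)] (toR δ * D) = g) : g = 0 := by
  classical
  let G : Subgroup (GL (Fin 2) ℝ) :=
    { carrier := {M | g ∣[(1 : ℤ)] M = g}
      one_mem' := SlashAction.slash_one _ _
      mul_mem' := fun {a c} ha hc => by
        show g ∣[(1 : ℤ)] (a * c) = g
        rw [SlashAction.slash_mul, show g ∣[(1 : ℤ)] a = g from ha]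
        exact hc
      inv_mem' := fun {a} ha => by
        show g ∣[(1 : ℤ)] a⁻¹ = g
        conv_lhs => rw [← show g ∣[(1 : ℤ)] a = g from ha]
        rw [← SlashAction.slash_mul, mul_inv_cancel, SlashAction.slash_one] }
  have hmem : ∀ {M}, M ∈ G ↔ g ∣[(1 : ℤ)] M = g := Iff.rfl
  have hΓ : ∀ γ ∈ Gamma1 N, toR γ ∈ G := fun γ hγ => hmem.2 (hinv γ hγ)
  set m := N.totient
  have hm : m ≠ 0 := (Nat.totient_pos.2 (NeZero.pos N)).ne'
  obtain ⟨M, hM, u, hu, hum, hdet, hM0, hM1⟩ :=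
    exists_mem_first_col hΓ hp hpN hδ hδp i hD (hmem.2 hfix) m
  have hu1 : (u : ZMod N) = 1 := by
    rw [hum]
    have := ZMod.pow_totient (ZMod.unitOfCoprime p (hp.coprime_iff_not_dvd.2 hpN))
    have h1 := congrArg Units.val this
    rw [Units.val_pow_eq_pow_val, ZMod.coe_unitOfCoprime, Units.val_one] at h1
    exact h1
  set P : ℝ := (p : ℝ) ^ m with hP
  have hP0 : P ≠ 0 := pow_ne_zero _ (Nat.cast_ne_zero.2 hp.ne_zero)
  obtain ⟨W, hW, hW00, hW10, hW11⟩ := exists_mem_triangular hΓ hM hu hu1 hdet hP0 hM0 hM1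
  have hb' : b = 0 := by
    ext n
    rw [map_zero]
    rcases eq_or_ne n 0 with rfl | hn
    · exact hb0
    refine coeff_eq_zero_of_translate hb (Q := p ^ (m * (2 * n))) hn ?_ fun τ => ?_
    · calc n ≤ m * (2 * n) := by nlinarith [Nat.one_le_iff_ne_zero.2 hm]
        _ < _ := Nat.lt_pow_self hp.one_lt
    · set U := upperTriangularGL (1 : ℝ) (1 / P ^ (2 * n)) 1 (by norm_num)
      have h1 := congrFun (hmem.1 (translation_mem hΓ hW hP0 hW00 hW10 hW11 n)) τ
      have hdetU : U.det.val = 1 := by simp [U, Matrix.det_fin_two_of]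
      rw [ModularForm.slash_apply, σ, if_pos (by rw [hdetU]; norm_num), hdetU] at h1
      have hsm : U • τ = (1 / ((p ^ (m * (2 * n)) : ℕ) : ℝ)) +ᵥ τ := by
        refine UpperHalfPlane.ext ?_
        rw [UpperHalfPlane.coe_smul_of_det_pos (by rw [hdetU]; norm_num), UpperHalfPlane.coe_vadd]
        simp [UpperHalfPlane.num, UpperHalfPlane.denom, U, hP, ← pow_mul]
        ring
      rw [hsm] at h1
      simpa [UpperHalfPlane.denom, U] using h1
  exact (hb' ▸ hb).eq_of_series HasExp.zero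

variable {ε : DirichletCharacter ℂ N} {f : CuspForm (Gamma1 N) 1}

section

omit [NeZero N]

/-- A weight one form on `Γ₁(N)` is invariant under `Γ₁(N)`. -/
lemma slash_eq_self {γ : SL(2, ℤ)} (hγ : γ ∈ Gamma1 N) :
    (f : ℍ → ℂ) ∣[(1 : ℤ)] toR γ = f :=
  SlashInvariantFormClass.slash_action_eq f _ (Subgroup.mem_map_of_mem _ hγ)

/-- The translate by an element of `Γ₀(N)` depends only on its lower right entry modulo `N`. -/
lemma slash_eq_of_snd {x y : SL(2, ℤ)} (hx : x ∈ Gamma0 N) (hy : y ∈ Gamma0 N)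
    (h : (x 1 1 : ZMod N) = (y 1 1 : ZMod N)) :
    (f : ℍ → ℂ) ∣[(1 : ℤ)] toR x = (f : ℍ → ℂ) ∣[(1 : ℤ)] toR y := by
  conv_lhs => rw [show x = x * y⁻¹ * y by group, map_mul, SlashAction.slash_mul,
    slash_eq_self (mul_inv_mem_Gamma1 hx hy h)]

lemma periodic_one_of_translate {F : ℍ → ℂ}
    (h : F ∣[(1 : ℤ)] ModularGroup.T = F) : Function.Periodic (F ∘ ofComplex) 1 := by
  refine Complex.ofReal_one ▸ Curve.periodic_comp_ofComplex_of_vadd (w := 1) fun τ => ?_
  have h2 := congrFun h τ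
  rw [ModularForm.SL_slash_apply, modular_T_smul] at h2
  simpa [UpperHalfPlane.denom, ModularGroup.coe_T] using h2

/-- The translate by an element of `Γ₀(N)` has period one. -/
lemma periodic_slash {δ : SL(2, ℤ)} (hδ : δ ∈ Gamma0 N) :
    Function.Periodic (((f : ℍ → ℂ) ∣[(1 : ℤ)] δ) ∘ ofComplex) 1 := by
  refine periodic_one_of_translate ?_
  have hT : ModularGroup.T ∈ Gamma0 N := by simp [Gamma0_mem, ModularGroup.coe_T]
  rw [← SlashAction.slash_mul]
  refine slash_eq_of_snd (mul_mem hδ hT) hδ ?_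
  rw [cast_mul_snd hδ hT]
  simp [ModularGroup.coe_T]

end

/-- The expansion of `U + c · diag`. -/
theorem hasExp_heckeU_add (f : CuspForm (Gamma1 N) 1) {p : ℕ} (hp : p ≠ 0) (c : ℂ) :
    HasExp 1 (heckeU 1 p (f : ℍ → ℂ) + c • ((f : ℍ → ℂ) ∣[(1 : ℤ)] heckeDiagMatrix p))
      (PowerSeries.mk fun n => ModularFormClass.qCoeff f (p * n) +
        c * (if p ∣ n then ModularFormClass.qCoeff f (n / p) else 0)) := by
  have hper : Function.Periodic ((f : ℍ → ℂ) ∘ ofComplex) 1 := by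
    have := periodic_slash (f := f) (one_mem (Gamma0 N))
    rwa [SlashAction.slash_one] at this
  have hbdd : IsBoundedAtImInfty (f : ℍ → ℂ) := by
    have := (CuspFormClass.zero_at_infty_slash f 1).boundedAtFilter
    rwa [SlashAction.slash_one] at this
  have hhol := CuspFormClass.holo f
  have hU : HasExp 1 (heckeU 1 p f) (qExpansion ((1 : ℕ) : ℝ) (heckeU 1 p f)) :=
    HasExp.exists_of_bounded
      (by rw [Nat.cast_one]; exact ModularForm.periodic_heckeU_comp_ofComplex hper 1 p)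
      (ModularForm.mdifferentiable_heckeU hhol 1 p) (ModularForm.isBoundedAtImInfty_heckeU hbdd 1 p)
  have hT : HasExp 1 (heckeT 1 p f) (qExpansion ((1 : ℕ) : ℝ) (heckeT 1 p f)) :=
    HasExp.exists_of_bounded
      (by rw [Nat.cast_one]; exact ModularForm.periodic_heckeT_comp_ofComplex hper 1 p)
      (ModularForm.mdifferentiable_heckeT hhol 1 p) (ModularForm.isBoundedAtImInfty_heckeT hbdd 1 p)
  have hA : (f : ℍ → ℂ) ∣[(1 : ℤ)] heckeDiagMatrix p = heckeT 1 p f - heckeU 1 p f := by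
    rw [ModularForm.heckeT_eq_heckeU_add, add_sub_cancel_left]
  have h1 := hU.add ((hT.sub hU).smul c)
  rw [hA]
  have key := h1.congr_fun (g := heckeU 1 p (f : ℍ → ℂ) + c • (heckeT 1 p f - heckeU 1 p f))
    fun τ => rfl
  convert key using 1
  ext n
  have hu := UpperHalfPlane.qCoeff_heckeU hper hhol hbdd 1 hp n
  have ht := UpperHalfPlane.qCoeff_heckeT hper hhol hbdd 1 hp n
  simp only [ModularFormClass.qCoeff, ModularForm.coeffHeckeU, ModularForm.coeffHeckeT] at hu ht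
  rw [map_add, PowerSeries.coeff_C_mul, map_sub, Nat.cast_one, hu, ht, PowerSeries.coeff_mk,
    add_sub_cancel_left, mul_comm n p]
  simp [ModularFormClass.qCoeff]

/-- The Hecke relation at `p` as an equation between functions. -/
theorem heckeU_add_diag (h : IsEigenOne N ε f) {p : ℕ} (hp : p.Prime) (hpN : ¬ p ∣ N) :
    heckeU 1 p f + ε (p : ZMod N) • ((f : ℍ → ℂ) ∣[(1 : ℤ)] heckeDiagMatrix p) =
      ModularFormClass.qCoeff f p • (f : ℍ → ℂ) := by
  have hper : Function.Periodic ((f : ℍ → ℂ) ∘ ofComplex) 1 := by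
    have := periodic_slash (f := f) (one_mem (Gamma0 N))
    rwa [SlashAction.slash_one] at this
  have hbdd : IsBoundedAtImInfty (f : ℍ → ℂ) := by
    have := (CuspFormClass.zero_at_infty_slash f 1).boundedAtFilter
    rwa [SlashAction.slash_one] at this
  have hf : HasExp 1 (f : ℍ → ℂ) (qExpansion ((1 : ℕ) : ℝ) f) :=
    HasExp.exists_of_bounded (by rw [Nat.cast_one]; exact hper) (CuspFormClass.holo f) hbdd
  refine (hasExp_heckeU_add f hp.ne_zero (ε (p : ZMod N))).eq_of_series ?_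
  convert (hf.smul (ModularFormClass.qCoeff f p)).congr_fun fun τ => rfl using 1
  · funext τ
    rfl
  ext n
  rw [PowerSeries.coeff_mk, h.2 p hp hpN n, PowerSeries.coeff_C_mul]
  simp [ModularFormClass.qCoeff]

omit [NeZero N] in
/-- The `U` operator as a sum over the residues. -/
private lemma heckeU_eq_sum_residues {p : ℕ} [Fact p.Prime] :
    heckeU 1 p f = ∑ j : ZMod p, (f : ℍ → ℂ) ∣[(1 : ℤ)] heckeMatrix p j.val := by
  rw [ModularForm.heckeU_def]
  refine Finset.sum_nbij' (fun j => (j : ZMod p)) ZMod.val (fun _ _ => Finset.mem_univ _)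
    (fun j _ => Finset.mem_range.2 (ZMod.val_lt j)) (fun j hj => ?_) (fun j _ => by simp)
    (fun j hj => ?_)
  · exact ZMod.val_cast_of_lt (Finset.mem_range.1 hj)
  · simp only [ZMod.val_cast_of_lt (Finset.mem_range.1 hj)]

omit [NeZero N] in
/-- Moving the `j`-th translate by `(1, 0; N, 1)` gives the `i`-th, `i (1 + j N) = j`. -/
private lemma heckeMatrix_slash_lower {p : ℕ} [Fact p.Prime] {L : SL(2, ℤ)}
    (hL : L.1 = !![1, 0; (N : ℤ), 1]) {j i : ZMod p} (hij : i * (1 + j * N) = j) :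
    ((f : ℍ → ℂ) ∣[(1 : ℤ)] heckeMatrix p j.val) ∣[(1 : ℤ)] toR L =
      (f : ℍ → ℂ) ∣[(1 : ℤ)] heckeMatrix p i.val := by
  have hp : p.Prime := Fact.out
  obtain ⟨c, hc⟩ := (ZMod.intCast_zmod_eq_zero_iff_dvd
    ((j.val : ℤ) - (i.val : ℤ) * (1 + (j.val : ℤ) * N)) p).1
    (by push_cast; simp only [ZMod.natCast_zmod_val]; rw [hij, sub_self])
  set y : SL(2, ℤ) := ⟨!![1 + (j.val : ℤ) * N, c; (p : ℤ) * N, 1 - (N : ℤ) * i.val], by
    rw [Matrix.det_fin_two_of]; linear_combination (N : ℤ) * hc⟩ with hy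
  have hy1 : y ∈ Gamma1 N := (Gamma1_mem N y).2 (by simp [hy])
  have hmat : heckeMatrix p j.val * toR L = toR y * heckeMatrix p i.val := by
    refine Units.ext ?_
    have hc' := congrArg (Int.cast : ℤ → ℝ) hc
    push_cast at hc'
    simp only [hy, Units.val_mul, val_mk, ModularForm.val_heckeMatrix hp.ne_zero]
    ext a b
    fin_cases a <;> fin_cases b <;>
      simp [Matrix.mul_apply, Fin.sum_univ_two, hL] at hc' ⊢ <;> linarith
  rw [← SlashAction.slash_mul, hmat, SlashAction.slash_mul, slash_eq_self hy1]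

omit [NeZero N] in
/-- The map `j ↦ j / (1 + j N)` matches the translates away from the two poles. -/
private lemma sum_erase_reindex {p : ℕ} [Fact p.Prime] {A : Type*} [AddCommMonoid A]
    {Φ Ψ : ZMod p → A} (hN : (N : ZMod p) ≠ 0)
    (hgen : ∀ j i : ZMod p, i * (1 + j * N) = j → Ψ j = Φ i) :
    ∑ j ∈ Finset.univ.erase (-(N : ZMod p)⁻¹), Ψ j =
      ∑ i ∈ Finset.univ.erase (N : ZMod p)⁻¹, Φ i := by
  have hne : ∀ j : ZMod p, j ≠ -(N : ZMod p)⁻¹ → 1 + j * N ≠ 0 := fun j hj h0 => hj (by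
    field_simp; linear_combination h0)
  have hne' : ∀ i : ZMod p, i ≠ (N : ZMod p)⁻¹ → 1 - i * N ≠ 0 := fun i hi h0 => hi (by
    field_simp; linear_combination -h0)
  refine Finset.sum_nbij' (fun j => j / (1 + j * N)) (fun i => i / (1 - i * N))
    (fun j hj => ?_) (fun i hi => ?_) (fun j hj => ?_) (fun i hi => ?_) (fun j hj => ?_)
  · have := hne j (Finset.ne_of_mem_erase hj)
    refine Finset.mem_erase.2 ⟨fun h0 => ?_, Finset.mem_univ _⟩
    field_simp at h0
    exact one_ne_zero (α := ZMod p) (by linear_combination -h0)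
  · have := hne' i (Finset.ne_of_mem_erase hi)
    refine Finset.mem_erase.2 ⟨fun h0 => ?_, Finset.mem_univ _⟩
    field_simp at h0
    exact one_ne_zero (α := ZMod p) (by linear_combination h0)
  · have := hne j (Finset.ne_of_mem_erase hj)
    field_simp
    ring
  · have := hne' i (Finset.ne_of_mem_erase hi)
    field_simp
    ring
  · exact hgen _ _ (div_mul_cancel₀ _ (hne j (Finset.ne_of_mem_erase hj)))

/-- A combination of translates of `f` over `Γ₀(N)` has an expansion without constant term. -/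
private lemma hasExp_sub_slash (e : ℂ) {δ : SL(2, ℤ)} (hδ : δ ∈ Gamma0 N) {g : ℍ → ℂ}
    (hg : g = (f : ℍ → ℂ) - e • ((f : ℍ → ℂ) ∣[(1 : ℤ)] toR δ)) :
    HasExp 1 g (qExpansion ((1 : ℕ) : ℝ) g) ∧
      PowerSeries.coeff 0 (qExpansion ((1 : ℕ) : ℝ) g) = 0 := by
  subst hg
  set g : ℍ → ℂ := (f : ℍ → ℂ) - e • ((f : ℍ → ℂ) ∣[(1 : ℤ)] toR δ)
  have hper : Function.Periodic (g ∘ ofComplex) 1 := by
    have h1 := periodic_slash (f := f) (one_mem (Gamma0 N))
    rw [SlashAction.slash_one] at h1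
    intro w
    exact congrArg₂ (fun x y => x - e * y) (h1 w) (periodic_slash (f := f) hδ w)
  have hz : IsZeroAtImInfty g := by
    have h1 : IsZeroAtImInfty ((f : ℍ → ℂ) ∣[(1 : ℤ)] (1 : SL(2, ℤ))) :=
      CuspFormClass.zero_at_infty_slash _ 1
    rw [SlashAction.slash_one] at h1
    have h2 := h1.sub ((CuspFormClass.zero_at_infty_slash f δ).const_smul e)
    rw [smul_zero, sub_zero] at h2
    exact h2
  have hhol : MDiff g := by
    have h1 := (CuspFormClass.holo f).slash (1 : ℤ) (toR δ)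
    exact (CuspFormClass.holo f).sub (h1.const_smul e)
  have hexp : HasExp 1 g (qExpansion ((1 : ℕ) : ℝ) g) :=
    HasExp.exists_of_bounded (by rw [Nat.cast_one]; exact hper) hhol hz.boundedAtFilter
  refine ⟨hexp, ?_⟩
  rw [PowerSeries.coeff_zero_eq_constantCoeff]
  exact tendsto_nhds_unique hexp.tendsto_atImInfty hz

/-- Slashing a twisted difference. -/
private lemma sub_smul_slash (e : ℂ) (M : GL (Fin 2) ℝ) (x y : ℍ → ℂ) (hM : 0 < M.det.val) :
    (x - e • y) ∣[(1 : ℤ)] M = x ∣[(1 : ℤ)] M - e • (y ∣[(1 : ℤ)] M) := by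
  rw [sub_eq_add_neg, SlashAction.add_slash, SlashAction.neg_slash, ModularForm.smul_slash, σ,
    if_pos hM, sub_eq_add_neg]
  rfl

/-- The translate by some element of `Γ₀(N)` over a prime is the twist by the character. -/
theorem exists_diamond_prime (h : IsEigenOne N ε f) {p : ℕ} (hp : p.Prime) (hpN : ¬ p ∣ N) :
    ∃ δ ∈ Gamma0 N, (δ 1 1 : ZMod N) = (p : ZMod N) ∧
      (f : ℍ → ℂ) ∣[(1 : ℤ)] toR δ = ε (p : ZMod N) • (f : ℍ → ℂ) := by
  classical
  have := Fact.mk hp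
  set e := ε (p : ZMod N)
  have hp0 : (p : ℝ) ≠ 0 := Nat.cast_ne_zero.2 hp.ne_zero
  have hN : (N : ZMod p) ≠ 0 := fun h0 => hpN ((ZMod.natCast_eq_zero_iff N p).1 h0)
  -- the two exceptional residues and their matrices
  obtain ⟨j0, hj0⟩ : ∃ j : ZMod p, j = -(N : ZMod p)⁻¹ := ⟨_, rfl⟩
  obtain ⟨i1, hi1⟩ : ∃ i : ZMod p, i = (N : ZMod p)⁻¹ := ⟨_, rfl⟩
  obtain ⟨a0, ha0⟩ := (ZMod.intCast_zmod_eq_zero_iff_dvd (1 + (j0.val : ℤ) * N) p).1
    (by push_cast; simp [hj0, hN])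
  set δ : SL(2, ℤ) := ⟨!![a0, (j0.val : ℤ); (N : ℤ), (p : ℤ)], by
    rw [Matrix.det_fin_two_of]; linarith⟩ with hδdef
  obtain ⟨d1, hd1⟩ := (ZMod.intCast_zmod_eq_zero_iff_dvd (1 - (i1.val : ℤ) * N) p).1
    (by push_cast; simp [hi1, hN])
  set δ' : SL(2, ℤ) := ⟨!![(p : ℤ), -(i1.val : ℤ); (N : ℤ), d1], by
    rw [Matrix.det_fin_two_of]; linarith⟩ with hδ'def
  have hδ : δ ∈ Gamma0 N := Gamma0_mem.2 (by simp [hδdef])
  have hδ' : δ' ∈ Gamma0 N := Gamma0_mem.2 (by simp [hδ'def])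
  have hδp : (δ 1 1 : ZMod N) = p := by simp [hδdef]
  have hinvδ : δ' * δ ∈ Gamma1 N := by
    refine mem_Gamma1_of_snd (mul_mem hδ' hδ) ?_
    rw [cast_mul_snd hδ' hδ, hδp]
    have := cast_fst_mul_snd hδ'
    simp [hδ'def] at this ⊢
    linear_combination this
  set L : SL(2, ℤ) := ⟨!![1, 0; (N : ℤ), 1], by simp [Matrix.det_fin_two_of]⟩ with hLdef
  have hL : L ∈ Gamma1 N := (Gamma1_mem N L).2 (by simp [hLdef])
  set A := heckeDiagMatrix p
  set B : ZMod p → GL (Fin 2) ℝ := fun j => heckeMatrix p j.val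
  have hmat : B j0 * toR L = toR δ * A ∧ A * toR L = toR δ' * B i1 := by
    have ha' := congrArg (Int.cast : ℤ → ℝ) ha0
    have hd' := congrArg (Int.cast : ℤ → ℝ) hd1
    push_cast at ha' hd'
    constructor <;> refine Units.ext ?_ <;>
      simp only [B, A, hδdef, hδ'def, hLdef, Units.val_mul, val_mk,
        ModularForm.val_heckeMatrix hp.ne_zero, ModularForm.val_heckeDiagMatrix hp.ne_zero] <;>
      ext a b <;> fin_cases a <;> fin_cases b <;>
        simp [Matrix.mul_apply, Fin.sum_univ_two] at ha' hd' ⊢ <;> linarith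
  -- the Hecke relation and its translate by `L`
  have hrest := sum_erase_reindex (Φ := fun i => (f : ℍ → ℂ) ∣[(1 : ℤ)] B i)
    (Ψ := fun j => ((f : ℍ → ℂ) ∣[(1 : ℤ)] B j) ∣[(1 : ℤ)] toR L) hN fun j i hij =>
      heckeMatrix_slash_lower rfl hij
  rw [← hj0, ← hi1] at hrest
  have E := heckeU_add_diag h hp hpN
  have E' := congrArg (fun F : ℍ → ℂ => F ∣[(1 : ℤ)] toR L) E
  have hdet : ∀ x : SL(2, ℤ), 0 < (toR x).det.val := fun x => by simp
  have hσ : ∀ c : ℂ, σ (toR L) c = c := fun c => by rw [σ, if_pos (hdet L)]; rfl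
  simp only [heckeU_eq_sum_residues, SlashAction.add_slash, ModularForm.smul_slash, hσ,
    slash_eq_self hL, SlashAction.sum_slash] at E'
  rw [← Finset.add_sum_erase _ _ (Finset.mem_univ j0), hrest,
    ← SlashAction.slash_mul _ A (toR L), ← SlashAction.slash_mul _ (heckeMatrix p j0.val) (toR L),
    hmat.1, hmat.2, SlashAction.slash_mul _ (toR δ), SlashAction.slash_mul _ (toR δ')] at E'
  rw [heckeU_eq_sum_residues, ← Finset.add_sum_erase _ _ (Finset.mem_univ i1)] at E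
  -- the difference is fixed by `δ (p, -i; 0, 1/p)`, so vanishes
  set g : ℍ → ℂ := (f : ℍ → ℂ) - e • ((f : ℍ → ℂ) ∣[(1 : ℤ)] toR δ') with hg
  have hgδ : g ∣[(1 : ℤ)] toR δ = (f : ℍ → ℂ) ∣[(1 : ℤ)] toR δ - e • (f : ℍ → ℂ) := by
    rw [hg, sub_smul_slash _ _ _ _ (hdet δ), ← SlashAction.slash_mul, ← map_mul,
      slash_eq_self hinvδ]
  have hgA : (g ∣[(1 : ℤ)] toR δ) ∣[(1 : ℤ)] A = g ∣[(1 : ℤ)] B i1 := by
    rw [hgδ, hg, sub_smul_slash _ _ _ _ (ModularForm.det_heckeDiagMatrix_pos p),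
      sub_smul_slash _ _ _ _ (ModularForm.det_heckeMatrix_pos p _)]
    have := E'.trans E.symm
    linear_combination (norm := (simp only [B, A]; module)) this
  set D := upperTriangularGL (p : ℝ) (-(i1.val : ℝ)) (p : ℝ)⁻¹
    (by rw [mul_inv_cancel₀ hp0]; exact one_ne_zero)
  have hDA : A = D * B i1 := by
    refine Units.ext (Matrix.ext fun a b => ?_)
    fin_cases a <;> fin_cases b <;>
      simp [D, B, A, ModularForm.val_heckeMatrix hp.ne_zero,
        ModularForm.val_heckeDiagMatrix hp.ne_zero, Matrix.mul_apply, Fin.sum_univ_two]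
    field_simp
    ring
  have hfix : g ∣[(1 : ℤ)] (toR δ * D) = g := by
    have h1 := congrArg (fun F : ℍ → ℂ => F ∣[(1 : ℤ)] (B i1)⁻¹) hgA
    simp only [← SlashAction.slash_mul, mul_inv_cancel, SlashAction.slash_one] at h1
    rwa [hDA, show toR δ * (D * B i1) * (B i1)⁻¹ = toR δ * D by group] at h1
  have hb := hasExp_sub_slash e hδ' hg
  have hg0 : g = 0 := eq_zero_of_slash hb.1 hb.2 (fun γ hγ => by
    rw [hg, sub_smul_slash _ _ _ _ (hdet γ), slash_eq_self hγ, ← SlashAction.slash_mul, ← map_mul]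
    congr 2
    refine slash_eq_of_snd (mul_mem hδ' (Gamma1_in_Gamma0 N hγ)) hδ' ?_
    rw [cast_mul_snd hδ' (Gamma1_in_Gamma0 N hγ), ((Gamma1_mem N γ).1 hγ).2.1, mul_one])
    hp hpN hδ hδp i1.val rfl hfix
  refine ⟨δ, hδ, hδp, ?_⟩
  rw [hg0, SlashAction.zero_slash, eq_comm, sub_eq_zero] at hgδ
  exact hgδ

/-- **The character is the nebentypus**: an element of `Γ₀(N)` acts on a weight one eigenform
by the value of `ε` at its lower right entry. -/
theorem diamond_eq (h : IsEigenOne N ε f) (g : SL(2, ℤ)) (hg : g ∈ Gamma0 N) :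
    (f : ℍ → ℂ) ∣[(1 : ℤ)] g = ε (g 1 1 : ZMod N) • (f : ℍ → ℂ) := by
  have hu : IsUnit (g 1 1 : ZMod N) :=
    IsUnit.of_mul_eq_one _ (by rw [mul_comm]; exact cast_fst_mul_snd hg)
  obtain ⟨p, hpgt, hp, hpd⟩ := Nat.forall_exists_prime_gt_and_eq_mod hu N
  have hpN : ¬ p ∣ N := fun hd => absurd (Nat.le_of_dvd (NeZero.pos N) hd) (not_le.2 hpgt)
  obtain ⟨δ, hδ, hδp, hf⟩ := exists_diamond_prime h hp hpN
  rw [← hpd, ModularForm.SL_slash]
  exact (slash_eq_of_snd hg hδ (by rw [hδp, hpd])).trans hf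

end FermatAgent.DS

end
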