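import Fermat.Agent.ES.Ring.Ratio

/-!
# Division values of `℘'`

`dpv M v τ = (2πi)⁻³ ℘'_τ(z_v)` has weight three and expansion `∑ cₑ qm^e` with `cₑ` the signed
divisor sums `derCoeff`.
-/

set_option autoImplicit false

open Filter Topology UpperHalfPlane Complex
open scoped PeriodPair MatrixGroups ModularForm Real Manifold

noncomputable section

namespace FermatAgent.DS

open FermatAgent.ES

/-- `Q(1+Q)/(1-Q)³`. -/
def k2Fun (Q : ℂ) : ℂ := Q * (1 + Q) / (1 - Q) ^ 3

theorem k2Fun_inv (Q : ℂ) : k2Fun Q⁻¹ = -k2Fun Q := by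
  rcases eq_or_ne Q 0 with rfl | h0
  · simp [k2Fun]
  rcases eq_or_ne Q 1 with rfl | h1
  · simp [k2Fun]
  have h2 : (1 : ℂ) - Q ≠ 0 := sub_ne_zero.mpr (Ne.symm h1)
  simp only [k2Fun]
  rw [show (1 - Q⁻¹) = -(1 - Q) / Q by field_simp; ring]
  field_simp
  ring

theorem hasSum_k2Fun {Q : ℂ} (h : ‖Q‖ < 1) :
    HasSum (fun r : ℕ => (r : ℂ) ^ 2 * Q ^ r) (k2Fun Q) := by
  have hQ : (1 : ℂ) - Q ≠ 0 := sub_ne_zero.mpr fun e => by simp [← e] at h
  have h2 := ((hasSum_choose_mul_geometric_of_norm_lt_one 2 h).mul_left (2 : ℂ)).sub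
    (((hasSum_choose_mul_geometric_of_norm_lt_one 1 h).mul_left (3 : ℂ)).sub
      (hasSum_geometric_of_norm_lt_one h))
  rw [show k2Fun Q = 2 * (1 / (1 - Q) ^ (2 + 1)) - (3 * (1 / (1 - Q) ^ (1 + 1)) - (1 - Q)⁻¹) by
    simp only [k2Fun]; field_simp; ring]
  refine h2.congr_fun fun r => ?_
  rw [Nat.cast_choose_two, Nat.choose_one_right]
  push_cast
  ring

theorem rowKernel_k2Fun : RowKernel 2 k2Fun where
  pos := one_le_two
  hasSum h := hasSum_k2Fun h
  inv Q := by rw [k2Fun_inv]; norm_num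
  cont hQ := ContinuousAt.div (by fun_prop) (by fun_prop) (by simp [sub_eq_zero, Ne.symm hQ])

/-- Coefficients of the series of a division value of `℘'`, in any field with a root of unity. -/
def derCoeff {K : Type*} [Field K] (M : ℕ) (ζ : K) (v : Fin 2 → ZMod M) (e : ℕ) : K :=
  if e = 0 then
    (if v 0 = 0 then ζ ^ (v 1).val * (1 + ζ ^ (v 1).val) / (1 - ζ ^ (v 1).val) ^ 3 else 0)
  else ∑ r ∈ e.divisors, (r : K) ^ 2 *
    ((if ((e / r : ℕ) : ZMod M) = v 0 then ζ ^ ((v 1).val * r) else 0) -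
     (if ((e / r : ℕ) : ZMod M) = -v 0 then ζ ^ ((-v 1).val * r) else 0))

/-- The series of a division value of `℘'`. -/
def derSeries {K : Type*} [Field K] (M : ℕ) (ζ : K) (v : Fin 2 → ZMod M) : PowerSeries K :=
  PowerSeries.mk (derCoeff M ζ v)

/-- The series of a division value vanishes below its leading index. -/
theorem derCoeff_eq_zero_of_lt {K : Type*} [Field K] {M : ℕ} [NeZero M] {ζ : K}
    {v : Fin 2 → ZMod M} {e : ℕ} (he : e < leadIdx v) : derCoeff M ζ v e = 0 := by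
  simp only [derCoeff]
  split_ifs with h h0
  · exact absurd (leadIdx_eq_zero.mpr h0) (by omega)
  · rfl
  · refine Finset.sum_eq_zero fun r hr => ?_
    have hle : e / r ≤ e := Nat.div_le_self _ _
    rw [if_neg fun hh => by have := leadIdx_le_of_natCast (Or.inl hh); omega,
      if_neg fun hh => by have := leadIdx_le_of_natCast (Or.inr hh); omega]
    simp

variable (M : ℕ) [NeZero M]

/-- `(2πi)⁻³ ℘'(z_v)`. -/
def dpv (v : Fin 2 → ZMod M) (τ : ℍ) : ℂ :=
  ((2 * (π : ℂ) * Complex.I) ^ 3)⁻¹ * ℘'[perPair τ] (zPt M (liftVec M v) τ)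

theorem derivWeierstrassP_zPt_congr {v v' : Fin 2 → ℤ} (h : ∀ i, (v i : ZMod M) = v' i) (τ : ℍ) :
    ℘'[perPair τ] (zPt M v τ) = ℘'[perPair τ] (zPt M v' τ) := by
  have hmem : zPt M (fun i => v i - v' i) τ ∈ (perPair τ).lattice :=
    (zPt_mem_lattice_iff M _ τ).mpr fun i => by simp [h i]
  have e : zPt M v τ = zPt M v' τ + zPt M (fun i => v i - v' i) τ := by
    simp only [zPt]; push_cast; ring
  rw [e]
  exact (perPair τ).derivWeierstrassP_add_coe _ ⟨_, hmem⟩

theorem dpv_eq_of_lift {v : Fin 2 → ZMod M} {v' : Fin 2 → ℤ}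
    (hv : ∀ i, (v' i : ZMod M) = v i) (τ : ℍ) :
    dpv M v τ = ((2 * (π : ℂ) * Complex.I) ^ 3)⁻¹ * ℘'[perPair τ] (zPt M v' τ) := by
  rw [dpv, derivWeierstrassP_zPt_congr M (v := liftVec M v) (v' := v') (fun i => by simp [hv i])]

theorem hasSum_dpvTerm (z : ℂ) (τ : ℍ) :
    HasSum (fun p : ℤ × ℤ => -2 / (z - (p.1 * τ + p.2)) ^ 3) (℘'[perPair τ] z) := by
  have h := (perPair τ).hasSum_derivWeierstrassP z
  refine ((Equiv.hasSum_iff (perPair τ).latticeEquivProd.symm.toEquiv).mpr h).congr_fun fun p => ?_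
  simp [PeriodPair.latticeEquiv_symm_apply]

/-- `SL(2, ℤ)` permutes the division values of `℘'` in weight three, through its action on `v`. -/
theorem dpv_slash (v : Fin 2 → ZMod M) (γ : SL(2, ℤ)) :
    dpv M v ∣[(3 : ℤ)] γ = dpv M (vmul M v γ) := by
  funext τ
  rw [dpv_eq_of_lift M (v := vmul M v γ) (v' := mulInt γ (liftVec M v))
    (cast_mulInt_liftVec M γ v), ModularForm.SL_slash_apply]
  have hden : UpperHalfPlane.denom (Matrix.SpecialLinearGroup.mapGL ℝ γ) τ =
      (γ 1 0 : ℂ) * τ + γ 1 1 := by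
    simp [UpperHalfPlane.denom]
  rw [show UpperHalfPlane.denom γ τ = _ from hden, dpv, mul_assoc]
  congr 1
  set J : ℂ := (γ 1 0 : ℂ) * τ + γ 1 1
  have h1 := (hasSum_dpvTerm (zPt M (liftVec M v) (γ • τ)) (γ • τ)).mul_right (J ^ (-3 : ℤ))
  have h2 := hasSum_dpvTerm (zPt M (mulInt γ (liftVec M v)) τ) τ
  refine h1.unique (((prodMulEquiv γ).hasSum_iff.mpr h2).congr_fun fun p => ?_)
  simp only [Function.comp_apply, zPt_mulInt_sub, zpow_neg]
  have : J ^ (3 : ℤ) = J ^ 3 := by norm_cast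
  rw [this, mul_pow, div_eq_mul_inv, div_eq_mul_inv, mul_inv]
  ring

/-- The division value of `℘'` at a point `v` not killed by two vanishes nowhere. -/
theorem dpv_ne_zero {v : Fin 2 → ZMod M} (hv : v ≠ 0) (h2 : v + v ≠ 0) (τ : ℍ) :
    dpv M v τ ≠ 0 := by
  refine mul_ne_zero (inv_ne_zero (pow_ne_zero _ Complex.two_pi_I_ne_zero)) fun h => h2 ?_
  set z := zPt M (liftVec M v) τ
  have hz : z ∉ (perPair τ).lattice := fun hm =>
    hv (funext fun i => by simpa using (zPt_mem_lattice_iff M _ τ).mp hm i)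
  have hm := sub_mem_lattice_of_weierstrassP_eq (perPair τ) hz
    (fun hm => hz (by simpa using neg_mem hm)) (PeriodPair.weierstrassP_neg _ z).symm
    (by rw [PeriodPair.derivWeierstrassP_neg, h, neg_zero])
  have e : -z - z = -zPt M (fun i => liftVec M v i + liftVec M v i) τ := by
    simp only [z, zPt]; push_cast; ring
  rw [e, neg_mem_iff] at hm
  funext i
  simpa using (zPt_mem_lattice_iff M _ τ).mp hm i

/-- The division value of `℘'` at `v ≠ 0` has the series `derSeries` as its expansion. -/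
theorem hasExp_dpv {v : Fin 2 → ZMod M} (hv : v ≠ 0) :
    HasExp M (dpv M v) (derSeries M (zetaC M) v) := by
  intro τ
  have hu : ¬ ∀ i, ((liftVec M v i : ℤ) : ZMod M) = 0 := fun h =>
    hv (funext fun i => by simpa using h i)
  obtain ⟨hs, hr⟩ := rowKernel_k2Fun.hasSum_rows (c := derCoeff M (zetaC M) v) (v' := liftVec M v) M
    (by simp [derCoeff, k2Fun])
    (fun e he => by
      norm_num [derCoeff, he, sub_eq_add_neg]; simp only [neg_ite, neg_zero]) τ
  have h := (hasSum_dpvTerm (zPt M (liftVec M v) τ) τ).prod_fiberwise fun m =>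
    ((rowKernel_k2Fun.hasSum_row M hu τ m).mul_left (-2)).congr_fun fun n => by ring
  have h' := hr.unique ((h.mul_left ((2 * (π : ℂ) * Complex.I) ^ 3)⁻¹).congr_fun fun m => by
    simp only [Nat.reduceAdd, Nat.factorial_two, Nat.cast_ofNat]
    field_simp)
  rw [dpv, ← h']
  refine hs.hasSum.congr_fun fun e => ?_
  simp [derSeries]

end FermatAgent.DS
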