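import Fermat.Agent.DS.Periods
import Fermat.Agent.HM.Gal.ParAlg

/-!
# The group `±Γ₁(M)` and its Hecke operators
-/

set_option autoImplicit false
set_option maxSynthPendingDepth 4

noncomputable section

open UpperHalfPlane hiding I
open CongruenceSubgroup ModularCurve ModularCurve.Period Matrix.SpecialLinearGroup MvPolynomial
open scoped MatrixGroups ModularForm OnePoint

namespace FermatAgent.DS

open FermatAgent.HM FermatAgent.LT.Mod3

/-- The units modulo `M` up to sign. -/
abbrev SignQuot (M : ℕ) : Type := (ZMod M)ˣ ⧸ Subgroup.zpowers (-1 : (ZMod M)ˣ)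

/-- The projection to the units up to sign. -/
def signQ (M : ℕ) : (ZMod M)ˣ →* SignQuot M := QuotientGroup.mk' _

/-- The projection to the units up to sign is surjective. -/
theorem signQ_surjective (M : ℕ) : Function.Surjective (signQ M) := QuotientGroup.mk'_surjective _

/-- `-1` is trivial among the units up to sign. -/
theorem signQ_neg_one (M : ℕ) : signQ M (-1) = 1 :=
  (QuotientGroup.eq_one_iff _).mpr (Subgroup.mem_zpowers _)

/-- The group `±Γ₁(M)`. -/
abbrev pmGamma (M : ℕ) : Subgroup SL(2, ℤ) := gammaH (signQ M) (dvd_refl M)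

/-- The lower right entry of an element of `Γ₀(M)`. -/
def lrUnit {M : ℕ} : Gamma0 M →* (ZMod M)ˣ :=
  (lowerRightUnit (N := M) (L := 1)).comp (actsIn_gamma0 (dvd_refl M)).incl

variable {M : ℕ}

/-- The unit attached to an element of `Γ₀(M)` is its lower right entry. -/
@[simp] lemma coe_lrUnit (g : Gamma0 M) :
    ((lrUnit g : (ZMod M)ˣ) : ZMod M) = (((g : SL(2, ℤ)) 1 1 : ℤ) : ZMod M) :=
  coe_lowerRightUnit _

/-- The class of an element of `Γ₀(M)` up to sign is that of its lower right entry. -/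
lemma gammaClass_signQ (g : Gamma0 M) :
    gammaClass (signQ M) (dvd_refl M) g = signQ M (lrUnit g) := rfl

/-- Every unit modulo `M` is the lower right entry of an element of `Γ₀(M)`. -/
theorem exists_lrUnit [NeZero M] (u : (ZMod M)ˣ) : ∃ g : Gamma0 M, lrUnit g = u :=
  gammaClass_surjective (MonoidHom.id _) (dvd_refl M) Function.surjective_id u

/-- `Γ(M)` is contained in `±Γ₁(M)`. -/
lemma gamma_le_pmGamma : Gamma M ≤ pmGamma M := fun _ hg =>
  (mem_gammaH_iff _ _).mpr (gammaClass_eq_one_of_mem_gamma hg)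

/-- The primes not dividing `M`. -/
abbrev GoodPrime (M : ℕ) : Type := {q : Nat.Primes // ¬ (q : ℕ) ∣ M}

/-- A good prime as an index of Hecke operators. -/
def primeIdx (M : ℕ) (q : GoodPrime M) : HPrime 1 := ⟨q.1, Nat.coprime_one_right _⟩

instance factGoodPrime (q : GoodPrime M) : Fact (primeIdx M q).1.1.Prime := ⟨q.1.2⟩

/-- The class of a good prime. -/
def primeUnit (q : GoodPrime M) : (ZMod M)ˣ :=
  ZMod.unitOfCoprime (q.1 : ℕ) ((q.1.2.coprime_iff_not_dvd).mpr q.2)

variable [NeZero M]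

omit [NeZero M] in
theorem exists_shift_gamma0 {ℓ : ℕ} (D : TData M ℓ) (x : OnePoint (ZMod ℓ)) :
    ∃ s : Gamma0 M, D.rep x = ((s : SL(2, ℤ)) : Mat2) *
        repMat ℓ (x.elim ∞ fun j => (((M : ZMod ℓ) * j : ZMod ℓ) : OnePoint (ZMod ℓ))) ∧
      ((lrUnit s : (ZMod M)ˣ) : ZMod M) = x.elim (ℓ : ZMod M) fun _ => 1 := by
  obtain ⟨s, hs⟩ := D.exists_shift x
  have : NeZero ℓ := ⟨D.prime.ne_zero⟩
  have hℓ : (ℓ : ℤ) ≠ 0 := by exact_mod_cast D.prime.ne_zero
  have h : ((s 1 0 : ℤ) : ZMod M) = 0 ∧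
      ((s 1 1 : ℤ) : ZMod M) = x.elim (ℓ : ZMod M) fun _ => 1 := by
    induction x using OnePoint.rec with
    | infty =>
      have hr := D.sig_red
      have e : s = D.sig := mat2_coe_mul_inj
        (show (!![(ℓ : ℤ), 0; 0, 1] : Mat2).det ≠ 0 by
          simp [Matrix.det_fin_two_of, D.prime.ne_zero])
        (by rw [TData.rep_infty, OnePoint.elim_infty] at hs; exact hs.symm)
      subst e
      have h10 := congrFun (congrFun hr 1) 0
      have h11 := congrFun (congrFun hr 1) 1
      simp [redMat, Matrix.mul_apply, Fin.sum_univ_two] at h10 h11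
      have hu : IsUnit ((ℓ : ℕ) : ZMod M) :=
        (ZMod.unitOfCoprime ℓ ((D.prime.coprime_iff_not_dvd).mpr D.not_dvd)).isUnit
      exact ⟨(hu.mul_left_eq_zero).mp h10, by simpa using h11⟩
    | coe j =>
      have h10 := congrFun (congrFun hs 1) 0
      have h11 := congrFun (congrFun hs 1) 1
      simp [TData.rep_coe, Matrix.mul_apply, Fin.sum_univ_two] at h10 h11
      rw [← h10] at h11
      simp only [zero_mul, zero_add] at h11
      have h1 : s 1 1 = 1 := by
        have := mul_right_cancel₀ hℓ (h11.symm.trans (one_mul _).symm)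
        exact this
      simp [← h10, h1]
  exact ⟨⟨s, Gamma0_mem.mpr h.1⟩, hs, by rw [coe_lrUnit]; exact h.2⟩

variable (p : ℕ) [Fact p.Prime]

/-- The shifts of the chosen correspondence at a good prime. -/
def heckeShift (q : GoodPrime M) : HIdx M (primeIdx M q).1.1 → Gamma0 M :=
  (exists_transfer_mem ℤ_[p] (signQ M) (dvd_refl M) (primeIdx M) (signQ_surjective M) q).choose

/-- The chosen correspondence at a good prime. -/
def heckeE (q : GoodPrime M) :
    Corr (sigma0 M 1) (pmGamma M) (pmGamma M) (HIdx M (primeIdx M q).1.1) :=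
  (exists_transfer_mem ℤ_[p] (signQ M) (dvd_refl M) (primeIdx M)
    (signQ_surjective M) q).choose_spec.choose

/-- The chosen correspondence at a good prime has the standard representatives translated by the
chosen shifts, of trivial class. -/
theorem shiftedCorr_heckeE (q : GoodPrime M) : ShiftedCorr (heckeE p q) (heckeShift p q) :=
  (exists_transfer_mem ℤ_[p] (signQ M) (dvd_refl M) (primeIdx M)
    (signQ_surjective M) q).choose_spec.choose_spec.1

/-- The sum of translates along the chosen correspondence has the expansion of `T_q`. -/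
theorem formCoeff_sumForm (q : GoodPrime M) {G : CuspForm (gammaGL M) 2}
    (hG : IsInvForm (pmGamma M) G) :
    ∃ s : Gamma0 M, lrUnit s = primeUnit q ∧ ∀ n : ℕ,
      formCoeff n (sumForm (heckeE p q) gamma_le_pmGamma hG) =
        formCoeff ((q.1 : ℕ) * n) G + ((q.1 : ℕ) : ℂ) *
          (if (q.1 : ℕ) ∣ n then formCoeff (n / (q.1 : ℕ)) (slashForm (s : SL(2, ℤ)) G)
            else 0) := by
  set ℓ : ℕ := (primeIdx M q).1.1
  have hℓ : ℓ.Prime := q.1.2
  have : NeZero ℓ := ⟨hℓ.ne_zero⟩
  obtain ⟨D⟩ := exists_tData hℓ q.2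
  obtain ⟨s, hs, hsd⟩ := exists_shift_gamma0 D ∞
  have hrepinf : D.rep ∞ = ((s : SL(2, ℤ)) : Mat2) * !![(ℓ : ℤ), 0; 0, 1] := by
    rw [hs, OnePoint.elim_infty]
    rfl
  refine ⟨s, Units.ext (hsd.trans rfl), fun n => ?_⟩
  refine formCoeff_hecke D.corr (fun j => D.rep_coe j) _ hrepinf G _ _
    (coe_slashForm _ G) ?_ n
  set h := shiftedCorr_heckeE p q
  have hbij : Function.Bijective (fun y : OnePoint (ZMod ℓ) =>
      (⟨y.elim ∞ fun j => (((M : ZMod ℓ) * j : ZMod ℓ) : OnePoint (ZMod ℓ)), fun _ => q.2⟩ :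
        HIdx M ℓ)) := by
    refine ⟨fun a b e => D.shift_injective (congrArg Subtype.val e), fun w => ?_⟩
    obtain ⟨y, hy⟩ := Finite.injective_iff_surjective.mp D.shift_injective w.1
    exact ⟨y, Subtype.ext hy⟩
  show slashSum (freeCorr (heckeE p q)) G = slashSum D.corr G
  rw [slashSum, slashSum]
  refine (Fintype.sum_bijective _ hbij _ _ fun y => ?_).symm
  obtain ⟨t, ht, htd⟩ := exists_shift_gamma0 D y
  set x : HIdx M ℓ :=
    ⟨y.elim ∞ fun j => (((M : ZMod ℓ) * j : ZMod ℓ) : OnePoint (ZMod ℓ)), fun _ => q.2⟩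
  set r := heckeShift p q x
  have hclass : gammaClass (signQ M) (dvd_refl M) (t * r) = 1 := by
    rw [map_mul, gammaClass_signQ]
    induction y using OnePoint.rec with
    | infty =>
      rw [show gammaClass (signQ M) (dvd_refl M) r = (signQ M (primeUnit q))⁻¹ from
        h.class_infty q.2 (primeUnit q) rfl,
        show lrUnit t = primeUnit q from Units.ext (htd.trans rfl), mul_inv_cancel]
    | coe j =>
      rw [show gammaClass (signQ M) (dvd_refl M) r = 1 from h.class_coe ((M : ZMod ℓ) * j),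
        show lrUnit t = 1 from Units.ext (htd.trans rfl), map_one, mul_one]
  have hmat : D.rep y = (((t * r : Gamma0 M) : SL(2, ℤ)) : Mat2) * (heckeE p q).rep x := by
    rw [h.rep_eq, Subgroup.coe_mul, Matrix.SpecialLinearGroup.coe_mul, Subgroup.coe_inv,
      mul_assoc, ← mul_assoc ((r : SL(2, ℤ)) : Mat2), ← Matrix.SpecialLinearGroup.coe_mul,
      mul_inv_cancel, Matrix.SpecialLinearGroup.coe_one, one_mul]
    exact ht
  show (G : ℍ → ℂ) ∣[(2 : ℤ)] intGL (D.rep y) _ =
    (G : ℍ → ℂ) ∣[(2 : ℤ)] intGL ((heckeE p q).rep x) _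
  rw [intGL_congr hmat, intGL_mul _ _ (by simp) ((heckeE p q).det_ne x), intGL_coe,
    SlashAction.slash_mul]
  congr 1
  exact hG ⟨_, (mem_gammaH_iff _ _).mpr ⟨(t * r).2, hclass⟩⟩

end FermatAgent.DS
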