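import Fermat.Agent.DS.DivValue
import Mathlib.RingTheory.Valuation.ValuationSubring

/-!
# The weight one multiplier

For a prime `l ≥ 5`, `multForm l k = (1 - ζ) ℘'(a)/(℘(a) - ℘(2a))`, `a = k/l`, normalised by powers
of `2πi`: weight one on `Γ₁(l)`, zero-free on `ℍ`, with integral expansion congruent to the
constant `8/(3k)` modulo `1 - ζ`.
-/

set_option autoImplicit false

open Filter Topology UpperHalfPlane
open scoped MatrixGroups ModularForm Manifold

noncomputable section

namespace FermatAgent.DS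

open FermatAgent.ES

section Series

variable {K : Type*} [Field K]

/-- Removing the first `d` coefficients. -/
def dropSeries (d : ℕ) (c : PowerSeries K) : PowerSeries K :=
  PowerSeries.mk fun e => PowerSeries.coeff (e + d) c

theorem X_pow_mul_dropSeries {d : ℕ} {c : PowerSeries K}
    (h : ∀ e < d, PowerSeries.coeff e c = 0) : c = PowerSeries.X ^ d * dropSeries d c := by
  ext e
  rw [PowerSeries.coeff_X_pow_mul']
  split_ifs with hde
  · simp [dropSeries, Nat.sub_add_cancel hde]
  · exact h e (by omega)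

variable (l : ℕ) [NeZero l]

/-- The exact order of the series of `dif l v (2v)`. -/
def gOrd (v : Fin 2 → ZMod l) : ℕ := min (leadIdx v) (leadIdx (v + v))

/-- The series of `gMult`, in any field with a root of unity. -/
def gSeries (ζ : K) (v : Fin 2 → ZMod l) : PowerSeries K :=
  dropSeries (gOrd l v) (derSeries l ζ v) *
    (dropSeries (gOrd l v) (difSeries l ζ v (v + v)))⁻¹

end Series

variable (l : ℕ) [hl : Fact l.Prime]

local instance neZero_multiplierLevel : NeZero l := ⟨hl.out.ne_zero⟩

/-- `℘'(z_v)/(℘(z_v) - ℘(2 z_v))`, normalised. -/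
def gMult (v : Fin 2 → ZMod l) (τ : ℍ) : ℂ := dpv l v τ / dif l v (v + v) τ

variable {l}

theorem natCast_ne_zero_of_lt {n : ℕ} (h0 : n ≠ 0) (hn : n < l) : (n : ZMod l) ≠ 0 := fun h =>
  absurd (Nat.le_of_dvd (Nat.pos_of_ne_zero h0) ((ZMod.natCast_eq_zero_iff _ _).mp h)) (by omega)

theorem adm_double (h5 : 5 ≤ l) {v : Fin 2 → ZMod l} (hv : v ≠ 0) : Adm l v (v + v) := by
  have key : ∀ n : ℕ, n ≠ 0 → n < l → (n : ZMod l) • v ≠ 0 := fun n h0 hn => by
    rw [Ne, smul_eq_zero, not_or]
    exact ⟨natCast_ne_zero_of_lt h0 hn, hv⟩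
  refine ⟨hv, fun h => key 2 (by norm_num) (by omega) ?_, fun h => hv ?_,
    fun h => key 3 (by norm_num) (by omega) ?_⟩
  · rw [Nat.cast_ofNat, two_smul, h]
  · simpa using h.symm
  · rw [Nat.cast_ofNat, show (3 : ZMod l) = 2 + 1 by norm_num, add_smul, two_smul, one_smul]
    nth_rw 3 [h]
    simp

theorem gMult_ne_zero (h5 : 5 ≤ l) {v : Fin 2 → ZMod l} (hv : v ≠ 0) (τ : ℍ) :
    gMult l v τ ≠ 0 :=
  div_ne_zero (dpv_ne_zero l hv (adm_double h5 hv).right τ) ((adm_double h5 hv).dif_ne_zero τ)

theorem gMult_slash (v : Fin 2 → ZMod l) (γ : SL(2, ℤ)) :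
    gMult l v ∣[(1 : ℤ)] γ = gMult l (vmul l v γ) := by
  funext τ
  have e1 := congrFun (dpv_slash l v γ) τ
  have e2 := congrFun (dif_slash l v (v + v) γ) τ
  have hadd : vmul l (v + v) γ = vmul l v γ + vmul l v γ := by simp [vmul, Matrix.add_vecMul]
  rw [ModularForm.SL_slash_apply] at e1 e2
  rw [ModularForm.SL_slash_apply]
  simp only [gMult]
  rw [← hadd, show dif l (vmul l v γ) (vmul l (v + v) γ) τ = _ from e2.symm, ← e1]
  have hJ := UpperHalfPlane.denom_ne_zero (γ : GL (Fin 2) ℝ) τ
  field_simp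

theorem hasExp_gMult (h5 : 5 ≤ l) {v : Fin 2 → ZMod l} (hv : v ≠ 0) :
    HasExp l (gMult l v) (gSeries l (zetaC l) v) := by
  have hA := adm_double h5 hv
  obtain ⟨-, hlow, hu⟩ := difSeries_lead zetaC_goodRoot_top hA.left hA.right hA.ne hA.ne_neg
  have hN : ∀ e < gOrd l v, PowerSeries.coeff e (derSeries l (zetaC l) v) = 0 := fun e he => by
    rw [derSeries, PowerSeries.coeff_mk]
    exact derCoeff_eq_zero_of_lt (lt_of_lt_of_le he (min_le_left _ _))
  have h1 := (hasExp_dpv l hv).div_qm (X_pow_mul_dropSeries hN)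
  have h2 := (hasExp_dif l hA.left hA.right).div_qm (X_pow_mul_dropSeries hlow)
  have hc : PowerSeries.constantCoeff
      (dropSeries (gOrd l v) (difSeries l (zetaC l) v (v + v))) ≠ 0 := by
    rw [← PowerSeries.coeff_zero_eq_constantCoeff, dropSeries, PowerSeries.coeff_mk, zero_add]
    exact hu.1
  refine (h1.mul (h2.inv (fun τ => div_ne_zero (hA.dif_ne_zero τ) (pow_ne_zero _ (qm_ne_zero l τ)))
    hc)).congr_fun fun τ => ?_
  simp only [gMult, gOrd, Pi.mul_apply, Pi.inv_apply]
  field_simp [qm_ne_zero]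

variable (l)

/-- The weight one multiplier. -/
def multForm (k : (ZMod l)ˣ) : ℍ → ℂ := fun τ => (1 - zetaC l) * gMult l ![0, (k : ZMod l)] τ

/-- Its expansion. -/
def multSeries (k : (ZMod l)ˣ) : PowerSeries ℂ :=
  PowerSeries.C (1 - zetaC l) * gSeries l (zetaC l) ![0, (k : ZMod l)]

variable {l}

theorem cVec_ne_zero (k : (ZMod l)ˣ) : ![0, (k : ZMod l)] ≠ 0 := fun h =>
  k.ne_zero (by simpa using congrFun h 1)

theorem one_sub_zetaC_ne_zero : (1 : ℂ) - zetaC l ≠ 0 := fun h =>
  (zetaC_isPrimitiveRoot l).ne_one hl.out.one_lt (sub_eq_zero.mp h).symm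

/-- The multiplier vanishes nowhere for `l ≥ 5`. -/
theorem multForm_ne_zero (h5 : 5 ≤ l) (k : (ZMod l)ˣ) (τ : ℍ) : multForm l k τ ≠ 0 :=
  mul_ne_zero one_sub_zetaC_ne_zero (gMult_ne_zero h5 (cVec_ne_zero k) τ)

/-- The multiplier has the series `multSeries` as its expansion. -/
theorem hasExp_multForm (h5 : 5 ≤ l) (k : (ZMod l)ˣ) :
    HasExp l (multForm l k) (multSeries l k) :=
  (hasExp_gMult h5 (cVec_ne_zero k)).smul _

/-- The multiplier is holomorphic. -/
theorem mdiff_multForm (h5 : 5 ≤ l) (k : (ZMod l)ˣ) : MDiff (multForm l k) :=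
  (hasExp_multForm h5 k).mdifferentiable

theorem slash_multForm (k : (ZMod l)ˣ) (g : SL(2, ℤ)) :
    multForm l k ∣[(1 : ℤ)] g =
      fun τ => (1 - zetaC l) * gMult l (vmul l ![0, (k : ZMod l)] g) τ := by
  funext τ
  rw [← gMult_slash, ModularForm.SL_slash_apply, ModularForm.SL_slash_apply]
  simp only [multForm]
  ring

/-- An element of `Γ₀(l)` with lower right entry `u` sends the multiplier of `k` to that of `k
u`. -/
theorem multForm_slash (k : (ZMod l)ˣ) (g : SL(2, ℤ)) (hg : (l : ℤ) ∣ g 1 0) (u : (ZMod l)ˣ)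
    (hu : (u : ZMod l) = ((g 1 1 : ℤ) : ZMod l)) :
    multForm l k ∣[(1 : ℤ)] g = multForm l (k * u) := by
  have hg' : ((g 1 0 : ℤ) : ZMod l) = 0 := (ZMod.intCast_zmod_eq_zero_iff_dvd _ _).mpr hg
  rw [slash_multForm]
  funext τ
  simp only [multForm]
  congr 2
  funext i
  fin_cases i <;> simp [vmul, Matrix.vecMul, dotProduct, Fin.sum_univ_two, modMat, hg', hu]

/-- The translates of the multiplier are bounded at infinity. -/
theorem isBoundedAtImInfty_multForm_slash (h5 : 5 ≤ l) (k : (ZMod l)ˣ) (g : SL(2, ℤ)) :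
    IsBoundedAtImInfty (multForm l k ∣[(1 : ℤ)] g) := by
  rw [slash_multForm]
  refine ((hasExp_gMult h5 ?_).smul (1 - zetaC l)).isBounded
  exact fun h => cVec_ne_zero k (vmul_injective g (h.trans (vmul_zero g).symm))

/-! ### Integrality and the residue -/

section Residue

variable {O : ValuationSubring ℂ}

theorem zetaC_mem (O : ValuationSubring ℂ) : zetaC l ∈ O := by
  rcases O.mem_or_inv_mem (zetaC l) with h | h
  · exact h
  · have e : zetaC l = (zetaC l)⁻¹ ^ (l - 1) := by
      rw [inv_pow]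
      refine (inv_eq_of_mul_eq_one_left ?_).symm
      rw [← pow_succ', Nat.sub_add_cancel hl.out.one_le, (zetaC_isPrimitiveRoot l).pow_eq_one]
    rw [e]
    exact pow_mem h _

/-- The residue field of a ring with `l` in its maximal ideal has characteristic `l`. -/
theorem charP_residueField (hO : (l : O) ∈ IsLocalRing.maximalIdeal O) :
    CharP (IsLocalRing.ResidueField O) l :=
  (CharP.charP_iff_prime_eq_zero hl.out).mpr (by
    rw [← map_natCast (IsLocalRing.residue O), IsLocalRing.residue_eq_zero_iff]; exact hO)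

/-- `ζ` as an element of `O`. -/
def zetaO (O : ValuationSubring ℂ) : O := ⟨zetaC l, zetaC_mem O⟩

theorem residue_zetaO (hO : (l : O) ∈ IsLocalRing.maximalIdeal O) :
    IsLocalRing.residue O (zetaO (l := l) O) = 1 := by
  have := charP_residueField hO
  have h : (zetaO (l := l) O) ^ l = 1 :=
    Subtype.ext (by simp [zetaO, (zetaC_isPrimitiveRoot l).pow_eq_one])
  refine sub_eq_zero.mp (eq_zero_of_pow_eq_zero (n := l) ?_)
  rw [sub_pow_char, ← map_pow, h, map_one, one_pow, sub_self]

/-- The ratio `(1 - ζ)/(1 - ζ^n)` is a unit with residue `1/n`. -/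
theorem exists_ratio (hO : (l : O) ∈ IsLocalRing.maximalIdeal O) (n : ℕ) (hn : (n : ZMod l) ≠ 0) :
    ∃ t : O, (t : ℂ) = (1 - zetaC l) / (1 - zetaC l ^ n) ∧
      IsLocalRing.residue O t = ((n : IsLocalRing.ResidueField O))⁻¹ := by
  have := charP_residueField hO
  set z := zetaO (l := l) O with hz
  set S : O := ∑ i ∈ Finset.range n, z ^ i
  have hS : IsLocalRing.residue O S = (n : IsLocalRing.ResidueField O) := by
    simp [S, hz, residue_zetaO hO]
  have hn' : (n : IsLocalRing.ResidueField O) ≠ 0 := fun h =>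
    hn ((ZMod.natCast_eq_zero_iff _ _).mpr ((CharP.cast_eq_zero_iff _ l n).mp h))
  have hu : IsUnit S := by
    rw [← IsLocalRing.residue_ne_zero_iff_isUnit, hS]; exact hn'
  obtain ⟨t, ht⟩ := hu.exists_right_inv
  refine ⟨t, ?_, ?_⟩
  · have h1 : ((S : O) : ℂ) * (1 - zetaC l) = 1 - zetaC l ^ n := by
      have := congrArg (fun x : O => (x : ℂ)) (geom_sum_mul_neg z n)
      simpa [S, hz, zetaO] using this
    have h2 : (S : ℂ) * (t : ℂ) = 1 := by exact_mod_cast congrArg (fun x : O => (x : ℂ)) ht
    rw [← h1, mul_comm (S : ℂ), div_mul_eq_div_div, div_self one_sub_zetaC_ne_zero, one_div]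
    exact eq_inv_of_mul_eq_one_right h2
  · refine eq_inv_of_mul_eq_one_left ?_
    rw [← hS, ← map_mul, mul_comm, ht, map_one]

/-- A natural number strictly between `0` and `l` is non-zero in the residue field. -/
private theorem natCast_residue_ne_zero (hO : (l : O) ∈ IsLocalRing.maximalIdeal O) {n : ℕ}
    (h0 : n ≠ 0) (hn : n < l) : (n : IsLocalRing.ResidueField O) ≠ 0 := by
  have := charP_residueField hO
  exact mt (CharP.cast_eq_zero_iff (IsLocalRing.ResidueField O) l n).mp fun h =>
    absurd (Nat.le_of_dvd (Nat.pos_of_ne_zero h0) h) (by omega)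

/-- If the higher coefficients of `c` are integral, `(1 - ζ) ^ m • c` lifts to a series over `O`
whose reduction is the residue of its constant term. -/
private theorem exists_series_lift (hO : (l : O) ∈ IsLocalRing.maximalIdeal O) (c : PowerSeries ℂ)
    {m : ℕ} (hm : m ≠ 0) (x : O) (hx : O.subtype x = (1 - zetaC l) ^ m * PowerSeries.coeff 0 c)
    (hc : ∀ e, e ≠ 0 → PowerSeries.coeff e c ∈ O) :
    ∃ N : PowerSeries O, PowerSeries.map O.subtype N = PowerSeries.C ((1 - zetaC l) ^ m) * c ∧
      PowerSeries.map (IsLocalRing.residue O) N =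
        PowerSeries.C (IsLocalRing.residue O x) := by
  refine ⟨PowerSeries.mk fun e =>
    if he : e = 0 then x else (1 - zetaO (l := l) O) ^ m * ⟨_, hc e he⟩, ?_, ?_⟩
  · ext e
    simp only [PowerSeries.coeff_map, PowerSeries.coeff_C_mul, PowerSeries.coeff_mk]
    split_ifs with he
    · subst he
      exact hx
    · rw [map_mul, map_pow, map_sub, map_one]; rfl
  · ext e
    simp only [PowerSeries.coeff_map, PowerSeries.coeff_mk, PowerSeries.coeff_C]
    split_ifs with he
    · rfl
    · rw [map_mul, map_pow, map_sub, map_one, residue_zetaO hO, sub_self, zero_pow hm, zero_mul]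

/-- A quotient of series over `O` with constant reductions `α` and `β ≠ 0` has integral
coefficients, and reduces to the constant `α / β`. -/
private theorem exists_coeff_residue (F : PowerSeries ℂ) (N D : PowerSeries O)
    {α β : IsLocalRing.ResidueField O} (hβ : β ≠ 0)
    (hF : F * PowerSeries.map O.subtype D = PowerSeries.map O.subtype N)
    (hN : PowerSeries.map (IsLocalRing.residue O) N = PowerSeries.C α)
    (hD : PowerSeries.map (IsLocalRing.residue O) D = PowerSeries.C β) (e : ℕ) :
    ∃ h : PowerSeries.coeff e F ∈ O,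
      IsLocalRing.residue O ⟨_, h⟩ = if e = 0 then α / β else 0 := by
  have hu : IsUnit D := by
    rw [PowerSeries.isUnit_iff_constantCoeff, ← IsLocalRing.residue_ne_zero_iff_isUnit,
      ← PowerSeries.coeff_zero_eq_constantCoeff, ← PowerSeries.coeff_map, hD,
      PowerSeries.coeff_zero_C]
    exact hβ
  obtain ⟨Q, hQ⟩ := hu.exists_right_inv
  have hX : N * Q * D = N := by rw [mul_assoc, mul_comm Q, hQ, mul_one]
  have hmap : PowerSeries.map O.subtype (N * Q) = F :=
    mul_right_cancel₀ (hu.map (PowerSeries.map O.subtype)).ne_zero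
      ((map_mul _ (N * Q) D).symm.trans (by rw [hX, hF]))
  have hco : ((PowerSeries.coeff e (N * Q) : O) : ℂ) = PowerSeries.coeff e F := by
    rw [← hmap, PowerSeries.coeff_map]; rfl
  refine ⟨hco ▸ (PowerSeries.coeff e (N * Q)).2, ?_⟩
  rw [show (⟨_, _⟩ : O) = PowerSeries.coeff e (N * Q) from Subtype.ext hco.symm]
  have h := congrArg (fun P => PowerSeries.coeff e (PowerSeries.map (IsLocalRing.residue O) P)) hX
  simp only [map_mul (PowerSeries.map _) _ D, hN, hD, PowerSeries.coeff_mul_C, PowerSeries.coeff_C,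
    PowerSeries.coeff_map] at h
  split_ifs with he
  · rw [if_pos he] at h
    rw [eq_div_iff hβ, h]
  · rw [if_neg he] at h
    exact (mul_eq_zero.mp h).resolve_right hβ

/-- **The residue of the multiplier is the constant `8/(3k)`.** -/
theorem multSeries_residue (h5 : 5 ≤ l) (k : (ZMod l)ˣ) (O : ValuationSubring ℂ)
    (hO : (l : O) ∈ IsLocalRing.maximalIdeal O) (e : ℕ) :
    ∃ h : PowerSeries.coeff e (multSeries l k) ∈ O, IsLocalRing.residue O ⟨_, h⟩ =
      if e = 0 then (8 / 3 : IsLocalRing.ResidueField O) *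
        (((k : ZMod l).val : IsLocalRing.ResidueField O))⁻¹ else 0 := by
  have := charP_residueField hO
  set v : Fin 2 → ZMod l := ![0, (k : ZMod l)] with hv
  have hA := adm_double h5 (show v ≠ 0 from cVec_ne_zero k)
  have hd : gOrd l v = 0 := by
    simp [gOrd, leadIdx_eq_zero.mpr (show v 0 = 0 from rfl)]
  set z := zetaO (l := l) O with hz
  set a := (v 1).val with ha
  set b := ((v + v) 1).val with hb
  have ha' : (a : ZMod l) = k := by simp [ha, hv]
  have hb' : (b : ZMod l) = 2 * k := by simp [hb, hv, two_mul]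
  have h2 : (2 : ZMod l) ≠ 0 := by
    simpa using natCast_ne_zero_of_lt (l := l) (n := 2) (by norm_num) (by omega)
  obtain ⟨t, ht, htr⟩ := exists_ratio hO a (by rw [ha']; exact k.ne_zero)
  obtain ⟨w, hw, hwr⟩ := exists_ratio hO b (by rw [hb']; exact mul_ne_zero h2 k.ne_zero)
  have hbk : (b : IsLocalRing.ResidueField O) = 2 * (a : IsLocalRing.ResidueField O) := by
    rw [← Nat.cast_ofNat, ← Nat.cast_mul,
      CharP.natCast_eq_natCast (R := IsLocalRing.ResidueField O) l,
      ← ZMod.natCast_eq_natCast_iff, hb', Nat.cast_mul, ha', Nat.cast_ofNat]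
  have hzC : O.subtype z = zetaC l := rfl
  have htC : O.subtype t = (1 - zetaC l) / (1 - zetaC l ^ a) := ht
  have hwC : O.subtype w = (1 - zetaC l) / (1 - zetaC l ^ b) := hw
  have hv2 : (v + v) 0 = 0 := by simp [hv]
  -- numerator and denominator over `O`
  obtain ⟨N, hN, hNr⟩ := exists_series_lift hO (derSeries l (zetaC l) v) (m := 3) (by norm_num)
    (z ^ a * (1 + z ^ a) * t ^ 3) (by
      simp only [derSeries, PowerSeries.coeff_mk, derCoeff, map_mul, map_pow, map_add, map_one,
        hzC, htC, if_true, show v 0 = 0 from rfl, ← ha, div_pow]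
      ring) (fun e he => by
      rw [derSeries, PowerSeries.coeff_mk, derCoeff, if_neg he]
      refine sum_mem fun r _ => mul_mem (pow_mem (natCast_mem O r) _) (sub_mem ?_ ?_) <;>
        split_ifs <;> first | exact pow_mem (zetaC_mem O) _ | exact zero_mem O)
  obtain ⟨D, hD, hDr⟩ := exists_series_lift hO (difSeries l (zetaC l) v (v + v)) (m := 2)
    (by norm_num) (z ^ a * t ^ 2 - z ^ b * w ^ 2) (by
      simp only [difSeries, PowerSeries.coeff_mk, divCoeff, map_mul, map_pow, map_sub, hzC, htC,
        hwC, if_true, show v 0 = 0 from rfl, hv2, ← ha, ← hb, div_pow]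
      ring) (fun e he => by
      rw [difSeries, PowerSeries.coeff_mk, divCoeff, divCoeff, if_neg he, if_neg he]
      refine sub_mem ?_ ?_ <;>
        refine sum_mem fun r _ => mul_mem (natCast_mem O r) (add_mem ?_ ?_) <;>
        split_ifs <;> first | exact pow_mem (zetaC_mem O) _ | exact zero_mem O)
  have h3 : (3 : IsLocalRing.ResidueField O) ≠ 0 := by
    simpa using natCast_residue_ne_zero hO (n := 3) (by norm_num) (by omega)
  have h4 : (4 : IsLocalRing.ResidueField O) ≠ 0 := by
    simpa using natCast_residue_ne_zero hO (n := 4) (by norm_num) (by omega)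
  have ha0 : (a : IsLocalRing.ResidueField O) ≠ 0 :=
    natCast_residue_ne_zero hO (fun h => k.ne_zero (by rw [← ha', h, Nat.cast_zero]))
      (ZMod.val_lt _)
  -- residues of the constant terms
  have hzr : IsLocalRing.residue O z = 1 := residue_zetaO hO
  have hn0 : IsLocalRing.residue O (z ^ a * (1 + z ^ a) * t ^ 3) =
      2 * ((a : IsLocalRing.ResidueField O))⁻¹ ^ 3 := by
    simp only [map_mul, map_add, map_pow, map_one, hzr, htr, one_pow]
    ring
  rw [hn0] at hNr
  have hd0 : IsLocalRing.residue O (z ^ a * t ^ 2 - z ^ b * w ^ 2) =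
      3 / 4 * ((a : IsLocalRing.ResidueField O))⁻¹ ^ 2 := by
    simp only [map_sub, map_mul, map_pow, hzr, htr, hwr, hbk, one_pow, one_mul, mul_inv]
    have h2' : (2 : IsLocalRing.ResidueField O) ≠ 0 := fun h => h4 (by linear_combination 2 * h)
    field_simp
    ring
  rw [hd0] at hDr
  -- identification with the series
  have hc : PowerSeries.constantCoeff (difSeries l (zetaC l) v (v + v)) ≠ 0 := by
    have h := (difSeries_lead zetaC_goodRoot_top hA.left hA.right hA.ne hA.ne_neg).2.2.1
    rw [show min (leadIdx v) (leadIdx (v + v)) = 0 from hd,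
      PowerSeries.coeff_zero_eq_constantCoeff] at h
    exact h
  have hdrop : ∀ c : PowerSeries ℂ, dropSeries 0 c = c := fun c => by ext; simp [dropSeries]
  have hF : multSeries l k * PowerSeries.map O.subtype D = PowerSeries.map O.subtype N := by
    rw [hD, hN, multSeries, gSeries, hd, hdrop, hdrop]
    calc PowerSeries.C (1 - zetaC l) * (derSeries l (zetaC l) v *
          (difSeries l (zetaC l) v (v + v))⁻¹) *
          (PowerSeries.C ((1 - zetaC l) ^ 2) * difSeries l (zetaC l) v (v + v))
        = PowerSeries.C ((1 - zetaC l) ^ 3) * derSeries l (zetaC l) v *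
          ((difSeries l (zetaC l) v (v + v))⁻¹ * difSeries l (zetaC l) v (v + v)) := by
          rw [map_pow, map_pow]; ring
      _ = _ := by rw [PowerSeries.inv_mul_cancel _ hc, mul_one]
  obtain ⟨h, hr⟩ := exists_coeff_residue (multSeries l k) N D
    (mul_ne_zero (div_ne_zero h3 h4) (pow_ne_zero _ (inv_ne_zero ha0))) hF hNr hDr e
  refine ⟨h, hr.trans ?_⟩
  rw [show (k : ZMod l).val = a from rfl]
  congr 1
  field_simp
  ring

/-- The residual constant is not zero. -/
theorem residue_const_ne_zero (h5 : 5 ≤ l) (hO : (l : O) ∈ IsLocalRing.maximalIdeal O) :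
    (8 / 3 : IsLocalRing.ResidueField O) ≠ 0 := by
  have := charP_residueField hO
  have key : ∀ n : ℕ, ¬ l ∣ n → ((n : ℕ) : IsLocalRing.ResidueField O) ≠ 0 := fun n hn =>
    mt (CharP.cast_eq_zero_iff _ l n).mp hn
  have h8 := key 8 fun h => absurd
    ((Nat.prime_dvd_prime_iff_eq hl.out Nat.prime_two).mp
      (hl.out.dvd_of_dvd_pow (show l ∣ 2 ^ 3 by simpa using h))) (by omega)
  have h3 := key 3 fun h => absurd (Nat.le_of_dvd (by norm_num) h) (by omega)
  exact div_ne_zero (by simpa using h8) (by simpa using h3)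

end Residue

end FermatAgent.DS
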