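import Fermat.Agent.DS.Level
import Fermat.Agent.DS.Diamond
import Fermat.Agent.DS.Multiplier
import Mathlib.RingTheory.PowerSeries.Expand

/-!
# The weight two form attached to a weight one eigenform and a prime

For a prime `l ≥ 5`, the products of `f` with the weight one multipliers of level `l` are weight two
forms for `Γ(N l)`, permuted up to `ε` by `Γ₀(N l)`.
-/

set_option autoImplicit false
set_option maxSynthPendingDepth 4

noncomputable section

open UpperHalfPlane hiding I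
open CongruenceSubgroup ModularCurve ModularCurve.Period Matrix.SpecialLinearGroup
open scoped MatrixGroups ModularForm Manifold

namespace FermatAgent.DS

open FermatAgent.HM FermatAgent.LT.Mod3
open FermatAgent.ES (HasExp qm)

/-- Stretching an expansion to a larger width. -/
theorem hasExp_expand {L d : ℕ} [NeZero L] [NeZero d] {g : ℍ → ℂ} {c : PowerSeries ℂ}
    (h : HasExp L g c) : HasExp (L * d) g (c.expand d (NeZero.ne d)) := fun τ => by
  have hinj : Function.Injective fun e : ℕ => d * e := mul_right_injective₀ (NeZero.ne d)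
  have hq : qm L τ = qm (L * d) τ ^ d := by
    rw [ES.qm_eq, ES.qm_eq, ← Complex.exp_nat_mul]
    congr 1
    have h1 : (d : ℂ) ≠ 0 := Nat.cast_ne_zero.2 (NeZero.ne d)
    have h2 : (L : ℂ) ≠ 0 := Nat.cast_ne_zero.2 (NeZero.ne L)
    push_cast
    field_simp
  refine (hinj.hasSum_iff fun e he => ?_).mp ((h τ).congr_fun fun e => ?_)
  · rw [PowerSeries.coeff_expand_of_not_dvd d (NeZero.ne d) c fun ⟨k, hk⟩ => he ⟨k, hk.symm⟩,
      zero_mul]
  · simp only [Function.comp_apply, PowerSeries.coeff_expand_mul, hq, ← pow_mul]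

variable {N : ℕ} [NeZero N] (l : ℕ) [hl : Fact l.Prime]

/-- The level is not zero. -/
local instance neZero_modLevel : NeZero (N * l) := ⟨mul_ne_zero (NeZero.ne N) hl.out.ne_zero⟩

/-- The reduction of units to the first factor. -/
abbrev toLeft (N l : ℕ) : (ZMod (N * l))ˣ →* (ZMod N)ˣ := ZMod.unitsMap (dvd_mul_right N l)

/-- The reduction of units to the second factor. -/
abbrev toRight (N l : ℕ) : (ZMod (N * l))ˣ →* (ZMod l)ˣ := ZMod.unitsMap (dvd_mul_left l N)

variable {ε : DirichletCharacter ℂ N} {f : CuspForm (Gamma1 N) 1}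

section

omit [NeZero N]

omit hl in
lemma coe_toLeft (g : Gamma0 (N * l)) :
    ((toLeft N l (lrUnit g) : (ZMod N)ˣ) : ZMod N) = (((g : SL(2, ℤ)) 1 1 : ℤ) : ZMod N) := by
  refine (ZMod.unitsMap_val _ _).trans ?_
  rw [coe_lrUnit, ZMod.cast_intCast (dvd_mul_right N l)]

lemma coe_toRight (g : Gamma0 (N * l)) :
    ((toRight N l (lrUnit g) : (ZMod l)ˣ) : ZMod l) = (((g : SL(2, ℤ)) 1 1 : ℤ) : ZMod l) := by
  refine (ZMod.unitsMap_val _ _).trans ?_
  rw [coe_lrUnit, ZMod.cast_intCast (dvd_mul_left l N)]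

lemma dvd_of_mem_gamma0 {M : ℕ} {g : SL(2, ℤ)} (hg : g ∈ Gamma0 M) : (M : ℤ) ∣ g 1 0 :=
  (ZMod.intCast_zmod_eq_zero_iff_dvd _ _).mp (Gamma0_mem.mp hg)

omit hl in
lemma mem_gamma0_left (g : Gamma0 (N * l)) : (g : SL(2, ℤ)) ∈ Gamma0 N :=
  Gamma0_mem.mpr ((ZMod.intCast_zmod_eq_zero_iff_dvd _ _).mpr
    ((Int.natCast_dvd_natCast.mpr (dvd_mul_right N l)).trans (dvd_of_mem_gamma0 g.2)))

theorem slash_multForm_level (k : (ZMod l)ˣ) (g : Gamma0 (N * l)) :
    multForm l k ∣[(1 : ℤ)] (g : SL(2, ℤ)) = multForm l (k * toRight N l (lrUnit g)) :=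
  multForm_slash k _ ((Int.natCast_dvd_natCast.mpr (dvd_mul_left l N)).trans
    (dvd_of_mem_gamma0 g.2)) _ (coe_toRight l g)

variable (N) in
/-- Minus the identity. -/
def negOne : Gamma0 (N * l) := ⟨-1, Gamma0_mem.mpr (by simp)⟩

omit hl in
lemma lrUnit_negOne : lrUnit (negOne N l) = -1 := Units.ext (by
  rw [coe_lrUnit]; simp [negOne])

omit hl in
lemma slash_negOne (g : ℍ → ℂ) :
    g ∣[(1 : ℤ)] ((negOne N l : Gamma0 (N * l)) : SL(2, ℤ)) = -g := by
  funext τ
  rw [show ((negOne N l : Gamma0 (N * l)) : SL(2, ℤ)) = -1 from rfl, ModularForm.SL_slash_apply]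
  simp [UpperHalfPlane.denom]

end

omit hl in
theorem slash_eig (h : IsEigenOne N ε f) (g : Gamma0 (N * l)) :
    (f : ℍ → ℂ) ∣[(1 : ℤ)] (g : SL(2, ℤ)) = ε (toLeft N l (lrUnit g) : ZMod N) • (f : ℍ → ℂ) := by
  rw [coe_toLeft]
  exact diamond_eq h _ (mem_gamma0_left l g)

include l in
omit hl in
/-- The character of a weight one eigenform is odd. -/
theorem eig_neg_one (h : IsEigenOne N ε f) : ε (-1) = -1 := by
  have hl1 : ((toLeft N l (-1) : (ZMod N)ˣ) : ZMod N) = -1 := by simp [ZMod.unitsMap_def]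
  have e := (slash_negOne (N := N) l (f : ℍ → ℂ)).symm.trans (slash_eig l h (negOne N l))
  rw [lrUnit_negOne, hl1] at e
  by_contra hne
  have hz : (f : ℍ → ℂ) = 0 := funext fun τ => by
    have h2 := congrFun e τ
    simp only [Pi.neg_apply, Pi.smul_apply, smul_eq_mul] at h2
    have h3 : (ε (-1) + 1) * f τ = 0 := by linear_combination -h2
    exact (mul_eq_zero.mp h3).resolve_left fun h4 => hne (eq_neg_of_add_eq_zero_left h4)
  have h1 := h.1
  simp [ModularFormClass.qCoeff, hz, UpperHalfPlane.qExpansion_zero] at h1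

omit [NeZero N] in
theorem multForm_neg (N : ℕ) (k : (ZMod l)ˣ) : multForm l (k * -1) = -multForm l k := by
  have e := slash_multForm_level (N := N) l k (negOne N l)
  rw [slash_negOne, lrUnit_negOne] at e
  rw [e]
  congr 2
  exact Units.ext (by simp [ZMod.unitsMap_def])

/-- The product of `f` with a multiplier. -/
def modForm (h5 : 5 ≤ l) (f : CuspForm (Gamma1 N) 1) (k : (ZMod l)ˣ) :
    CuspForm (gammaGL (N * l)) 2 where
  toFun := (f : ℍ → ℂ) * multForm l k
  slash_action_eq' := by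
    rintro _ ⟨γ, hγ, rfl⟩
    show ((f : ℍ → ℂ) * multForm l k) ∣[(2 : ℤ)] γ = _
    have h0 := Gamma_mem.1 hγ
    let g : Gamma0 (N * l) := ⟨γ, Gamma0_mem.mpr h0.2.2.1⟩
    have hg : lrUnit g = 1 := Units.ext (by rw [coe_lrUnit]; exact h0.2.2.2)
    have h1 : (f : ℍ → ℂ) ∣[(1 : ℤ)] γ = f := by
      rw [ModularForm.SL_slash]
      refine slash_eq_self ((Gamma1_mem N γ).2 ?_)
      have hle := ES.gamma_le_of_dvd (dvd_mul_right N l) hγ
      exact ⟨(Gamma_mem.1 hle).1, (Gamma_mem.1 hle).2.2.2, (Gamma_mem.1 hle).2.2.1⟩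
    have h2 : multForm l k ∣[(1 : ℤ)] γ = multForm l k :=
      (slash_multForm_level l k g).trans (by rw [hg, map_one, mul_one])
    rw [show (2 : ℤ) = 1 + 1 from rfl, ModularForm.mul_slash_SL2, h1, h2]
  holo' := (CuspFormClass.holo f).mul (mdiff_multForm h5 k)
  zero_at_cusps' := fun {c} hc => by
    rw [Subgroup.IsArithmetic.isCusp_iff_isCusp_SL2Z] at hc
    rw [OnePoint.isZeroAt_iff_forall_SL2Z hc]
    intro δ _
    rw [show (2 : ℤ) = 1 + 1 from rfl, ModularForm.mul_slash_SL2]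
    exact Filter.ZeroAtFilter.mul_boundedAtFilter (CuspFormClass.zero_at_infty_slash _ δ)
      (isBoundedAtImInfty_multForm_slash h5 k δ)

/-- The weight two form is the product of `f` with the multiplier. -/
theorem coe_modForm (h5 : 5 ≤ l) (k : (ZMod l)ˣ) :
    ⇑(modForm l h5 f k) = (f : ℍ → ℂ) * multForm l k := rfl

/-- `Γ₀(N l)` permutes the forms `f · m_k`, multiplied by the character of `f`. -/
theorem modForm_slash (h : IsEigenOne N ε f) (h5 : 5 ≤ l) (k : (ZMod l)ˣ) (g : Gamma0 (N * l)) :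
    slashForm (g : SL(2, ℤ)) (modForm l h5 f k) =
      ε (toLeft N l (lrUnit g) : ZMod N) • modForm l h5 f (k * toRight N l (lrUnit g)) := by
  refine DFunLike.coe_injective ?_
  rw [coe_slashForm, FunLike.coe_smul, coe_modForm, coe_modForm,
    show (2 : ℤ) = 1 + 1 from rfl, ModularForm.mul_slash_SL2, slash_eig l h g,
    slash_multForm_level l k g, smul_mul_assoc]

/-- The form `f · m_k` is invariant under `±Γ₁(N l)`. -/
theorem isInvForm_modForm (h : IsEigenOne N ε f) (h5 : 5 ≤ l) (k : (ZMod l)ˣ) :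
    IsInvForm (pmGamma (N * l)) (modForm l h5 f k) := fun γ => by
  obtain ⟨hγ0, hcl⟩ := (mem_gammaH_iff _ _).mp γ.2
  set g : Gamma0 (N * l) := ⟨(γ : SL(2, ℤ)), hγ0⟩
  have hu : lrUnit g = 1 ∨ lrUnit g = -1 := by
    obtain ⟨n, hn⟩ := Subgroup.mem_zpowers_iff.mp
      ((QuotientGroup.eq_one_iff _).mp (show signQ _ (lrUnit g) = 1 from hcl))
    rcases Int.even_or_odd n with he | ho
    · exact Or.inl (hn.symm.trans (he.neg_one_zpow))
    · exact Or.inr (hn.symm.trans (ho.neg_one_zpow))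
  have e := congrArg DFunLike.coe (modForm_slash l h h5 k g)
  rw [coe_slashForm, FunLike.coe_smul] at e
  refine e.trans ?_
  rcases hu with hu | hu <;> rw [hu]
  · simp
  · have hL : ((toLeft N l (-1) : (ZMod N)ˣ) : ZMod N) = -1 := by simp [ZMod.unitsMap_def]
    have hR : toRight N l (-1) = -1 := Units.ext (by simp [ZMod.unitsMap_def])
    rw [hL, hR, eig_neg_one l h, coe_modForm, coe_modForm, multForm_neg l N k, mul_neg, smul_neg,
      neg_one_smul, neg_neg]

end FermatAgent.DS
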