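import Fermat.Agent.LT.Mod3.Bound

/-!
# Periods of weight two forms on a group containing `Γ(M)`

The period homomorphism of an invariant form is parabolic, determines the form, and intertwines
translations with conjugations and sums of translates with transfers.
-/

set_option autoImplicit false
set_option maxSynthPendingDepth 4

noncomputable section

open UpperHalfPlane hiding I
open CongruenceSubgroup Filter ModularCurve ModularCurve.Period Matrix.SpecialLinearGroup
open scoped MatrixGroups ModularForm Manifold Topology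

namespace FermatAgent.DS

open FermatAgent.HM FermatAgent.LT.Mod3

variable {M : ℕ} [NeZero M]

/-- The translate of a form for `Γ(M)` by an element of `SL(2, ℤ)`. -/
def slashForm (g : SL(2, ℤ)) (G : CuspForm (gammaGL M) 2) : CuspForm (gammaGL M) 2 where
  toFun := (G : ℍ → ℂ) ∣[(2 : ℤ)] g
  slash_action_eq' := by
    rintro _ ⟨γ, hγ, rfl⟩
    have hc : g * γ * g⁻¹ ∈ Gamma M := (Gamma_normal M).conj_mem γ hγ g
    show ((G : ℍ → ℂ) ∣[(2 : ℤ)] g) ∣[(2 : ℤ)] γ = _
    rw [← SlashAction.slash_mul, show g * γ = g * γ * g⁻¹ * g by group, SlashAction.slash_mul,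
      slash_cuspForm G hc]
  holo' := (CuspFormClass.holo G).slash 2 _
  zero_at_cusps' {c} hc := by
    rw [ModularForm.SL_slash,
      show ((g : SL(2, ℤ)) : GL (Fin 2) ℝ) = intGL (g : Mat2) (by simp) from (intGL_coe g).symm]
    exact P2MW.S_CuspFormClass_isZeroAt_heckeU.ModularForm.S06W2.isZeroAt_slash_ratCast G _ hc

/-- The translate of a form is its weight two slash. -/
lemma coe_slashForm (g : SL(2, ℤ)) (G : CuspForm (gammaGL M) 2) :
    ⇑(slashForm g G) = (G : ℍ → ℂ) ∣[(2 : ℤ)] g := rfl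

/-- Invariance of a form for `Γ(M)` under a group. -/
def IsInvForm (Γ : Subgroup SL(2, ℤ)) (G : CuspForm (gammaGL M) 2) : Prop :=
  ∀ γ : Γ, (G : ℍ → ℂ) ∣[(2 : ℤ)] (γ : SL(2, ℤ)) = G

variable {Γ : Subgroup SL(2, ℤ)} {G : CuspForm (gammaGL M) 2}

lemma IsInvForm.equivariant (hG : IsInvForm Γ G) : IsEquivariantPrimitive Γ (formPrim G) := by
  intro γ
  obtain ⟨c, hc⟩ := Period.exists_sub_eq_const
    (fun τ => Period.hasDerivAt_comp_smul (γ : SL(2, ℤ)) (formPrim_spec G) τ)
    (fun τ => by rw [hG γ]; exact formPrim_spec G τ)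
  exact ⟨c, hc⟩

lemma exists_tendsto_formPrim (G : CuspForm (gammaGL M) 2) (δ : SL(2, ℤ)) :
    ∃ L : ℂ, Tendsto (fun w : ℍ => formPrim G (δ • w)) atImInfty (𝓝 L) := by
  obtain ⟨L, H, hHd, hH0, hH⟩ := (Period.exists_primitive G).choose_spec.2.2 δ
  refine ⟨H 0 + L, ?_⟩
  have hc : ContinuousAt H 0 :=
    (hHd.differentiableAt (Metric.ball_mem_nhds _ one_pos)).continuousAt
  have hw : (0 : ℝ) < Period.cuspPeriod (CongruenceSubgroup.Gamma M) := by
    exact_mod_cast Period.cuspPeriod_pos
  exact ((hc.tendsto.comp (qParam_tendsto_atImInfty hw)).add_const L).congr fun w => (hH w).symm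

/-- The period homomorphism of an invariant form. -/
def invPeriod (hG : IsInvForm Γ G) : parabolicHoms ℂ Γ ℂ :=
  ⟨hG.equivariant.periodHom,
    Period.isParabolicHom_periodHom hG.equivariant (exists_tendsto_formPrim G)⟩

/-- The period at `γ` is the difference of a primitive between `γ τ` and `τ`. -/
lemma invPeriod_apply (hG : IsInvForm Γ G) (γ : Γ) (τ : ℍ) :
    (invPeriod hG).1 (Additive.ofMul γ) =
      formPrim G ((γ : SL(2, ℤ)) • τ) - formPrim G τ :=
  (hG.equivariant.sub_eq_period γ τ).symm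

/-- The period homomorphism determines the form. -/
theorem invPeriod_eq_zero (hle : Gamma M ≤ Γ) (hG : IsInvForm Γ G) (h : invPeriod hG = 0) :
    G = 0 :=
  formPeriod_separates G fun γ => by
    rw [← formPeriod_eq γ G UpperHalfPlane.I, ← invPeriod_apply hG ⟨γ, hle γ.2⟩, h]
    rfl

/-- Translation goes to conjugation. -/
theorem invPeriod_slashForm (hG : IsInvForm Γ G) (g : SL(2, ℤ))
    (hG' : IsInvForm Γ (slashForm g G)) (γ γ' : Γ) (h : (γ' : SL(2, ℤ)) = g * γ * g⁻¹) :
    (invPeriod hG').1 (Additive.ofMul γ) = (invPeriod hG).1 (Additive.ofMul γ') := by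
  obtain ⟨c, hc⟩ := Period.exists_sub_eq_const (formPrim_spec (slashForm g G))
    (fun τ => Period.hasDerivAt_comp_smul g (formPrim_spec G) τ)
  rw [invPeriod_apply hG' γ UpperHalfPlane.I, invPeriod_apply hG γ' (g • UpperHalfPlane.I),
    ← mul_smul, h, inv_mul_cancel_right, mul_smul]
  linear_combination hc ((γ : SL(2, ℤ)) • UpperHalfPlane.I) - hc UpperHalfPlane.I

variable {S : Submonoid Mat2} {ι : Type} [Fintype ι]

/-- A correspondence with arbitrary integral representatives. -/
def freeCorr (E : Corr S Γ Γ ι) : Corr (⊤ : Submonoid Mat2) Γ Γ ι :=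
  { E with adj_mem := fun _ => Submonoid.mem_top _ }

omit [NeZero M] in
lemma slashSum_inv (E : Corr S Γ Γ ι) (hG : IsInvForm Γ G) (γ : Γ) :
    slashSum (freeCorr E) G ∣[(2 : ℤ)] (γ : SL(2, ℤ)) = slashSum (freeCorr E) G := by
  rw [slashSum_slash]
  simp only [hG ((freeCorr E).fac γ _)]
  exact Equiv.sum_comp ((freeCorr E).perm γ)
    fun i => (G : ℍ → ℂ) ∣[(2 : ℤ)] intGL ((freeCorr E).rep i) ((freeCorr E).det_ne i)

/-- The sum of the translates of an invariant form. -/
def sumForm (E : Corr S Γ Γ ι) (hle : Gamma M ≤ Γ) (hG : IsInvForm Γ G) :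
    CuspForm (gammaGL M) 2 where
  toFun := slashSum (freeCorr E) G
  slash_action_eq' := by
    rintro _ ⟨γ, hγ, rfl⟩
    have e := slashSum_inv E hG ⟨γ, hle hγ⟩
    rwa [ModularForm.SL_slash] at e
  holo' := MDifferentiable.sum fun i _ => (CuspFormClass.holo G).slash 2 _
  zero_at_cusps' := fun {c} hc => by
    refine P2MW.S_CuspFormClass_isZeroAt_heckeU.ModularForm.S06W2.isZeroAt_sum _ fun i _ => ?_
    exact P2MW.S_CuspFormClass_isZeroAt_heckeU.ModularForm.S06W2.isZeroAt_slash_ratCast G _ hc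

/-- The sum of translates along a correspondence of an invariant form is invariant. -/
lemma isInvForm_sumForm (E : Corr S Γ Γ ι) (hle : Gamma M ≤ Γ) (hG : IsInvForm Γ G) :
    IsInvForm Γ (sumForm E hle hG) := fun γ => slashSum_inv E hG γ

/-- The period homomorphism of a sum of translates is the transfer. -/
theorem invPeriod_sumForm (E : Corr S Γ Γ ι) (hE : ∀ i, 0 < (E.rep i).det) (hle : Gamma M ≤ Γ)
    (hG : IsInvForm Γ G) :
    (invPeriod (isInvForm_sumForm E hle hG)).1 = E.homOp (invPeriod hG).1 := by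
  obtain ⟨c, hc⟩ := Period.exists_sub_eq_const (formPrim_spec (sumForm E hle hG))
    (fun τ => hasDerivAt_primSum (freeCorr E) hE (formPrim_spec G) τ)
  refine AddMonoidHom.ext fun x => ?_
  obtain ⟨γ, rfl⟩ := Additive.ofMul.surjective x
  rw [invPeriod_apply _ γ UpperHalfPlane.I, Corr.homOp_apply]
  set z := (γ : SL(2, ℤ)) • UpperHalfPlane.I
  have e : ∀ i, (invPeriod hG).1 (Additive.ofMul (E.fac γ i)) =
      formPrim G (intGL (E.rep i) (E.det_ne i) • z) -
        formPrim G (intGL (E.rep (E.perm γ i)) (E.det_ne _) • UpperHalfPlane.I) := fun i => by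
    rw [invPeriod_apply hG _ (intGL (E.rep (E.perm γ i)) (E.det_ne _) • UpperHalfPlane.I)]
    congr 2
    simp only [z, ModularGroup.sl_moeb, ← mul_smul]
    congr 1
    have h1 := intGL_congr (E.fac_spec γ i)
      (by rw [Matrix.det_mul, Matrix.SpecialLinearGroup.det_coe, mul_one]; exact E.det_ne i)
    rw [intGL_mul _ _ (E.det_ne i) (by simp), intGL_mul _ _ (by simp) (E.det_ne _), intGL_coe,
      intGL_coe] at h1
    exact h1.symm
  rw [Finset.sum_congr rfl fun i _ => e i, Finset.sum_sub_distrib,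
    Equiv.sum_comp (E.perm γ)
      (fun i => formPrim G (intGL (E.rep i) (E.det_ne i) • UpperHalfPlane.I))]
  have h1 := hc z
  have h2 := hc UpperHalfPlane.I
  simp only [primSum, freeCorr] at h1 h2
  linear_combination h1 - h2

end FermatAgent.DS
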