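import Fermat.Agent.DS.Defs
import Fermat.Agent.RT.Traces

/-!
# A split or irreducible representation with a given trace and determinant
-/

set_option autoImplicit false

noncomputable section

open FermatAgent.RT

namespace FermatAgent.DS

variable {k : Type} [Field k]

/-- An invariant submodule under `diag(1, -1)` and two matrices with nonzero opposite off-diagonal
entries is trivial. -/
theorem isIrreducible_of_entries {G : Type} [Group G] (ρ : G →* GL (Fin 2) k) (h20 : (2 : k) ≠ 0)
    {c g h : G} (hc : (ρ c : Matrix (Fin 2) (Fin 2) k) = !![1, 0; 0, -1])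
    (hg : (ρ g : Matrix (Fin 2) (Fin 2) k) 0 1 ≠ 0)
    (hh : (ρ h : Matrix (Fin 2) (Fin 2) k) 1 0 ≠ 0) :
    (Deformation.matrixRepresentation ρ).IsIrreducible := by
  have key : ∀ W : Subrepresentation (Deformation.matrixRepresentation ρ),
      W = ⊥ ∨ W = ⊤ := by
    intro W
    have hinv : ∀ (x : G), ∀ v ∈ W.toSubmodule,
        (ρ x : Matrix (Fin 2) (Fin 2) k).mulVec v ∈ W.toSubmodule := fun x v hv => by
      have := W.apply_mem_toSubmodule x hv
      simpa using this
    by_cases hbot : W.toSubmodule = ⊥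
    · exact Or.inl (Subrepresentation.toSubmodule_injective hbot)
    obtain ⟨v, hv, hv0⟩ := (Submodule.ne_bot_iff _).mp hbot
    have hcv := hinv c v hv
    have he0 : v 0 • (Pi.single 0 1 : Fin 2 → k) ∈ W.toSubmodule := by
      have := W.toSubmodule.smul_mem (2 : k)⁻¹ (W.toSubmodule.add_mem hv hcv)
      convert this using 1
      ext i
      fin_cases i <;>
        simp [hc, Matrix.vecHead, Matrix.vecTail]
      field_simp
      ring
    have he1 : v 1 • (Pi.single 1 1 : Fin 2 → k) ∈ W.toSubmodule := by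
      have := W.toSubmodule.sub_mem hv he0
      convert this using 1
      ext i; fin_cases i <;> simp
    have h0 : (Pi.single 0 1 : Fin 2 → k) ∈ W.toSubmodule ∨
        (Pi.single 1 1 : Fin 2 → k) ∈ W.toSubmodule := by
      by_cases h : v 0 = 0
      · refine Or.inr ?_
        have h1 : v 1 ≠ 0 := fun h1 => hv0 (funext fun i => by fin_cases i <;> assumption)
        simpa [smul_smul, h1] using W.toSubmodule.smul_mem (v 1)⁻¹ he1
      · refine Or.inl ?_
        simpa [smul_smul, h] using W.toSubmodule.smul_mem (v 0)⁻¹ he0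
    have hboth : (Pi.single 0 1 : Fin 2 → k) ∈ W.toSubmodule ∧
        (Pi.single 1 1 : Fin 2 → k) ∈ W.toSubmodule := by
      rcases h0 with h0 | h1
      · refine ⟨h0, ?_⟩
        have hh0 := hinv h _ h0
        have := W.toSubmodule.smul_mem ((ρ h : Matrix (Fin 2) (Fin 2) k) 1 0)⁻¹
          (W.toSubmodule.sub_mem hh0
            (W.toSubmodule.smul_mem ((ρ h : Matrix (Fin 2) (Fin 2) k) 0 0) h0))
        convert this using 1
        ext i; fin_cases i <;> simp [hh]
      · refine ⟨?_, h1⟩
        have hg1 := hinv g _ h1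
        have := W.toSubmodule.smul_mem ((ρ g : Matrix (Fin 2) (Fin 2) k) 0 1)⁻¹
          (W.toSubmodule.sub_mem hg1
            (W.toSubmodule.smul_mem ((ρ g : Matrix (Fin 2) (Fin 2) k) 1 1) h1))
        convert this using 1
        ext i; fin_cases i <;> simp [hg]
    refine Or.inr (Subrepresentation.toSubmodule_injective (eq_top_iff.mpr fun w _ => ?_))
    rw [show w = w 0 • (Pi.single 0 1 : Fin 2 → k) + w 1 • Pi.single 1 1 from
      funext fun i => by fin_cases i <;> simp]
    exact W.toSubmodule.add_mem (W.toSubmodule.smul_mem _ hboth.1)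
      (W.toSubmodule.smul_mem _ hboth.2)
  have : Nontrivial (Subrepresentation (Deformation.matrixRepresentation ρ)) :=
    ⟨⊥, ⊤, fun e => (bot_ne_top : (⊥ : Submodule k (Fin 2 → k)) ≠ ⊤)
      (congrArg Subrepresentation.toSubmodule e)⟩
  exact ⟨key⟩

/-- **A trace and determinant of finite level with a complex conjugation of trace zero comes from
a representation which is irreducible or diagonal.** -/
theorem exists_rep_of_traceDet (D : TraceDet GQ k) (h20 : (2 : k) ≠ 0) {c : GQ} (hc : c * c = 1)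
    (htc : D.t c = 0) {L : IntermediateField ℚ (AlgebraicClosure ℚ)} (hL : FiniteDimensional ℚ L)
    (hlev : ∀ τ : GQ, (∀ x ∈ L, τ x = x) → ∀ g, D.t (g * τ) = D.t g) :
    ∃ ρ : GQ →* GL (Fin 2) k, GaloisFactorsThroughFiniteLevel ρ ∧ IsSplitOrIrreducible ρ ∧
      (∀ τ : GQ, (∀ g, D.t (g * τ) = D.t g) → ρ τ = 1) ∧
      ∀ g, ((ρ g : GL (Fin 2) k) : Matrix (Fin 2) (Fin 2) k).trace = D.t g ∧
        ((ρ g : GL (Fin 2) k) : Matrix (Fin 2) (Fin 2) k).det = D.d g := by
  classical
  have hhalf : (2 : k) * (2 : k)⁻¹ = 1 := mul_inv_cancel₀ h20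
  obtain ⟨R, hR, hRt, hsplit⟩ : ∃ R : GQ →* Matrix (Fin 2) (Fin 2) k,
      (∀ τ, (∀ g, D.t (g * τ) = D.t g) → R τ = 1) ∧ (∀ g, (R g).trace = D.t g) ∧
      ((∀ g, R g 0 1 = 0 ∧ R g 1 0 = 0) ∨
        ∃ g₀ h₀, R c = !![1, 0; 0, -1] ∧ R g₀ 0 1 ≠ 0 ∧ R h₀ 1 0 ≠ 0) := by
    have hcc : ∀ x, c * (c * x) = x := fun x => by rw [← mul_assoc, hc, one_mul]
    have hA1 : D.entA (2 : k)⁻¹ c 1 = 1 := by
      rw [D.entA_eq, D.t_one, mul_one, htc, add_zero, mul_comm, hhalf]
    have hD1 : D.entD (2 : k)⁻¹ c 1 = 1 := by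
      have h := D.entA_add_entD (half := (2 : k)⁻¹) (c := c) 1
      rw [hA1, D.t_one] at h
      linear_combination h
    by_cases hX : ∃ g₀ h₀, D.entX (2 : k)⁻¹ c g₀ h₀ ≠ 0
    · obtain ⟨g₀, h₀, hne⟩ := hX
      have hN := mul_inv_cancel₀ hne
      refine ⟨D.rep hhalf hc htc g₀ h₀ _ hN, fun τ hτ => ?_, D.trace_rep hhalf hc htc hN,
        Or.inr ⟨g₀, h₀, ?_, ?_, ?_⟩⟩
      · have hτ' : ∀ a b, D.t (a * (τ * b)) = D.t (a * b) := fun a b => by
          rw [← mul_assoc, D.t_comm, ← mul_assoc, hτ, D.t_comm]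
        have hτ1 : D.t τ = D.t 1 := by simpa using hτ 1
        have e1 : D.t (c * τ) = D.t c := hτ c
        rw [← map_one (D.rep hhalf hc htc g₀ h₀ _ hN), D.rep_apply, D.rep_apply]
        simp only [mul_one, one_mul, hτ1, e1, hτ', hτ, show D.t (τ * h₀) = D.t h₀ by
          rw [D.t_comm, hτ], show c * (g₀ * τ) = c * g₀ * τ from (mul_assoc _ _ _).symm]
      · have e : D.entA (2 : k)⁻¹ c c = 1 := by
          rw [D.entA_eq, htc, hc, D.t_one, zero_add, mul_comm, hhalf]
        have e' : D.entD (2 : k)⁻¹ c c = -1 := by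
          have h := D.entA_add_entD (half := (2 : k)⁻¹) (c := c) c
          rw [e, htc] at h
          linear_combination h
        have ex : ∀ b, D.entX (2 : k)⁻¹ c c b = 0 := fun b => by
          rw [D.entX_eq hhalf hc htc, hcc, htc, hc, D.t_one, zero_add, mul_comm _ (2 : k), hhalf]
          ring
        have ex' : D.entX (2 : k)⁻¹ c g₀ c = 0 := by
          rw [D.entX_eq hhalf hc htc, htc, hc, D.t_one, zero_add, mul_comm _ (2 : k), hhalf,
            D.t_comm g₀ c, show c * (g₀ * c) = c * g₀ * c from (mul_assoc _ _ _).symm,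
            D.t_comm (c * g₀) c, hcc]
          ring
        show !![_, _; _, _] = _
        rw [e, e', ex, ex', zero_mul]
      · show D.entX (2 : k)⁻¹ c g₀ h₀ * _ ≠ 0
        rw [hN]; exact one_ne_zero
      · exact hne
    · push Not at hX
      have hA : ∀ g h, D.entA (2 : k)⁻¹ c (g * h) = D.entA _ c g * D.entA _ c h := fun g h => by
        rw [D.entA_mul hhalf hc htc, hX, add_zero]
      have hD : ∀ g h, D.entD (2 : k)⁻¹ c (g * h) = D.entD _ c g * D.entD _ c h := fun g h => by
        rw [D.entD_mul hhalf hc htc, hX, add_zero]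
      refine ⟨
        { toFun := fun g => !![D.entA (2 : k)⁻¹ c g, 0; 0, D.entD (2 : k)⁻¹ c g]
          map_one' := by rw [hA1, hD1, Matrix.one_fin_two]
          map_mul' := fun g h => by rw [hA, hD, Matrix.mul_fin_two]; simp },
        fun τ hτ => ?_, fun g => by simp [Matrix.trace_fin_two, D.entA_add_entD],
        Or.inl fun g => by simp⟩
      have e : D.entA (2 : k)⁻¹ c τ = 1 := by
        have h1 : D.t τ = D.t 1 := by simpa using hτ 1
        rw [← hA1, D.entA_eq, D.entA_eq, h1, mul_one, hτ]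
      have e' : D.entD (2 : k)⁻¹ c τ = 1 := by
        have h := D.entA_add_entD (half := (2 : k)⁻¹) (c := c) τ
        rw [e, show D.t τ = D.t 1 by simpa using hτ 1, D.t_one] at h
        linear_combination h
      simp [e, e', Matrix.one_fin_two]
  have hdet : ∀ g, (R g).det = D.d g := fun g => by
    have h5 : (R g).trace * (R g).trace = (R g * R g).trace + 2 * (R g).det := by
      simp [Matrix.trace_fin_two, Matrix.det_fin_two, Matrix.mul_apply, Fin.sum_univ_two]
      ring
    rw [← map_mul, hRt, hRt] at h5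
    refine mul_left_cancel₀ h20 ?_
    linear_combination -h5 - D.t_sq g
  refine ⟨R.toHomUnits, ⟨L, hL, fun σ hσ => Units.ext (hR σ fun g => hlev σ hσ g)⟩, ?_,
    fun τ hτ => Units.ext (hR τ hτ), fun g => ⟨hRt g, hdet g⟩⟩
  rcases hsplit with h | ⟨g₀, h₀, hc', h01, h10⟩
  · exact Or.inr h
  · exact Or.inl (isIrreducible_of_entries R.toHomUnits h20 hc' h01 h10)

end FermatAgent.DS
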